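/-
M1 (S44), chapter NODE, brick N1 (helper25): **the abstract thick node** (`A_{e-1}` point in field
form) and its vertical functions.  Mathlib only.

`F` a field (the function field over `L`), `C ⊂ F` the local ring of the model at a node `s`,
`O1 O2` the two Gauss valuation rings (generic points of the two components through `s`), `π` the
uniformiser of the base, `x y ∈ C` the node coordinates with `x y = π ^ e * unit`
(`x` vanishes on the component `2`, `y` on the component `1`), `𝔪_C = (π, x, y)`.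

`ThickNode C O1 O2 π x y e` records exactly the elementary facts (all in membership form, no ideals,
no quotients) that the base change `C = O_{s,K}[π_L]` of a regular node over the inertial field
`K = L^I` satisfies (`BaseNode25`).  Main results:

* `ThickNode.vertical` : every `w ∈ F^×` which is a unit of `C[1/π]` ("purely vertical at `s`") is
  `ε π ^ a x ^ b` with `ε ∈ C^×`, `a b : ℤ`;
* `ThickNode.thickness_dvd` : for such `w`, `e ∣ v₂(w) - v₁(w)` (valuations normalised by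
  `v_j(π) = 1`): the abstract thickness `t_s` of #378 is a multiple of `e`;
* `ThickNode.val_x` : `v₁(x) = 0`, `v₂(x) = e`, so `t_s = e` exactly.
-/
import Mathlib

set_option autoImplicit false

namespace Fermat.Agent.M1.Node.Thick25

variable {F : Type*} [Field F]

/-! ### Valuation subrings with a uniformiser -/

section Unif

variable (O : ValuationSubring F) (π : F)

/-- `π` is a uniformiser of the valuation subring `O` (membership form, as in `NumData13`). -/
structure IsUnifOf : Prop where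
  nonunit : π⁻¹ ∉ O
  unif : ∀ z ∈ O, z⁻¹ ∉ O → ∃ c ∈ O, z = π * c

variable {O π}

theorem IsUnifOf.ne_zero (h : IsUnifOf O π) : π ≠ 0 := by
  rintro rfl
  exact h.nonunit (by simp)

theorem IsUnifOf.val_lt_one (h : IsUnifOf O π) : O.valuation π < 1 := by
  have h1 : ¬ O.valuation π⁻¹ ≤ 1 := fun hle => h.nonunit ((O.valuation_le_one_iff _).mp hle)
  have h2 : 1 < O.valuation π⁻¹ := not_le.mp h1
  rw [map_inv₀] at h2
  have hpos : 0 < O.valuation π := by
    rw [pos_iff_ne_zero, Valuation.ne_zero_iff]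
    exact h.ne_zero
  exact (one_lt_inv₀ hpos).mp h2

theorem IsUnifOf.val_pos (h : IsUnifOf O π) : 0 < O.valuation π := by
  rw [pos_iff_ne_zero, Valuation.ne_zero_iff]
  exact h.ne_zero

theorem IsUnifOf.val_ne_zero (h : IsUnifOf O π) : O.valuation π ≠ 0 := h.val_pos.ne'

/-- Non-units of `O` have valuation at most that of `π`. -/
theorem IsUnifOf.val_le_of_lt_one (h : IsUnifOf O π) {z : F} (hz : O.valuation z < 1) :
    O.valuation z ≤ O.valuation π := by
  by_cases hz0 : z = 0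
  · subst hz0
    simp
  have hzO : z ∈ O := (O.valuation_le_one_iff _).mp hz.le
  have hzinv : z⁻¹ ∉ O := by
    intro hmem
    have h1 : O.valuation z⁻¹ ≤ 1 := (O.valuation_le_one_iff _).mpr hmem
    rw [map_inv₀] at h1
    have hpos : 0 < O.valuation z := by
      rw [pos_iff_ne_zero, Valuation.ne_zero_iff]
      exact hz0
    have h2 : 1 ≤ O.valuation z := (inv_le_one₀ hpos).mp h1
    exact absurd hz (not_lt.mpr h2)
  obtain ⟨c, hc, rfl⟩ := h.unif z hzO hzinv
  rw [map_mul]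
  exact mul_le_of_le_one_right' ((O.valuation_le_one_iff _).mpr hc)

/-- Membership in `π O` in valuation form. -/
theorem IsUnifOf.mem_pi_iff (h : IsUnifOf O π) (z : F) :
    (∃ o ∈ O, z = π * o) ↔ O.valuation z < 1 := by
  constructor
  · rintro ⟨o, ho, rfl⟩
    rw [map_mul]
    calc O.valuation π * O.valuation o ≤ O.valuation π * 1 :=
          mul_le_mul' le_rfl ((O.valuation_le_one_iff _).mpr ho)
      _ = O.valuation π := mul_one _
      _ < 1 := h.val_lt_one
  · intro hz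
    refine ⟨π⁻¹ * z, ?_, ?_⟩
    · rw [← O.valuation_le_one_iff, map_mul, map_inv₀]
      have := h.val_le_of_lt_one hz
      rw [inv_mul_le_iff₀ h.val_pos, mul_one]
      exact this
    · rw [← mul_assoc, mul_inv_cancel₀ h.ne_zero, one_mul]

/-- An element of `O` dividing `π ^ m` has valuation `v(π) ^ k`, `k ≤ m`. -/
theorem IsUnifOf.val_eq_pow_of_le (h : IsUnifOf O π) :
    ∀ (m : ℕ) (z : F), O.valuation z ≤ 1 → O.valuation π ^ m ≤ O.valuation z →
      ∃ k : ℕ, k ≤ m ∧ O.valuation z = O.valuation π ^ k := by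
  intro m
  induction m with
  | zero =>
    intro z hz1 hz2
    rw [pow_zero] at hz2
    exact ⟨0, le_refl _, by rw [pow_zero]; exact le_antisymm hz1 hz2⟩
  | succ m ih =>
    intro z hz1 hz2
    rcases lt_or_eq_of_le hz1 with hlt | heq
    · have hle := h.val_le_of_lt_one hlt
      have hc1 : O.valuation (π⁻¹ * z) ≤ 1 := by
        rw [map_mul, map_inv₀, inv_mul_le_iff₀ h.val_pos, mul_one]
        exact hle
      have hc2 : O.valuation π ^ m ≤ O.valuation (π⁻¹ * z) := by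
        rw [map_mul, map_inv₀, le_inv_mul_iff₀ h.val_pos, ← pow_succ']
        exact hz2
      obtain ⟨k, hk, hkz⟩ := ih (π⁻¹ * z) hc1 hc2
      refine ⟨k + 1, Nat.succ_le_succ hk, ?_⟩
      have : z = π * (π⁻¹ * z) := by
        rw [← mul_assoc, mul_inv_cancel₀ h.ne_zero, one_mul]
      rw [this, map_mul, hkz, pow_succ']
    · exact ⟨0, Nat.zero_le _, by rw [heq, pow_zero]⟩

/-- A unit of `O[1/π]` has valuation an integral power of `v(π)`. -/
theorem IsUnifOf.exists_zpow (h : IsUnifOf O π) {w : F} (hw : w ≠ 0) {n n' : ℕ}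
    (h1 : π ^ n * w ∈ O) (h2 : π ^ n' * w⁻¹ ∈ O) :
    ∃ a : ℤ, O.valuation w = O.valuation π ^ a := by
  have hz1 : O.valuation (π ^ n * w) ≤ 1 := (O.valuation_le_one_iff _).mpr h1
  have hz2' : O.valuation (π ^ n' * w⁻¹) ≤ 1 := (O.valuation_le_one_iff _).mpr h2
  have hz2 : O.valuation π ^ (n + n') ≤ O.valuation (π ^ n * w) := by
    have : π ^ (n + n') = (π ^ n * w) * (π ^ n' * w⁻¹) := by
      field_simp
      ring
    rw [← map_pow, this, map_mul]
    exact mul_le_of_le_one_right' hz2'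
  obtain ⟨k, -, hk⟩ := h.val_eq_pow_of_le (n + n') _ hz1 hz2
  refine ⟨(k : ℤ) - n, ?_⟩
  rw [map_mul, map_pow] at hk
  rw [zpow_sub₀ h.val_ne_zero, zpow_natCast, zpow_natCast, ← hk]
  rw [mul_div_assoc, mul_comm, div_mul_cancel₀]
  exact pow_ne_zero _ h.val_ne_zero

theorem IsUnifOf.zpow_injective (h : IsUnifOf O π) {a b : ℤ}
    (hab : O.valuation π ^ a = O.valuation π ^ b) : a = b :=
  zpow_right_injective₀ h.val_pos h.val_lt_one.ne hab

end Unif

/-! ### The thick node -/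

section Node

variable (C : Subring F) (O1 O2 : ValuationSubring F) (π x y : F) (e : ℕ)

/-- **The abstract thick node** (`A_{e-1}` point) in field form.  `x` vanishes on the component `2`,
`y` on the component `1`; `x y = π ^ e * unit`; `𝔪_C = (π, x, y)`; `C` is `π`-saturated in
`O1 ∩ O2`; `C ∩ π O1 = (π, y)`, `C ∩ π O2 = (π, x)`. -/
structure ThickNode : Prop where
  e_pos : 0 < e
  pi_mem : π ∈ C
  x_mem : x ∈ C
  y_mem : y ∈ C
  le1 : ∀ c ∈ C, c ∈ O1
  le2 : ∀ c ∈ C, c ∈ O2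
  unif1 : IsUnifOf O1 π
  unif2 : IsUnifOf O2 π
  sat : ∀ c ∈ C, (∃ o ∈ O1, c = π * o) → (∃ o ∈ O2, c = π * o) → ∃ c' ∈ C, c = π * c'
  xy : ∃ u ∈ C, ∃ u' ∈ C, u * u' = 1 ∧ x * y = π ^ e * u
  x_unit1 : ¬ ∃ o ∈ O1, x = π * o
  y_unit2 : ¬ ∃ o ∈ O2, y = π * o
  nonunit : ∀ c ∈ C, c⁻¹ ∉ C → ∃ a ∈ C, ∃ b ∈ C, ∃ d ∈ C, c = a * π + b * x + d * y
  proper : ∀ a ∈ C, ∀ b ∈ C, ∀ d ∈ C, a * π + b * x + d * y ≠ 1
  vert1 : ∀ c ∈ C, (∃ o ∈ O1, c = π * o) → ∃ a ∈ C, ∃ b ∈ C, c = a * π + b * y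
  vert2 : ∀ c ∈ C, (∃ o ∈ O2, c = π * o) → ∃ a ∈ C, ∃ b ∈ C, c = a * π + b * x

variable {C O1 O2 π x y e}

namespace ThickNode

variable (h : ThickNode C O1 O2 π x y e)
include h

theorem pi_ne_zero : π ≠ 0 := h.unif1.ne_zero

theorem val1_le_one {c : F} (hc : c ∈ C) : O1.valuation c ≤ 1 :=
  (O1.valuation_le_one_iff _).mpr (h.le1 c hc)

theorem val2_le_one {c : F} (hc : c ∈ C) : O2.valuation c ≤ 1 :=
  (O2.valuation_le_one_iff _).mpr (h.le2 c hc)

theorem val1_x : O1.valuation x = 1 := by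
  rcases lt_or_eq_of_le (h.val1_le_one h.x_mem) with hlt | heq
  · exact absurd ((h.unif1.mem_pi_iff x).mpr hlt) h.x_unit1
  · exact heq

theorem val2_y : O2.valuation y = 1 := by
  rcases lt_or_eq_of_le (h.val2_le_one h.y_mem) with hlt | heq
  · exact absurd ((h.unif2.mem_pi_iff y).mpr hlt) h.y_unit2
  · exact heq

theorem x_ne_zero : x ≠ 0 := by
  intro hx
  have := h.val1_x
  rw [hx, map_zero] at this
  exact zero_ne_one this

theorem y_ne_zero : y ≠ 0 := by
  intro hy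
  have := h.val2_y
  rw [hy, map_zero] at this
  exact zero_ne_one this

/-- Units of `C` have valuation one on both components. -/
theorem val1_unit {u u' : F} (hu : u ∈ C) (hu' : u' ∈ C) (huu : u * u' = 1) :
    O1.valuation u = 1 := by
  have h1 := h.val1_le_one hu
  have h2 := h.val1_le_one hu'
  have h3 : O1.valuation u * O1.valuation u' = 1 := by rw [← map_mul, huu, map_one]
  refine le_antisymm h1 ?_
  calc (1 : O1.ValueGroup) = O1.valuation u * O1.valuation u' := h3.symm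
    _ ≤ O1.valuation u * 1 := mul_le_mul' le_rfl h2
    _ = O1.valuation u := mul_one _

theorem val2_unit {u u' : F} (hu : u ∈ C) (hu' : u' ∈ C) (huu : u * u' = 1) :
    O2.valuation u = 1 := by
  have h1 := h.val2_le_one hu
  have h2 := h.val2_le_one hu'
  have h3 : O2.valuation u * O2.valuation u' = 1 := by rw [← map_mul, huu, map_one]
  refine le_antisymm h1 ?_
  calc (1 : O2.ValueGroup) = O2.valuation u * O2.valuation u' := h3.symm
    _ ≤ O2.valuation u * 1 := mul_le_mul' le_rfl h2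
    _ = O2.valuation u := mul_one _

/-- `v₁(y) = e`. -/
theorem val1_y : O1.valuation y = O1.valuation π ^ e := by
  obtain ⟨u, hu, u', hu', huu, hxy⟩ := h.xy
  have := congrArg O1.valuation hxy
  rw [map_mul, map_mul, map_pow, h.val1_x, one_mul, h.val1_unit hu hu' huu, mul_one] at this
  exact this

/-- `v₂(x) = e`. -/
theorem val2_x : O2.valuation x = O2.valuation π ^ e := by
  obtain ⟨u, hu, u', hu', huu, hxy⟩ := h.xy
  have := congrArg O2.valuation hxy
  rw [map_mul, map_mul, map_pow, h.val2_y, mul_one, h.val2_unit hu hu' huu, mul_one] at this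
  exact this

/-- **The coordinate `x` realises the thickness `e`**: `v₁(x) = 0`, `v₂(x) = e`. -/
theorem val_x : O1.valuation x = O1.valuation π ^ (0 : ℤ) ∧
    O2.valuation x = O2.valuation π ^ (e : ℤ) := by
  refine ⟨by rw [zpow_zero]; exact h.val1_x, by rw [zpow_natCast]; exact h.val2_x⟩

/-- Elements of `(π, x, y)` are not units of `C`. -/
theorem not_unit_of_mem {c c' a b d : F} (hc' : c' ∈ C) (hcc : c * c' = 1) (ha : a ∈ C)
    (hb : b ∈ C) (hd : d ∈ C) (hc : c = a * π + b * x + d * y) : False := by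
  refine h.proper (c' * a) (C.mul_mem hc' ha) (c' * b) (C.mul_mem hc' hb) (c' * d)
    (C.mul_mem hc' hd) ?_
  rw [← hcc, hc]
  ring

/-- `C ∩ π O1` consists of non-units: in the form used below. -/
theorem not_unit_of_val1_lt {c c' : F} (hc : c ∈ C) (hc' : c' ∈ C) (hcc : c * c' = 1)
    (hlt : O1.valuation c < 1) : False := by
  have := h.val1_unit hc hc' hcc
  exact absurd hlt (by rw [this]; exact lt_irrefl _)

/-- `π`-saturation, iterated: `C[1/π] ∩ O1 ∩ O2 = C`. -/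
theorem mem_of_sat : ∀ (n : ℕ) (z : F), π ^ n * z ∈ C → O1.valuation z ≤ 1 →
    O2.valuation z ≤ 1 → z ∈ C := by
  intro n
  induction n with
  | zero =>
    intro z hz _ _
    simpa using hz
  | succ n ih =>
    intro z hz h1 h2
    have hmem1 : π ^ n * z ∈ O1 := by
      rw [← O1.valuation_le_one_iff, map_mul, map_pow]
      exact mul_le_one' (pow_le_one₀ zero_le h.unif1.val_lt_one.le) h1
    have hmem2 : π ^ n * z ∈ O2 := by
      rw [← O2.valuation_le_one_iff, map_mul, map_pow]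
      exact mul_le_one' (pow_le_one₀ zero_le h.unif2.val_lt_one.le) h2
    have heq : π ^ (n + 1) * z = π * (π ^ n * z) := by ring
    obtain ⟨c', hc', hcc'⟩ := h.sat _ hz ⟨_, hmem1, heq⟩ ⟨_, hmem2, heq⟩
    have : π ^ n * z = c' := by
      have h3 : π * (π ^ n * z) = π * c' := by rw [← heq, hcc']
      exact mul_left_cancel₀ h.pi_ne_zero h3
    exact ih z (by rw [this]; exact hc') h1 h2

/-! #### The localisation `C[1/π]` in membership form -/

/-- `z ∈ C[1/π]`. -/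
def InLoc (C : Subring F) (π z : F) : Prop := ∃ n : ℕ, π ^ n * z ∈ C

omit h in
theorem inLoc_of_mem {z : F} (hz : z ∈ C) : InLoc C π z := ⟨0, by simpa using hz⟩

omit h in
theorem inLoc_mul {z z' : F} (hz : InLoc C π z) (hz' : InLoc C π z') : InLoc C π (z * z') := by
  obtain ⟨n, hn⟩ := hz
  obtain ⟨n', hn'⟩ := hz'
  refine ⟨n + n', ?_⟩
  have : π ^ (n + n') * (z * z') = (π ^ n * z) * (π ^ n' * z') := by ring
  rw [this]
  exact C.mul_mem hn hn'

omit h in
theorem inLoc_pow {z : F} (hz : InLoc C π z) (m : ℕ) : InLoc C π (z ^ m) := by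
  induction m with
  | zero => exact inLoc_of_mem (by rw [pow_zero]; exact C.one_mem)
  | succ m ih => rw [pow_succ]; exact inLoc_mul ih hz

theorem inLoc_pi_inv : InLoc C π π⁻¹ :=
  ⟨1, by rw [pow_one, mul_inv_cancel₀ h.pi_ne_zero]; exact C.one_mem⟩

theorem inLoc_zpow_pi (a : ℤ) : InLoc C π (π ^ a) := by
  rcases Int.eq_nat_or_neg a with ⟨n, rfl | rfl⟩
  · rw [zpow_natCast]
    exact inLoc_of_mem (C.pow_mem h.pi_mem n)
  · rw [zpow_neg, zpow_natCast, ← inv_pow]
    exact inLoc_pow h.inLoc_pi_inv n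

theorem inLoc_x_inv : InLoc C π x⁻¹ := by
  obtain ⟨u, hu, u', hu', huu, hxy⟩ := h.xy
  refine ⟨e, ?_⟩
  have hu0 : u ≠ 0 := left_ne_zero_of_mul_eq_one huu
  have : π ^ e * x⁻¹ = y * u' := by
    have h1 : π ^ e = x * y * u' := by
      rw [hxy, mul_assoc, huu, mul_one]
    rw [h1]
    field_simp [h.x_ne_zero]
  rw [this]
  exact C.mul_mem h.y_mem hu'

theorem inLoc_zpow_x (a : ℤ) : InLoc C π (x ^ a) := by
  rcases Int.eq_nat_or_neg a with ⟨n, rfl | rfl⟩
  · rw [zpow_natCast]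
    exact inLoc_of_mem (C.pow_mem h.x_mem n)
  · rw [zpow_neg, zpow_natCast, ← inv_pow]
    exact inLoc_pow h.inLoc_x_inv n

/-- A unit of `C[1/π]` with valuation one on both components is a unit of `C`. -/
theorem unit_of_sat {z : F} (hz : InLoc C π z) (hz' : InLoc C π z⁻¹)
    (h1 : O1.valuation z = 1) (h2 : O2.valuation z = 1) : z ∈ C ∧ z⁻¹ ∈ C := by
  obtain ⟨n, hn⟩ := hz
  obtain ⟨n', hn'⟩ := hz'
  refine ⟨h.mem_of_sat n z hn h1.le h2.le, h.mem_of_sat n' z⁻¹ hn' ?_ ?_⟩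
  · rw [map_inv₀, h1, inv_one]
  · rw [map_inv₀, h2, inv_one]

/-! #### The key divisibility -/

/-- **Key lemma**: if `w ^ e ≡ z x ^ δ` modulo `π O1` with `w ∈ C ∖ π O1` and `z ∈ C^×`, then
`e ∣ δ` (reduce modulo `P₁ = C ∩ π O1 = (π, y)`: the image of `x` is a prime element of `C / P₁`
generating its maximal ideal). -/
theorem key : ∀ (δ : ℕ) (w : F), w ∈ C → O1.valuation w = 1 →
    (∃ z ∈ C, ∃ z' ∈ C, z * z' = 1 ∧ O1.valuation (w ^ e - z * x ^ δ) < 1) → e ∣ δ := by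
  intro δ
  induction δ using Nat.strong_induction_on with
  | _ δ ih =>
    intro w hw hw1 ⟨z, hz, z', hz', hzz, hval⟩
    rcases Nat.eq_zero_or_pos δ with hδ0 | hδpos
    · rw [hδ0]; exact dvd_zero e
    -- the element `t = w ^ e - z x ^ δ` lies in `C ∩ π O1 = (π, y)`
    have htC : w ^ e - z * x ^ δ ∈ C :=
      C.sub_mem (C.pow_mem hw e) (C.mul_mem hz (C.pow_mem h.x_mem δ))
    obtain ⟨a, ha, b, hb, hab⟩ := h.vert1 _ htC ((h.unif1.mem_pi_iff _).mpr hval)
    have hw0 : w ≠ 0 := by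
      intro h0
      rw [h0, map_zero] at hw1
      exact zero_ne_one hw1
    -- `w` is not a unit of `C`
    have hwnon : w⁻¹ ∉ C := by
      intro hwinv
      have hwe : w ^ e = a * π + (z * x ^ (δ - 1)) * x + b * y := by
        have hx : x ^ δ = x ^ (δ - 1) * x := by
          rw [← pow_succ, Nat.sub_add_cancel hδpos]
        have : w ^ e = (w ^ e - z * x ^ δ) + z * x ^ δ := by ring
        rw [this, hab, hx]
        ring
      refine h.not_unit_of_mem (c := w ^ e) (c' := (w⁻¹) ^ e) (C.pow_mem hwinv e) ?_ ha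
        (C.mul_mem hz (C.pow_mem h.x_mem _)) hb hwe
      rw [← mul_pow, mul_inv_cancel₀ hw0, one_pow]
    obtain ⟨α, hα, β, hβ, γ, hγ, hwdec⟩ := h.nonunit w hw hwnon
    -- `w ≡ β x` modulo `π O1`
    have hpi1 : O1.valuation π < 1 := h.unif1.val_lt_one
    have hy1 : O1.valuation y < 1 := by
      rw [h.val1_y]
      exact pow_lt_one₀ zero_le hpi1 (Nat.pos_iff_ne_zero.mp h.e_pos)
    have hdiff : O1.valuation (w - β * x) < 1 := by
      have : w - β * x = α * π + γ * y := by rw [hwdec]; ring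
      rw [this]
      refine lt_of_le_of_lt (O1.valuation.map_add _ _) (max_lt ?_ ?_)
      · rw [map_mul]
        exact lt_of_le_of_lt (mul_le_mul' (h.val1_le_one hα) le_rfl) (by rw [one_mul]; exact hpi1)
      · rw [map_mul]
        exact lt_of_le_of_lt (mul_le_mul' (h.val1_le_one hγ) le_rfl) (by rw [one_mul]; exact hy1)
    have hβ1 : O1.valuation β = 1 := by
      rcases lt_or_eq_of_le (h.val1_le_one hβ) with hlt | heq
      · exfalso
        have hβx : O1.valuation (β * x) < 1 := by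
          rw [map_mul, h.val1_x, mul_one]; exact hlt
        have : O1.valuation w < 1 := by
          have hw' : w = (w - β * x) + β * x := by ring
          rw [hw']
          exact lt_of_le_of_lt (O1.valuation.map_add _ _) (max_lt hdiff hβx)
        rw [hw1] at this
        exact lt_irrefl _ this
      · exact heq
    -- `w ^ e ≡ (β x) ^ e`
    have hpow : O1.valuation (w ^ e - (β * x) ^ e) < 1 := by
      have hgeom := Commute.geom_sum₂_mul (Commute.all w (β * x)) e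
      rw [← hgeom, map_mul]
      have hsum : (∑ i ∈ Finset.range e, w ^ i * (β * x) ^ (e - 1 - i)) ∈ C :=
        C.sum_mem fun i _ => C.mul_mem (C.pow_mem hw i)
          (C.pow_mem (C.mul_mem hβ h.x_mem) _)
      exact lt_of_le_of_lt (mul_le_mul' (h.val1_le_one hsum) le_rfl)
        (by rw [one_mul]; exact hdiff)
    have hcong : O1.valuation (β ^ e * x ^ e - z * x ^ δ) < 1 := by
      have : β ^ e * x ^ e - z * x ^ δ = (w ^ e - z * x ^ δ) - (w ^ e - (β * x) ^ e) := by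
        rw [mul_pow]; ring
      rw [this]
      exact lt_of_le_of_lt (O1.valuation.map_sub _ _) (max_lt hval hpow)
    rcases lt_or_ge δ e with hlt | hge
    · -- `δ < e`: then `z ∈ (π, x, y)`, impossible
      exfalso
      have hfac : β ^ e * x ^ e - z * x ^ δ = x ^ δ * (β ^ e * x ^ (e - δ) - z) := by
        have : x ^ e = x ^ δ * x ^ (e - δ) := by
          rw [← pow_add, Nat.add_sub_cancel' hlt.le]
        rw [this]; ring
      rw [hfac, map_mul, map_pow, h.val1_x, one_pow, one_mul] at hcong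
      have htC' : β ^ e * x ^ (e - δ) - z ∈ C :=
        C.sub_mem (C.mul_mem (C.pow_mem hβ e) (C.pow_mem h.x_mem _)) hz
      obtain ⟨a', ha', b', hb', hab'⟩ := h.vert1 _ htC' ((h.unif1.mem_pi_iff _).mpr hcong)
      have hx : x ^ (e - δ) = x ^ (e - δ - 1) * x := by
        rw [← pow_succ, Nat.sub_add_cancel (Nat.sub_pos_of_lt hlt)]
      have hzdec : z = (-a') * π + (β ^ e * x ^ (e - δ - 1)) * x + (-b') * y := by
        have : z = β ^ e * x ^ (e - δ) - (β ^ e * x ^ (e - δ) - z) := by ring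
        rw [this, hab', hx]
        ring
      exact h.not_unit_of_mem hz' hzz (C.neg_mem ha')
        (C.mul_mem (C.pow_mem hβ e) (C.pow_mem h.x_mem _)) (C.neg_mem hb') hzdec
    · -- `δ ≥ e`: descend to `δ - e`
      have hfac : β ^ e * x ^ e - z * x ^ δ = x ^ e * (β ^ e - z * x ^ (δ - e)) := by
        have : x ^ δ = x ^ e * x ^ (δ - e) := by
          rw [← pow_add, Nat.add_sub_cancel' hge]
        rw [this]; ring
      rw [hfac, map_mul, map_pow, h.val1_x, one_pow, one_mul] at hcong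
      have hlt : δ - e < δ := Nat.sub_lt hδpos h.e_pos
      have hdvd := ih (δ - e) hlt β hβ hβ1 ⟨z, hz, z', hz', hzz, hcong⟩
      have : δ = (δ - e) + e := (Nat.sub_add_cancel hge).symm
      rw [this]
      exact Dvd.dvd.add hdvd (dvd_refl e)

/-! #### Vertical functions are monomial -/

/-- Auxiliary form of `vertical` (the case `v₁(w) ≤ v₂(w)`). -/
theorem vertical_aux {w : F} (hw : w ≠ 0) (hw1 : InLoc C π w) (hw2 : InLoc C π w⁻¹)
    {a1 a2 : ℤ} (h1 : O1.valuation w = O1.valuation π ^ a1)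
    (h2 : O2.valuation w = O2.valuation π ^ a2) (hle : a1 ≤ a2) :
    ∃ (b : ℤ) (ε : F), ε ∈ C ∧ ε⁻¹ ∈ C ∧ ε ≠ 0 ∧ w = ε * π ^ a1 * x ^ b ∧ a2 - a1 = e * b := by
  have hπ0 := h.pi_ne_zero
  have hx0 := h.x_ne_zero
  have hp1 := h.unif1.val_ne_zero
  have hp2 := h.unif2.val_ne_zero
  obtain ⟨δ, hδ⟩ : ∃ δ : ℕ, (δ : ℤ) = a2 - a1 := ⟨(a2 - a1).toNat, Int.toNat_of_nonneg (by omega)⟩
  -- `w1 = w π ^ (-a1)`
  set w1 : F := w * π ^ (-a1) with hw1def
  have hw10 : w1 ≠ 0 := mul_ne_zero hw (zpow_ne_zero _ hπ0)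
  have hw1loc : InLoc C π w1 := inLoc_mul hw1 (h.inLoc_zpow_pi _)
  have hw1inv : w1⁻¹ = w⁻¹ * π ^ a1 := by
    rw [hw1def, mul_inv, zpow_neg, inv_inv]
  have hw1loc' : InLoc C π w1⁻¹ := by
    rw [hw1inv]; exact inLoc_mul hw2 (h.inLoc_zpow_pi _)
  have hv1 : O1.valuation w1 = 1 := by
    rw [hw1def, map_mul, map_zpow₀, h1, ← zpow_add₀ hp1, add_neg_cancel, zpow_zero]
  have hv2 : O2.valuation w1 = O2.valuation π ^ δ := by
    rw [hw1def, map_mul, map_zpow₀, h2, ← zpow_add₀ hp2, ← zpow_natCast, hδ]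
    congr 1
  have hw1C : w1 ∈ C := by
    obtain ⟨n, hn⟩ := hw1loc
    refine h.mem_of_sat n w1 hn hv1.le ?_
    rw [hv2]
    exact pow_le_one₀ zero_le h.unif2.val_lt_one.le
  -- `z = w1 ^ e x ^ (-δ)` is a unit of `C`
  set z : F := w1 ^ e * (x⁻¹) ^ δ with hzdef
  have hz0 : z ≠ 0 := mul_ne_zero (pow_ne_zero _ hw10) (pow_ne_zero _ (inv_ne_zero hx0))
  have hzloc : InLoc C π z := inLoc_mul (inLoc_pow hw1loc e) (inLoc_pow h.inLoc_x_inv δ)
  have hzinv : z⁻¹ = (w1⁻¹) ^ e * x ^ δ := by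
    rw [hzdef, mul_inv, ← inv_pow, ← inv_pow, inv_inv]
  have hzloc' : InLoc C π z⁻¹ := by
    rw [hzinv]
    exact inLoc_mul (inLoc_pow hw1loc' e) (inLoc_of_mem (C.pow_mem h.x_mem δ))
  have hzv1 : O1.valuation z = 1 := by
    rw [hzdef, map_mul, map_pow, map_pow, map_inv₀, hv1, h.val1_x, inv_one, one_pow, one_pow,
      one_mul]
  have hzv2 : O2.valuation z = 1 := by
    rw [hzdef, map_mul, map_pow, map_pow, map_inv₀, hv2, h.val2_x, ← pow_mul, inv_pow, ← pow_mul,
      mul_comm e δ]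
    exact mul_inv_cancel₀ (pow_ne_zero _ hp2)
  obtain ⟨hzC, hzC'⟩ := h.unit_of_sat hzloc hzloc' hzv1 hzv2
  have hrel : w1 ^ e - z * x ^ δ = 0 := by
    rw [hzdef, mul_assoc, ← mul_pow, inv_mul_cancel₀ hx0, one_pow, mul_one, sub_self]
  have hdvd : e ∣ δ := h.key δ w1 hw1C hv1
    ⟨z, hzC, z⁻¹, hzC', mul_inv_cancel₀ hz0, by rw [hrel, map_zero]; exact zero_lt_one⟩
  obtain ⟨b, hb⟩ := hdvd
  -- `ε = w1 x ^ (-b)`
  set ε : F := w1 * (x⁻¹) ^ b with hεdef
  have hε0 : ε ≠ 0 := mul_ne_zero hw10 (pow_ne_zero _ (inv_ne_zero hx0))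
  have hεloc : InLoc C π ε := inLoc_mul hw1loc (inLoc_pow h.inLoc_x_inv b)
  have hεinv : ε⁻¹ = w1⁻¹ * x ^ b := by
    rw [hεdef, mul_inv, ← inv_pow, inv_inv]
  have hεloc' : InLoc C π ε⁻¹ := by
    rw [hεinv]
    exact inLoc_mul hw1loc' (inLoc_of_mem (C.pow_mem h.x_mem b))
  have hεv1 : O1.valuation ε = 1 := by
    rw [hεdef, map_mul, map_pow, map_inv₀, hv1, h.val1_x, inv_one, one_pow, one_mul]
  have hεv2 : O2.valuation ε = 1 := by
    rw [hεdef, map_mul, map_pow, map_inv₀, hv2, h.val2_x, hb, inv_pow, ← pow_mul]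
    exact mul_inv_cancel₀ (pow_ne_zero _ hp2)
  obtain ⟨hεC, hεC'⟩ := h.unit_of_sat hεloc hεloc' hεv1 hεv2
  refine ⟨(b : ℤ), ε, hεC, hεC', hε0, ?_, ?_⟩
  · rw [hεdef, hw1def, zpow_natCast, zpow_neg]
    have hπa : π ^ a1 ≠ 0 := zpow_ne_zero _ hπ0
    have hxb : x ^ b ≠ 0 := pow_ne_zero _ hx0
    rw [inv_pow]
    field_simp
  · rw [← hδ, hb]
    push_cast
    ring

/-- **Vertical functions at a thick node are monomial**: a unit `w` of `C[1/π]` is
`ε π ^ a x ^ b` with `ε` a unit of `C`. -/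
theorem vertical {w : F} (hw : w ≠ 0) (hw1 : ∃ n : ℕ, π ^ n * w ∈ C)
    (hw2 : ∃ n : ℕ, π ^ n * w⁻¹ ∈ C) :
    ∃ (a b : ℤ) (ε : F), ε ∈ C ∧ ε⁻¹ ∈ C ∧ ε ≠ 0 ∧ w = ε * π ^ a * x ^ b := by
  obtain ⟨n, hn⟩ := hw1
  obtain ⟨n', hn'⟩ := hw2
  obtain ⟨a1, h1⟩ := h.unif1.exists_zpow hw (h.le1 _ hn) (h.le1 _ hn')
  obtain ⟨a2, h2⟩ := h.unif2.exists_zpow hw (h.le2 _ hn) (h.le2 _ hn')
  rcases le_or_gt a1 a2 with hle | hgt
  · obtain ⟨b, ε, hε, hε', hε0, hwε, -⟩ := h.vertical_aux hw ⟨n, hn⟩ ⟨n', hn'⟩ h1 h2 hle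
    exact ⟨a1, b, ε, hε, hε', hε0, hwε⟩
  · have h1' : O1.valuation w⁻¹ = O1.valuation π ^ (-a1) := by
      rw [map_inv₀, h1, zpow_neg]
    have h2' : O2.valuation w⁻¹ = O2.valuation π ^ (-a2) := by
      rw [map_inv₀, h2, zpow_neg]
    obtain ⟨b, ε, hε, hε', hε0, hwε, -⟩ := h.vertical_aux (inv_ne_zero hw) ⟨n', hn'⟩
      ⟨n, by rw [inv_inv]; exact hn⟩ h1' h2' (by omega)
    refine ⟨a1, -b, ε⁻¹, hε', by rw [inv_inv]; exact hε, inv_ne_zero hε0, ?_⟩
    have : w = (w⁻¹)⁻¹ := (inv_inv w).symm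
    rw [this, hwε, mul_inv, mul_inv, zpow_neg, zpow_neg, inv_inv]

/-- Valuations of a monomial `ε π ^ a x ^ b`. -/
theorem val_monomial {ε : F} (hε : ε ∈ C) (hε' : ε⁻¹ ∈ C) (hε0 : ε ≠ 0) (a b : ℤ) :
    O1.valuation (ε * π ^ a * x ^ b) = O1.valuation π ^ a ∧
      O2.valuation (ε * π ^ a * x ^ b) = O2.valuation π ^ (a + e * b) := by
  have hu := mul_inv_cancel₀ hε0
  constructor
  · rw [map_mul, map_mul, map_zpow₀, map_zpow₀, h.val1_unit hε hε' hu, h.val1_x, one_zpow, one_mul,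
      mul_one]
  · rw [map_mul, map_mul, map_zpow₀, map_zpow₀, h.val2_unit hε hε' hu, h.val2_x, one_mul,
      zpow_add₀ h.unif2.val_ne_zero, zpow_mul, zpow_natCast]

/-- **The abstract thickness at the node is a multiple of `e`**: for a purely vertical `w`
(unit of `C[1/π]`), `e ∣ v₂(w) - v₁(w)`.  Together with `val_x` the thickness is exactly `e`. -/
theorem thickness_dvd {w : F} (hw : w ≠ 0) (hw1 : ∃ n : ℕ, π ^ n * w ∈ C)
    (hw2 : ∃ n : ℕ, π ^ n * w⁻¹ ∈ C) {a1 a2 : ℤ}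
    (h1 : O1.valuation w = O1.valuation π ^ a1) (h2 : O2.valuation w = O2.valuation π ^ a2) :
    (e : ℤ) ∣ a2 - a1 := by
  obtain ⟨a, b, ε, hε, hε', hε0, hwε⟩ := h.vertical hw hw1 hw2
  obtain ⟨hm1, hm2⟩ := h.val_monomial hε hε' hε0 a b
  rw [← hwε] at hm1 hm2
  have e1 : a1 = a := h.unif1.zpow_injective (h1.symm.trans hm1)
  have e2 : a2 = a + e * b := h.unif2.zpow_injective (h2.symm.trans hm2)
  exact ⟨b, by rw [e1, e2]; ring⟩

/-- Purely vertical functions have integral valuations on both components. -/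
theorem exists_vals {w : F} (hw : w ≠ 0) (hw1 : ∃ n : ℕ, π ^ n * w ∈ C)
    (hw2 : ∃ n : ℕ, π ^ n * w⁻¹ ∈ C) :
    ∃ a1 a2 : ℤ, O1.valuation w = O1.valuation π ^ a1 ∧ O2.valuation w = O2.valuation π ^ a2 := by
  obtain ⟨n, hn⟩ := hw1
  obtain ⟨n', hn'⟩ := hw2
  obtain ⟨a1, h1⟩ := h.unif1.exists_zpow hw (h.le1 _ hn) (h.le1 _ hn')
  obtain ⟨a2, h2⟩ := h.unif2.exists_zpow hw (h.le2 _ hn) (h.le2 _ hn')
  exact ⟨a1, a2, h1, h2⟩

/-- `x` is purely vertical: `x⁻¹ ∈ C[1/π]`. -/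
theorem x_vertical : (∃ n : ℕ, π ^ n * x ∈ C) ∧ (∃ n : ℕ, π ^ n * x⁻¹ ∈ C) :=
  ⟨inLoc_of_mem h.x_mem, h.inLoc_x_inv⟩

end ThickNode

end Node

end Fermat.Agent.M1.Node.Thick25
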