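/-
M1 (S44), chapter NODE → CAR adapter (helper25): **slopes at a thick node are well defined in
`ℤ / e`**, in the vocabulary of `Car/Defs43` (`Through`, `IsLocEq`) for a chart `B` of a nodal model
(`NodalCore13` / `NumData13` hypotheses) whose local ring at `𝔪` is a `Thick25.ThickNode`.

* `mem_loc_of_places` (A0) : `w ∈ O_P` for every place `P` through `(B, 𝔪)` ⟹ `π ^ n w ∈ B_𝔪`
  (library: `HorizPlace13.hhor_of_places` + `NodalStart13.exists_den_of_horizontal`);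
* `vertical_of_isLocEq_zero` (A1), `isLocEq_zero_of_vertical` (converse);
* `thickness_dvd_of_isLocEq_zero` (A2), `isLocEq_zero_x` (A3) : the abstract thickness is exactly `e`;
* `slope_well_defined` (A4), `exists_vals` (A5), `cartier_shift` (A6).
-/
import Mathlib
import Fermat.Agent.ES.N34.HorizPlace13
import Fermat.Agent.ES.N34.NodalStart13
import Fermat.Agent.M1.Car.Defs43
import Fermat.Agent.M1.Node.Thick25

set_option autoImplicit false
set_option linter.unusedSectionVars false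
set_option linter.unusedVariables false

namespace Fermat.Agent.M1.Node.SlopeAdapter25

open AlgebraicCurve Fermat.Agent.ES.N34.NodalCore13 Fermat.Agent.ES.N34.NodalSmooth13
  Fermat.Agent.ES.N34.HorizPlace13 Fermat.Agent.ES.N34.NodalStart13
  Fermat.Agent.M1.Car.Defs43 Fermat.Agent.M1.Node.Thick25

variable {R K F : Type*} [CommRing R] [Field K] [Field F] [Algebra R K] [Algebra K F]
  [Algebra R F] [IsScalarTower R K F]

/-! ### Places -/

/-- `ord_P w = 0` iff `w` is a unit of `O_P`. -/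
theorem ord_eq_zero_iff (P : Place K F) {w : F} (hw : w ≠ 0) :
    P.ord w = 0 ↔ w ∈ P.toValuationSubring ∧ w⁻¹ ∈ P.toValuationSubring := by
  constructor
  · intro h0
    obtain ⟨ϖ, hϖ⟩ := IsDiscreteValuationRing.exists_irreducible P.toValuationSubring
    obtain ⟨u, hu⟩ := P.exists_unit_mul_zpow hw hϖ
    rw [h0, zpow_zero, mul_one] at hu
    refine ⟨hu ▸ (u : P.toValuationSubring).2, ?_⟩
    have h1 : ((u : P.toValuationSubring) : F) * ((↑u⁻¹ : P.toValuationSubring) : F) = 1 :=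
      congrArg (fun z : P.toValuationSubring => (z : F)) u.mul_inv
    have h2 : w⁻¹ = ((↑u⁻¹ : P.toValuationSubring) : F) := by
      rw [hu]; exact (eq_inv_of_mul_eq_one_right h1).symm
    rw [h2]
    exact (↑u⁻¹ : P.toValuationSubring).2
  · rintro ⟨h1, h2⟩
    have hu : IsUnit (⟨w, h1⟩ : P.toValuationSubring) := by
      rw [isUnit_iff_exists_inv]
      exact ⟨⟨w⁻¹, h2⟩, Subtype.ext (mul_inv_cancel₀ hw)⟩
    obtain ⟨u, hu⟩ := hu
    have := P.ord_coe_unit u
    rw [hu] at this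
    exact this

/-- `π` is a unit at every place of `F / K`. -/
theorem pi_mem_place (π : R) (P : Place K F) :
    algebraMap R F π ∈ P.toValuationSubring ∧ (algebraMap R F π)⁻¹ ∈ P.toValuationSubring := by
  rw [IsScalarTower.algebraMap_apply R K F]
  refine ⟨P.algebraMap_mem' _, ?_⟩
  rw [← map_inv₀]
  exact P.algebraMap_mem' _

/-- `B_𝔪 ⊆ O_P` for a place `P` through `(B, 𝔪)`. -/
theorem locSub_le_of_through {B : Subalgebra R F} {𝔪 : Ideal B} [𝔪.IsPrime] {P : Place K F}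
    (hP : Through B 𝔪 P) {c : F} (hc : c ∈ locSub B 𝔪) : c ∈ P.toValuationSubring := by
  obtain ⟨a, d, hd, had⟩ := hc
  have hd0 : (d : F) ≠ 0 := coe_ne_zero_of_notMem B 𝔪 hd
  have : c = (a : F) * ((d : F))⁻¹ := by rw [← had]; field_simp
  rw [this]
  exact P.toValuationSubring.mul_mem _ _ (hP.1 a) (hP.2 d hd)

/-- `B_𝔪[1/π] ⊆ O_P`. -/
theorem mem_place_of_inLoc (π : R) (pi_ne : algebraMap R F π ≠ 0) {B : Subalgebra R F}
    {𝔪 : Ideal B} [𝔪.IsPrime] {P : Place K F}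
    (hP : Through B 𝔪 P) {w : F} (hw : ∃ n : ℕ, algebraMap R F π ^ n * w ∈ locSub B 𝔪) :
    w ∈ P.toValuationSubring := by
  obtain ⟨n, hn⟩ := hw
  have h1 := locSub_le_of_through hP hn
  have h2 := (pi_mem_place (K := K) π P).2
  have : w = ((algebraMap R F π)⁻¹) ^ n * (algebraMap R F π ^ n * w) := by
    rw [← mul_assoc, ← mul_pow, inv_mul_cancel₀ pi_ne, one_pow, one_mul]
  rw [this]
  exact P.toValuationSubring.mul_mem _ _ (pow_mem h2 n) h1

/-- **Purely vertical functions are local equations of the zero divisor.** -/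
theorem isLocEq_zero_of_vertical (π : R) (pi_ne : algebraMap R F π ≠ 0) {B : Subalgebra R F}
    {𝔪 : Ideal B} [𝔪.IsPrime] {w : F} (hw : w ≠ 0)
    (hw1 : ∃ n : ℕ, algebraMap R F π ^ n * w ∈ locSub B 𝔪)
    (hw2 : ∃ n : ℕ, algebraMap R F π ^ n * w⁻¹ ∈ locSub B 𝔪) :
    IsLocEq B 𝔪 (0 : Divisor K F) w := by
  refine ⟨hw, fun P hP => ?_⟩
  rw [Finsupp.zero_apply, ord_eq_zero_iff P hw]
  exact ⟨mem_place_of_inLoc π pi_ne hP hw1, mem_place_of_inLoc π pi_ne hP hw2⟩

/-! ### From places to the localisation: (A0), (A1) -/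

section Chart

variable (π : R) (t : F) (B : Subalgebra R F) (O1 O2 : ValuationSubring F)
  (ht : t ∈ B) (noethB : IsNoetherianRing B) (fracR : IsFractionRing R K)
  (dvrR : ∀ r : R, r ≠ 0 → ∃ (k : ℕ) (v : Rˣ), r = π ^ k * v)
  (pi_ne : algebraMap R F π ≠ 0)
  (intcl : ∀ x : F, IsIntegral B x → x ∈ B)
  (int0 : ∀ x ∈ B, IsIntegral (Algebra.adjoin R {t}) x)
  (frac : ∀ x : F, ∃ a ∈ B, ∃ b ∈ B, b ≠ 0 ∧ x * b = a)
  (leO1 : ∀ x ∈ B, x ∈ O1) (leO2 : ∀ x ∈ B, x ∈ O2)
  (arch1 : ∀ x : F, ∃ k : ℕ, algebraMap R F π ^ k * x ∈ O1)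
  (arch2 : ∀ x : F, ∃ k : ℕ, algebraMap R F π ^ k * x ∈ O2)
  (sat : ∀ b ∈ B, ∀ c : F, c ∈ O1 → c ∈ O2 → b = algebraMap R F π * c → c ∈ B)
  (𝔪 : Ideal B) [h𝔪 : 𝔪.IsPrime]

include ht noethB fracR dvrR pi_ne intcl int0 frac leO1 leO2 arch1 arch2 sat

/-- **(A0)** a function regular at every place through `(B, 𝔪)` lies in `B_𝔪[1/π]`. -/
theorem mem_loc_of_places {w : F}
    (hw : ∀ P : Place K F, Through B 𝔪 P → w ∈ P.toValuationSubring) :
    ∃ n : ℕ, algebraMap R F π ^ n * w ∈ locSub B 𝔪 := by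
  set p : F := algebraMap R F π with hp
  have hp1 : p ∈ O1 := leO1 _ (B.algebraMap_mem π)
  have hp2 : p ∈ O2 := leO2 _ (B.algebraMap_mem π)
  obtain ⟨k1, hk1⟩ := arch1 w
  obtain ⟨k2, hk2⟩ := arch2 w
  refine ⟨k1 + k2, ?_⟩
  set ε : F := p ^ (k1 + k2) * w with hε
  have hε1 : ε ∈ O1 := by
    have : ε = p ^ k2 * (p ^ k1 * w) := by rw [hε, pow_add]; ring
    rw [this]; exact O1.mul_mem _ _ (pow_mem hp1 k2) hk1
  have hε2 : ε ∈ O2 := by
    have : ε = p ^ k1 * (p ^ k2 * w) := by rw [hε, pow_add]; ring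
    rw [this]; exact O2.mul_mem _ _ (pow_mem hp2 k1) hk2
  have hhor := hhor_of_places (K := K) π t B ht noethB fracR dvrR pi_ne intcl int0 frac 𝔪 ε
    (fun v hvB hv𝔪 => by
      have hthrough : Through B 𝔪 v :=
        ⟨fun b => hvB _ b.2, fun b hb => by
          by_contra hcon
          exact hb (hv𝔪 b hcon)⟩
      exact v.toValuationSubring.mul_mem _ _ (pow_mem (pi_mem_place (K := K) π v).1 _)
        (hw v hthrough))
  exact exists_den_of_horizontal π B O1 O2 leO1 leO2 arch1 arch2 sat frac 𝔪 ε hhor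
    (Or.inl hε1) (Or.inl hε2)

/-- **(A1)** a local equation of the zero divisor is a unit of `B_𝔪[1/π]`. -/
theorem vertical_of_isLocEq_zero {w : F} (hw : IsLocEq B 𝔪 (0 : Divisor K F) w) :
    (∃ n : ℕ, algebraMap R F π ^ n * w ∈ locSub B 𝔪) ∧
      (∃ n : ℕ, algebraMap R F π ^ n * w⁻¹ ∈ locSub B 𝔪) := by
  have hunit : ∀ P : Place K F, Through B 𝔪 P →
      w ∈ P.toValuationSubring ∧ w⁻¹ ∈ P.toValuationSubring := fun P hP => by
    have := hw.2 P hP
    rw [Finsupp.zero_apply] at this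
    exact (ord_eq_zero_iff P hw.1).mp this
  exact ⟨mem_loc_of_places (K := K) π t B O1 O2 ht noethB fracR dvrR pi_ne intcl int0 frac leO1 leO2
      arch1 arch2 sat 𝔪 (fun P hP => (hunit P hP).1),
    mem_loc_of_places (K := K) π t B O1 O2 ht noethB fracR dvrR pi_ne intcl int0 frac leO1 leO2
      arch1 arch2 sat 𝔪 (fun P hP => (hunit P hP).2)⟩

/-- **(H) Hartogs at an arbitrary closed point**: a local equation of the zero divisor which is a unit
of `O_j` on every branch through `𝔪` is a unit of `B_𝔪`. -/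
theorem unit_of_isLocEq_zero {w : F} (hw : IsLocEq B 𝔪 (0 : Divisor K F) w)
    (h1 : (w ∈ O1 ∧ w⁻¹ ∈ O1) ∨ OffBranch π B O1 𝔪)
    (h2 : (w ∈ O2 ∧ w⁻¹ ∈ O2) ∨ OffBranch π B O2 𝔪) :
    w ∈ locSub B 𝔪 ∧ w⁻¹ ∈ locSub B 𝔪 := by
  have hunit : ∀ P : Place K F, Through B 𝔪 P →
      w ∈ P.toValuationSubring ∧ w⁻¹ ∈ P.toValuationSubring := fun P hP => by
    have := hw.2 P hP
    rw [Finsupp.zero_apply] at this
    exact (ord_eq_zero_iff P hw.1).mp this
  have key : ∀ ε : F, (∀ P : Place K F, Through B 𝔪 P → ε ∈ P.toValuationSubring) →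
      (ε ∈ O1 ∨ OffBranch π B O1 𝔪) → (ε ∈ O2 ∨ OffBranch π B O2 𝔪) → ε ∈ locSub B 𝔪 := by
    intro ε hε hG1 hG2
    have hhor := hhor_of_places (K := K) π t B ht noethB fracR dvrR pi_ne intcl int0 frac 𝔪 ε
      (fun v hvB hv𝔪 => by
        have hthrough : Through B 𝔪 v :=
          ⟨fun b => hvB _ b.2, fun b hb => by
            by_contra hcon
            exact hb (hv𝔪 b hcon)⟩
        exact hε v hthrough)
    exact exists_den_of_horizontal π B O1 O2 leO1 leO2 arch1 arch2 sat frac 𝔪 ε hhor hG1 hG2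
  exact ⟨key w (fun P hP => (hunit P hP).1) (h1.imp And.left id) (h2.imp And.left id),
    key w⁻¹ (fun P hP => (hunit P hP).2) (h1.imp And.right id) (h2.imp And.right id)⟩

omit ht noethB fracR dvrR pi_ne intcl int0 frac in
/-- **(S) local saturation with multiplicity**: `w ∈ B_𝔪` and `w ∈ π ^ m O_j` on every branch `j`
through `𝔪` imply `w ∈ π ^ m B_𝔪`. -/
theorem mem_pow_mul_locSub {w : F} (hw : w ∈ locSub B 𝔪) (m : ℕ)
    (h1 : (∃ o ∈ O1, w = algebraMap R F π ^ m * o) ∨ OffBranch π B O1 𝔪)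
    (h2 : (∃ o ∈ O2, w = algebraMap R F π ^ m * o) ∨ OffBranch π B O2 𝔪)
    (pi_ne : algebraMap R F π ≠ 0) :
    ∃ c ∈ locSub B 𝔪, w = algebraMap R F π ^ m * c := by
  set p : F := algebraMap R F π with hp
  have hpm : p ^ m ≠ 0 := pow_ne_zero _ pi_ne
  refine ⟨(p ^ m)⁻¹ * w, ?_, by rw [← mul_assoc, mul_inv_cancel₀ hpm, one_mul]⟩
  obtain ⟨a, d, hd, had⟩ := hw
  refine exists_den_of_away π B O1 O2 leO1 leO2 arch1 arch2 sat 𝔪 ((p ^ m)⁻¹ * w)
    ⟨m, a, d, hd, by rw [← had, ← mul_assoc, mul_inv_cancel₀ hpm, one_mul]⟩ ?_ ?_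
  · refine h1.imp ?_ id
    rintro ⟨o, ho, rfl⟩
    rwa [← mul_assoc, inv_mul_cancel₀ hpm, one_mul]
  · refine h2.imp ?_ id
    rintro ⟨o, ho, rfl⟩
    rwa [← mul_assoc, inv_mul_cancel₀ hpm, one_mul]

/-! ### Slopes: (A2)–(A6) -/

variable {x y : F} {e : ℕ}
  (hT : ThickNode (locSub B 𝔪).toSubring O1 O2 (algebraMap R F π) x y e)

include hT

/-- **(A2)** the abstract thickness is a multiple of `e`. -/
theorem thickness_dvd_of_isLocEq_zero {w : F} (hw : IsLocEq B 𝔪 (0 : Divisor K F) w) {a1 a2 : ℤ}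
    (h1 : O1.valuation w = O1.valuation (algebraMap R F π) ^ a1)
    (h2 : O2.valuation w = O2.valuation (algebraMap R F π) ^ a2) : (e : ℤ) ∣ a2 - a1 := by
  obtain ⟨hw1, hw2⟩ := vertical_of_isLocEq_zero (K := K) π t B O1 O2 ht noethB fracR dvrR pi_ne
    intcl int0 frac leO1 leO2 arch1 arch2 sat 𝔪 hw
  exact hT.thickness_dvd hw.1 hw1 hw2 h1 h2

omit ht noethB fracR dvrR intcl int0 frac leO1 leO2 arch1 arch2 sat in
/-- **(A3)** the coordinate `x` is a local equation of the zero divisor with `v₁ = 0`, `v₂ = e`: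
the abstract thickness is exactly `e`. -/
theorem isLocEq_zero_x : IsLocEq B 𝔪 (0 : Divisor K F) x :=
  isLocEq_zero_of_vertical π pi_ne hT.x_ne_zero hT.x_vertical.1 hT.x_vertical.2

/-- **(A4)** two local equations of the same divisor at a thick node have slopes congruent
modulo `e`. -/
theorem slope_well_defined {D : Divisor K F} {h h' : F} (hh : IsLocEq B 𝔪 D h)
    (hh' : IsLocEq B 𝔪 D h') {a1 a2 a1' a2' : ℤ}
    (h1 : O1.valuation h = O1.valuation (algebraMap R F π) ^ a1)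
    (h2 : O2.valuation h = O2.valuation (algebraMap R F π) ^ a2)
    (h1' : O1.valuation h' = O1.valuation (algebraMap R F π) ^ a1')
    (h2' : O2.valuation h' = O2.valuation (algebraMap R F π) ^ a2') :
    (e : ℤ) ∣ (a2 - a1) - (a2' - a1') := by
  have hdiv : IsLocEq B 𝔪 (0 : Divisor K F) (h / h') := by
    have := hh.div hh'
    rwa [sub_self] at this
  have hv1 : O1.valuation (h / h') = O1.valuation (algebraMap R F π) ^ (a1 - a1') := by
    rw [map_div₀, h1, h1', zpow_sub₀ hT.unif1.val_ne_zero]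
  have hv2 : O2.valuation (h / h') = O2.valuation (algebraMap R F π) ^ (a2 - a2') := by
    rw [map_div₀, h2, h2', zpow_sub₀ hT.unif2.val_ne_zero]
  have := thickness_dvd_of_isLocEq_zero (K := K) π t B O1 O2 ht noethB fracR dvrR pi_ne intcl int0
    frac leO1 leO2 arch1 arch2 sat 𝔪 hT hdiv hv1 hv2
  have heq : (a2 - a1) - (a2' - a1') = (a2 - a2') - (a1 - a1') := by ring
  rw [heq]
  exact this

omit ht noethB fracR dvrR intcl int0 frac leO1 leO2 sat in
/-- **(A5)** every nonzero function has integral valuations on both components. -/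
theorem exists_vals {h : F} (hh : h ≠ 0) :
    ∃ a1 a2 : ℤ, O1.valuation h = O1.valuation (algebraMap R F π) ^ a1 ∧
      O2.valuation h = O2.valuation (algebraMap R F π) ^ a2 := by
  obtain ⟨k1, hk1⟩ := arch1 h
  obtain ⟨k1', hk1'⟩ := arch1 h⁻¹
  obtain ⟨k2, hk2⟩ := arch2 h
  obtain ⟨k2', hk2'⟩ := arch2 h⁻¹
  obtain ⟨a1, ha1⟩ := hT.unif1.exists_zpow hh hk1 hk1'
  obtain ⟨a2, ha2⟩ := hT.unif2.exists_zpow hh hk2 hk2'
  exact ⟨a1, a2, ha1, ha2⟩

omit ht noethB fracR dvrR intcl int0 frac leO1 leO2 arch1 arch2 sat in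
/-- **(A6) Cartier after a vertical shift**: if the slope of `h` is `≡ m` modulo `e` there is a
local equation `h'` of the same divisor with `v₁(h') = 0`, `v₂(h') = m`.  For `m = 0` it is strict on
both branches. -/
theorem cartier_shift {D : Divisor K F} {h : F} (hh : IsLocEq B 𝔪 D h) {a1 a2 m : ℤ}
    (h1 : O1.valuation h = O1.valuation (algebraMap R F π) ^ a1)
    (h2 : O2.valuation h = O2.valuation (algebraMap R F π) ^ a2)
    (hm : (e : ℤ) ∣ (a2 - a1) - m) :
    ∃ h' : F, IsLocEq B 𝔪 D h' ∧ O1.valuation h' = 1 ∧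
      O2.valuation h' = O2.valuation (algebraMap R F π) ^ m := by
  obtain ⟨b, hb⟩ := hm
  set p : F := algebraMap R F π with hp
  have hx0 := hT.x_ne_zero
  set w : F := p ^ (-a1) * x ^ (-b) with hw
  have hw0 : w ≠ 0 := mul_ne_zero (zpow_ne_zero _ pi_ne) (zpow_ne_zero _ hx0)
  have hwinv : w⁻¹ = p ^ a1 * x ^ b := by
    rw [hw, mul_inv, zpow_neg, zpow_neg, inv_inv, inv_inv]
  have hwloc : ThickNode.InLoc (locSub B 𝔪).toSubring p w :=
    ThickNode.inLoc_mul (hT.inLoc_zpow_pi _) (hT.inLoc_zpow_x _)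
  have hwloc' : ThickNode.InLoc (locSub B 𝔪).toSubring p w⁻¹ := by
    rw [hwinv]
    exact ThickNode.inLoc_mul (hT.inLoc_zpow_pi _) (hT.inLoc_zpow_x _)
  have hwle : IsLocEq B 𝔪 (0 : Divisor K F) w :=
    isLocEq_zero_of_vertical π pi_ne hw0 hwloc hwloc'
  refine ⟨h * w, by simpa using hh.mul hwle, ?_, ?_⟩
  · rw [map_mul, h1, hw, map_mul, map_zpow₀, map_zpow₀, hT.val1_x, one_zpow, mul_one,
      ← zpow_add₀ hT.unif1.val_ne_zero, add_neg_cancel, zpow_zero]
  · rw [map_mul, h2, hw, map_mul, map_zpow₀, map_zpow₀, hT.val2_x, ← zpow_natCast,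
      ← zpow_mul, ← zpow_add₀ hT.unif2.val_ne_zero, ← zpow_add₀ hT.unif2.val_ne_zero]
    congr 1
    have : a2 = a1 + m + e * b := by linarith
    rw [this]; ring

end Chart

end Fermat.Agent.M1.Node.SlopeAdapter25
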