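/-
M1 (S44), chapter NODE, brick N4 (helper25): **smooth points: every `π`-saturated ideal is principal**
(strict local equations exist at smooth points; no "regular ⇒ UFD").  Mathlib only.

`O` a noetherian local ring with `𝔪 = (π, s)` and `π` a prime element (`O / π` is a domain: the point
lies on one reduced component), `q` an ideal with `O / q` `π`-torsion-free (e.g. a prime not containing
`π`, or the ideal of a horizontal divisor).  Then `q = (f)`, and if `q ≠ ⊥`, `f = s ^ m + π c`
(`m` = the local intersection number of `q` with the special fibre: conservation of number).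
-/
import Mathlib

set_option autoImplicit false

namespace Fermat.Agent.M1.Node.Smooth25

open IsLocalRing

variable {O : Type*} [CommRing O] [IsLocalRing O] [IsNoetherianRing O]

/-- Nakayama step: `q ≤ (f) + π q`, `π ∈ 𝔪` ⟹ `q ≤ (f)`. -/
theorem le_span_of_le_sup_smul {π f : O} (hπ : π ∈ maximalIdeal O) (q : Ideal O)
    (h : q ≤ Ideal.span {f} ⊔ Ideal.span {π} • q) : q ≤ Ideal.span {f} := by
  refine Submodule.le_of_le_smul_of_le_jacobson_bot (I := Ideal.span {π})
    (IsNoetherian.noetherian q) ?_ h
  rw [IsLocalRing.jacobson_eq_maximalIdeal ⊥ bot_ne_top, Ideal.span_singleton_le_iff_mem]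
  exact hπ

/-- **Smooth points: `π`-saturated ideals are principal**, with a generator `≡ s ^ m` modulo `π`. -/
theorem exists_generator_of_smooth {π s : O} (hmax : maximalIdeal O = Ideal.span {π, s})
    (hπ : Prime π) (q : Ideal O) (hq : ∀ c, π * c ∈ q → c ∈ q) :
    ∃ f ∈ q, q = Ideal.span {f} ∧ (q ≠ ⊥ → q ≠ ⊤ → ∃ (m : ℕ) (c : O), 0 < m ∧ f = s ^ m + π * c) := by
  classical
  have hπm : π ∈ maximalIdeal O := by
    rw [hmax]; exact Ideal.subset_span (by simp)
  have hsm : s ∈ maximalIdeal O := by
    rw [hmax]; exact Ideal.subset_span (by simp)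
  by_cases hqtop : q = ⊤
  · refine ⟨1, by rw [hqtop]; exact Submodule.mem_top, by rw [hqtop, Ideal.span_singleton_one],
      fun _ h => absurd hqtop h⟩
  -- the quotient `O / π`
  set P : Ideal O := Ideal.span {π} with hP
  have hPprime : P.IsPrime := (Ideal.span_singleton_prime hπ.ne_zero).mpr hπ
  set mk : O →+* O ⧸ P := Ideal.Quotient.mk P with hmk
  have hmk_surj : Function.Surjective mk := Ideal.Quotient.mk_surjective
  have : IsLocalRing (O ⧸ P) := IsLocalRing.of_surjective' mk hmk_surj
  -- its maximal ideal is generated by the image of `s`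
  have hmaxbar : maximalIdeal (O ⧸ P) = Ideal.span {mk s} := by
    have h1 : maximalIdeal (O ⧸ P) = Ideal.map mk (maximalIdeal O) := by
      refine le_antisymm ?_ ?_
      · intro z hz
        obtain ⟨z', rfl⟩ := hmk_surj z
        refine Ideal.mem_map_of_mem mk ?_
        by_contra hnot
        have hu : IsUnit z' := by
          by_contra hnu
          exact hnot ((IsLocalRing.mem_maximalIdeal z').mpr hnu)
        exact (IsLocalRing.mem_maximalIdeal _).mp hz (hu.map mk)
      · rw [Ideal.map_le_iff_le_comap]
        intro z hz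
        rw [Ideal.mem_comap, IsLocalRing.mem_maximalIdeal]
        intro hu
        have : IsUnit z := by
          -- `mk` is a local homomorphism (surjective from a local ring)
          have : IsLocalHom mk := IsLocalHom.of_surjective mk hmk_surj
          exact (isUnit_map_iff mk z).mp hu
        exact (IsLocalRing.mem_maximalIdeal z).mp hz this
    rw [h1, hmax, Ideal.map_span]
    have : mk '' {π, s} = {mk π, mk s} := by
      rw [Set.image_pair]
    rw [this]
    have hπ0 : mk π = 0 := by
      rw [hmk, Ideal.Quotient.eq_zero_iff_mem]; exact Ideal.mem_span_singleton_self π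
    rw [hπ0]
    refine le_antisymm ?_ ?_
    · rw [Ideal.span_le]
      rintro z (rfl | rfl)
      · exact Ideal.zero_mem _
      · exact Ideal.mem_span_singleton_self _
    · exact Ideal.span_mono (by simp)
  by_cases hqbar : Ideal.map mk q = ⊥
  · -- `q ⊆ π O`, hence `q = π q = 0`
    have hle : q ≤ P := by
      intro c hc
      have : mk c ∈ Ideal.map mk q := Ideal.mem_map_of_mem mk hc
      rw [hqbar, Ideal.mem_bot, hmk, Ideal.Quotient.eq_zero_iff_mem] at this
      exact this
    have hq0 : q ≤ Ideal.span {(0 : O)} := by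
      refine le_span_of_le_sup_smul hπm q ?_
      intro c hc
      obtain ⟨c', rfl⟩ := Ideal.mem_span_singleton'.mp (hle hc)
      refine Submodule.mem_sup_right ?_
      rw [mul_comm] at hc ⊢
      exact Submodule.smul_mem_smul (Ideal.mem_span_singleton_self π) (hq c' hc)
    have hqbot : q = ⊥ := by
      rw [eq_bot_iff]
      intro c hc
      have := hq0 hc
      rwa [Ideal.span_singleton_eq_bot.mpr rfl] at this
    refine ⟨0, q.zero_mem, by rw [hqbot, Ideal.span_singleton_eq_bot.mpr rfl],
      fun h _ => absurd hqbot h⟩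
  · -- `q̄ = (s̄ ^ m)`
    obtain ⟨m, hm⟩ := exists_maximalIdeal_pow_eq_of_principal (O ⧸ P)
      ⟨⟨mk s, hmaxbar⟩⟩ (Ideal.map mk q) hqbar
    rw [hmaxbar, Ideal.span_singleton_pow] at hm
    have hsm_mem : mk s ^ m ∈ Ideal.map mk q := by
      rw [hm]; exact Ideal.mem_span_singleton_self _
    obtain ⟨f, hfq, hfs⟩ := (Ideal.mem_map_iff_of_surjective mk hmk_surj).mp hsm_mem
    have hfc : ∃ c, f = s ^ m + π * c := by
      have : mk (f - s ^ m) = 0 := by rw [map_sub, hfs, map_pow, sub_self]
      rw [hmk, Ideal.Quotient.eq_zero_iff_mem] at this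
      obtain ⟨c, hc⟩ := Ideal.mem_span_singleton'.mp this
      exact ⟨c, by rw [mul_comm, hc]; ring⟩
    refine ⟨f, hfq, ?_, ?_⟩
    · refine le_antisymm ?_ ((Ideal.span_singleton_le_iff_mem q).mpr hfq)
      refine le_span_of_le_sup_smul hπm q ?_
      intro c hc
      have hcbar : mk c ∈ Ideal.span {mk s ^ m} := by
        rw [← hm]; exact Ideal.mem_map_of_mem mk hc
      obtain ⟨abar, habar⟩ := Ideal.mem_span_singleton'.mp hcbar
      obtain ⟨a, rfl⟩ := hmk_surj abar
      have h0 : mk (c - a * f) = 0 := by
        rw [map_sub, map_mul, hfs, habar, sub_self]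
      rw [hmk, Ideal.Quotient.eq_zero_iff_mem] at h0
      obtain ⟨c'', hc''⟩ := Ideal.mem_span_singleton'.mp h0
      have hc''q : c'' ∈ q := by
        refine hq c'' ?_
        rw [mul_comm, hc'']
        exact q.sub_mem hc (q.mul_mem_left a hfq)
      have hdec : c = a * f + π * c'' := by
        rw [mul_comm π c'', hc'']; ring
      rw [hdec]
      refine Submodule.add_mem_sup (Ideal.mem_span_singleton'.mpr ⟨a, rfl⟩) ?_
      exact Submodule.smul_mem_smul (Ideal.mem_span_singleton_self π) hc''q
    · intro _ _
      obtain ⟨c, hc⟩ := hfc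
      refine ⟨m, c, ?_, hc⟩
      rcases Nat.eq_zero_or_pos m with hm0 | hmpos
      · exfalso
        apply hqtop
        rw [hm0, pow_zero] at hm
        have h1 : (1 : O ⧸ P) ∈ Ideal.map mk q := by
          rw [hm]; exact Ideal.mem_span_singleton_self _
        obtain ⟨g, hgq, hg1⟩ := (Ideal.mem_map_iff_of_surjective mk hmk_surj).mp h1
        have hgu : IsUnit g := by
          have : IsLocalHom mk := IsLocalHom.of_surjective mk hmk_surj
          exact (isUnit_map_iff mk g).mp (by rw [hg1]; exact isUnit_one)
        exact Ideal.eq_top_of_isUnit_mem q hgq hgu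
      · exact hmpos

end Fermat.Agent.M1.Node.Smooth25
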