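/-
M1 (S44), chapter NODE, brick N2 (helper25): **the base change of a regular node is a thick node**.
Mathlib + `Thick25` only.

`Fk ⊂ F` function fields over the inertial field `K = L^I` and over `L`; `S ⊂ Fk` the local ring of
the regular model at a node `s` (P36 `NodeRegAt`: `𝔪_S = (x₀, y₀)`, `x₀ y₀ = q * unit`,
`c ∈ q O1k ↔ y₀ ∣ c`, `c ∈ q O2k ↔ x₀ ∣ c`, `q`-saturation), `q` the uniformiser of `K`;
`π ∈ F` the uniformiser of `L`, `π ^ e = q * unit` (Eisenstein), `O_j ∩ Fk = O_jk`;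
`C ⊂ F` a ring with `S ⊆ C`, `π ∈ C`, `C = S + π C` (e.g. `C = S[π]`), `C ⊆ O_j`, and
`π ∈ Jac C` (automatic when `C` is the local ring of the `L`-model at the point above `s`).

`thickNode_of_base` : then `ThickNode C O1 O2 π x₀ y₀ e` (the hypotheses of `Thick25`): the node over
`L` has the SAME (Galois-invariant) coordinates `x₀, y₀ ∈ Fk` and thickness exactly `e = e(L/K)`.
No freeness / irreducibility of the Eisenstein polynomial is needed.
-/
import Mathlib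
import Fermat.Agent.M1.Node.Thick25

set_option autoImplicit false

namespace Fermat.Agent.M1.Node.BaseNode25

open Fermat.Agent.M1.Node.Thick25

variable {Fk F : Type*} [Field Fk] [Field F] [Algebra Fk F]

/-- **The regular node over `K`** in membership form (conclusions of P36 `NodeRegAt` +
N34 saturation at the local ring `S = O_{s,K}`). -/
structure RegNode (S : Subring Fk) (O1k O2k : ValuationSubring Fk) (q x₀ y₀ : Fk) : Prop where
  q_mem : q ∈ S
  x_mem : x₀ ∈ S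
  y_mem : y₀ ∈ S
  le1 : ∀ c ∈ S, c ∈ O1k
  le2 : ∀ c ∈ S, c ∈ O2k
  unif1 : IsUnifOf O1k q
  unif2 : IsUnifOf O2k q
  sat : ∀ c ∈ S, (∃ o ∈ O1k, c = q * o) → (∃ o ∈ O2k, c = q * o) → ∃ c' ∈ S, c = q * c'
  xy : ∃ u ∈ S, ∃ u' ∈ S, u * u' = 1 ∧ x₀ * y₀ = q * u
  x_unit1 : ¬ ∃ o ∈ O1k, x₀ = q * o
  y_unit2 : ¬ ∃ o ∈ O2k, y₀ = q * o
  nonunit : ∀ c ∈ S, c⁻¹ ∉ S → ∃ a ∈ S, ∃ b ∈ S, c = a * x₀ + b * y₀
  proper : ∀ a ∈ S, ∀ b ∈ S, a * x₀ + b * y₀ ≠ 1
  vert1 : ∀ c ∈ S, (∃ o ∈ O1k, c = q * o) → ∃ b ∈ S, c = b * y₀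
  vert2 : ∀ c ∈ S, (∃ o ∈ O2k, c = q * o) → ∃ b ∈ S, c = b * x₀

/-- **The totally ramified base change** `C ⊇ S`, `C = S + π C`, `π ^ e = q * unit`. -/
structure RamBase (S : Subring Fk) (O1k O2k : ValuationSubring Fk) (q : Fk)
    (C : Subring F) (O1 O2 : ValuationSubring F) (π : F) (e : ℕ) : Prop where
  e_pos : 0 < e
  pi_mem : π ∈ C
  map_mem : ∀ s ∈ S, algebraMap Fk F s ∈ C
  decomp : ∀ c ∈ C, ∃ s ∈ S, ∃ c' ∈ C, c = algebraMap Fk F s + π * c'
  le1 : ∀ c ∈ C, c ∈ O1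
  le2 : ∀ c ∈ C, c ∈ O2
  unif1 : IsUnifOf O1 π
  unif2 : IsUnifOf O2 π
  compat1 : ∀ z : Fk, algebraMap Fk F z ∈ O1 ↔ z ∈ O1k
  compat2 : ∀ z : Fk, algebraMap Fk F z ∈ O2 ↔ z ∈ O2k
  eis : ∃ w ∈ C, ∃ w' ∈ C, w * w' = 1 ∧ π ^ e = algebraMap Fk F q * w
  jac : ∀ c ∈ C, (1 + π * c)⁻¹ ∈ C

section

variable {S : Subring Fk} {O1k O2k : ValuationSubring Fk} {q x₀ y₀ : Fk}
  {C : Subring F} {O1 O2 : ValuationSubring F} {π : F} {e : ℕ}

/-- Descent of `π`-divisibility to `q`-divisibility on one component. -/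
theorem mem_q_of_mem_pi {Ok : ValuationSubring Fk} {O : ValuationSubring F}
    (hk : IsUnifOf Ok q) (hO : IsUnifOf O π) (compat : ∀ z : Fk, algebraMap Fk F z ∈ O ↔ z ∈ Ok)
    {s : Fk} (hs : s ∈ Ok) (h : ∃ o ∈ O, algebraMap Fk F s = π * o) : ∃ o ∈ Ok, s = q * o := by
  by_cases hs0 : s = 0
  · exact ⟨0, Ok.zero_mem, by rw [hs0, mul_zero]⟩
  have hlt : O.valuation (algebraMap Fk F s) < 1 := (hO.mem_pi_iff _).mp h
  refine hk.unif s hs fun hinv => ?_
  have h1 : algebraMap Fk F s⁻¹ ∈ O := (compat _).mpr hinv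
  rw [map_inv₀] at h1
  have h2 : O.valuation (algebraMap Fk F s)⁻¹ ≤ 1 := (O.valuation_le_one_iff _).mpr h1
  rw [map_inv₀] at h2
  have hne : algebraMap Fk F s ≠ 0 := by
    rwa [Ne, map_eq_zero]
  have hpos : 0 < O.valuation (algebraMap Fk F s) := by
    rw [pos_iff_ne_zero, Valuation.ne_zero_iff]; exact hne
  have h3 : 1 ≤ O.valuation (algebraMap Fk F s) := (inv_le_one₀ hpos).mp h2
  exact absurd hlt (not_lt.mpr h3)

/-- `π O` is stable under subtracting multiples of `π` from `O`. -/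
theorem sub_mem_pi {O : ValuationSubring F} {c c' : F} (hc' : c' ∈ O)
    (h : ∃ o ∈ O, c = π * o) : ∃ o ∈ O, c - π * c' = π * o := by
  obtain ⟨o, ho, rfl⟩ := h
  exact ⟨o - c', sub_mem ho hc', by ring⟩

/-- **The base change of a regular node along a totally ramified extension of degree `e` is a
thick node of thickness `e` with the same coordinates.** -/
theorem thickNode_of_base (hS : RegNode S O1k O2k q x₀ y₀)
    (hB : RamBase S O1k O2k q C O1 O2 π e) :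
    ThickNode C O1 O2 π (algebraMap Fk F x₀) (algebraMap Fk F y₀) e := by
  obtain ⟨w, hw, w', hw', hww, heis⟩ := hB.eis
  have hπ0 : π ≠ 0 := hB.unif1.ne_zero
  have hw'w : w' * w = 1 := by rw [mul_comm]; exact hww
  -- `q = π ^ e * w'`
  have hq : algebraMap Fk F q = π ^ e * w' := by
    rw [heis, mul_assoc, hww, mul_one]
  have hpe : π ^ e = π * π ^ (e - 1) := by
    rw [← pow_succ', Nat.sub_add_cancel hB.e_pos]
  refine
    { e_pos := hB.e_pos
      pi_mem := hB.pi_mem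
      x_mem := hB.map_mem _ hS.x_mem
      y_mem := hB.map_mem _ hS.y_mem
      le1 := hB.le1
      le2 := hB.le2
      unif1 := hB.unif1
      unif2 := hB.unif2
      sat := ?_
      xy := ?_
      x_unit1 := ?_
      y_unit2 := ?_
      nonunit := ?_
      proper := ?_
      vert1 := ?_
      vert2 := ?_ }
  · -- saturation
    intro c hc h1 h2
    obtain ⟨s, hs, c', hc', hdec⟩ := hB.decomp c hc
    have hs_eq : algebraMap Fk F s = c - π * c' := by rw [hdec]; ring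
    have hs1 : ∃ o ∈ O1k, s = q * o :=
      mem_q_of_mem_pi hS.unif1 hB.unif1 hB.compat1 (hS.le1 s hs)
        (by rw [hs_eq]; exact sub_mem_pi (hB.le1 c' hc') h1)
    have hs2 : ∃ o ∈ O2k, s = q * o :=
      mem_q_of_mem_pi hS.unif2 hB.unif2 hB.compat2 (hS.le2 s hs)
        (by rw [hs_eq]; exact sub_mem_pi (hB.le2 c' hc') h2)
    obtain ⟨s', hs', rfl⟩ := hS.sat s hs hs1 hs2
    refine ⟨π ^ (e - 1) * w' * algebraMap Fk F s' + c', ?_, ?_⟩
    · exact C.add_mem (C.mul_mem (C.mul_mem (C.pow_mem hB.pi_mem _) hw') (hB.map_mem _ hs')) hc'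
    · rw [hdec, map_mul, hq, hpe]; ring
  · -- `x y = π ^ e * unit`
    obtain ⟨u, hu, u', hu', huu, hxy⟩ := hS.xy
    refine ⟨w' * algebraMap Fk F u, C.mul_mem hw' (hB.map_mem _ hu),
      w * algebraMap Fk F u', C.mul_mem hw (hB.map_mem _ hu'), ?_, ?_⟩
    · have : algebraMap Fk F u * algebraMap Fk F u' = 1 := by rw [← map_mul, huu, map_one]
      calc w' * algebraMap Fk F u * (w * algebraMap Fk F u')
          = (w' * w) * (algebraMap Fk F u * algebraMap Fk F u') := by ring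
        _ = 1 := by rw [hw'w, this, one_mul]
    · rw [← map_mul, hxy, map_mul, hq]; ring
  · -- `x ∉ π O1`
    intro hx
    exact hS.x_unit1 (mem_q_of_mem_pi hS.unif1 hB.unif1 hB.compat1 (hS.le1 _ hS.x_mem) hx)
  · intro hy
    exact hS.y_unit2 (mem_q_of_mem_pi hS.unif2 hB.unif2 hB.compat2 (hS.le2 _ hS.y_mem) hy)
  · -- non-units lie in `(π, x, y)`
    intro c hc hcinv
    obtain ⟨s, hs, c', hc', hdec⟩ := hB.decomp c hc
    by_cases hs0 : s = 0
    · refine ⟨c', hc', 0, C.zero_mem, 0, C.zero_mem, ?_⟩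
      rw [hdec, hs0, map_zero]; ring
    by_cases hsinv : s⁻¹ ∈ S
    · exfalso
      apply hcinv
      have hsF : algebraMap Fk F s ≠ 0 := by rwa [Ne, map_eq_zero]
      have hsinvC : (algebraMap Fk F s)⁻¹ ∈ C := by
        rw [← map_inv₀]; exact hB.map_mem _ hsinv
      have hfac : c = algebraMap Fk F s * (1 + π * ((algebraMap Fk F s)⁻¹ * c')) := by
        rw [hdec]; field_simp
      rw [hfac, mul_inv]
      exact C.mul_mem hsinvC (hB.jac _ (C.mul_mem hsinvC hc'))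
    · obtain ⟨a, ha, b, hb, hab⟩ := hS.nonunit s hs hsinv
      refine ⟨c', hc', algebraMap Fk F a, hB.map_mem _ ha, algebraMap Fk F b, hB.map_mem _ hb, ?_⟩
      rw [hdec, hab, map_add, map_mul, map_mul]; ring
  · -- `(π, x, y)` is proper
    intro a ha b hb d hd h1
    obtain ⟨sb, hsb, b', hb', hbdec⟩ := hB.decomp b hb
    obtain ⟨sd, hsd, d', hd', hddec⟩ := hB.decomp d hd
    set t : Fk := 1 - sb * x₀ - sd * y₀ with ht
    have htS : t ∈ S :=
      S.sub_mem (S.sub_mem S.one_mem (S.mul_mem hsb hS.x_mem)) (S.mul_mem hsd hS.y_mem)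
    have ht0 : t ≠ 0 := by
      intro h0
      refine hS.proper sb hsb sd hsd ?_
      have : 1 - sb * x₀ - sd * y₀ = 0 := by rw [← ht]; exact h0
      linear_combination -this
    have htinv : t⁻¹ ∈ S := by
      by_contra hcon
      obtain ⟨a', ha', b'', hb'', hab⟩ := hS.nonunit t htS hcon
      refine hS.proper (sb + a') (S.add_mem hsb ha') (sd + b'') (S.add_mem hsd hb'') ?_
      have : 1 - sb * x₀ - sd * y₀ = a' * x₀ + b'' * y₀ := by rw [← ht]; exact hab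
      linear_combination -this
    -- `algebraMap t = π * (...)`
    have htpi : algebraMap Fk F t =
        π * (a + b' * algebraMap Fk F x₀ + d' * algebraMap Fk F y₀) := by
      rw [ht, map_sub, map_sub, map_one, map_mul, map_mul]
      have := h1
      rw [hbdec, hddec] at this
      linear_combination -this
    have hmemO : a + b' * algebraMap Fk F x₀ + d' * algebraMap Fk F y₀ ∈ O1 :=
      hB.le1 _ (C.add_mem (C.add_mem ha (C.mul_mem hb' (hB.map_mem _ hS.x_mem)))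
        (C.mul_mem hd' (hB.map_mem _ hS.y_mem)))
    obtain ⟨o, ho, hto⟩ := mem_q_of_mem_pi hS.unif1 hB.unif1 hB.compat1 (hS.le1 t htS)
      ⟨_, hmemO, htpi⟩
    -- then `q⁻¹ = o * t⁻¹ ∈ O1k`
    apply hS.unif1.nonunit
    have hq0 : q ≠ 0 := hS.unif1.ne_zero
    have ho0 : o ≠ 0 := by
      rintro rfl
      rw [mul_zero] at hto
      exact ht0 hto
    have : q⁻¹ = o * t⁻¹ := by
      rw [hto]; field_simp
    rw [this]
    exact O1k.mul_mem _ _ ho (hS.le1 _ htinv)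
  · -- `C ∩ π O1 ⊆ (π, y)`
    intro c hc h1
    obtain ⟨s, hs, c', hc', hdec⟩ := hB.decomp c hc
    have hs_eq : algebraMap Fk F s = c - π * c' := by rw [hdec]; ring
    have hs1 : ∃ o ∈ O1k, s = q * o :=
      mem_q_of_mem_pi hS.unif1 hB.unif1 hB.compat1 (hS.le1 s hs)
        (by rw [hs_eq]; exact sub_mem_pi (hB.le1 c' hc') h1)
    obtain ⟨b, hb, rfl⟩ := hS.vert1 s hs hs1
    refine ⟨c', hc', algebraMap Fk F b, hB.map_mem _ hb, ?_⟩
    rw [hdec, map_mul]; ring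
  · intro c hc h2
    obtain ⟨s, hs, c', hc', hdec⟩ := hB.decomp c hc
    have hs_eq : algebraMap Fk F s = c - π * c' := by rw [hdec]; ring
    have hs2 : ∃ o ∈ O2k, s = q * o :=
      mem_q_of_mem_pi hS.unif2 hB.unif2 hB.compat2 (hS.le2 s hs)
        (by rw [hs_eq]; exact sub_mem_pi (hB.le2 c' hc') h2)
    obtain ⟨b, hb, rfl⟩ := hS.vert2 s hs hs2
    refine ⟨c', hc', algebraMap Fk F b, hB.map_mem _ hb, ?_⟩
    rw [hdec, map_mul]; ring

end

/-! ### The concrete ring `S[π]` -/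

section Adjoin

/-- `S[π] ⊂ F`: the subring generated by (the image of) `S` and `π`. -/
def adjoinPi (S : Subring Fk) (π : F) : Subring F :=
  Subring.closure (insert π (algebraMap Fk F '' (S : Set Fk)))

variable (S : Subring Fk) (π : F)

theorem pi_mem_adjoinPi : π ∈ adjoinPi S π :=
  Subring.subset_closure (Set.mem_insert _ _)

theorem map_mem_adjoinPi {s : Fk} (hs : s ∈ S) : algebraMap Fk F s ∈ adjoinPi S π :=
  Subring.subset_closure (Set.mem_insert_of_mem _ ⟨s, hs, rfl⟩)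

/-- `S[π] = S + π S[π]`. -/
theorem adjoinPi_decomp : ∀ c ∈ adjoinPi S π,
    ∃ s ∈ S, ∃ c' ∈ adjoinPi S π, c = algebraMap Fk F s + π * c' := by
  intro c hc
  induction hc using Subring.closure_induction with
  | mem z hz =>
    rcases hz with rfl | ⟨s, hs, rfl⟩
    · exact ⟨0, S.zero_mem, 1, (adjoinPi S z).one_mem, by rw [map_zero, zero_add, mul_one]⟩
    · exact ⟨s, hs, 0, (adjoinPi S π).zero_mem, by rw [mul_zero, add_zero]⟩
  | zero => exact ⟨0, S.zero_mem, 0, (adjoinPi S π).zero_mem, by rw [map_zero, mul_zero, add_zero]⟩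
  | one => exact ⟨1, S.one_mem, 0, (adjoinPi S π).zero_mem, by rw [map_one, mul_zero, add_zero]⟩
  | add z₁ z₂ h₁ h₂ ih₁ ih₂ =>
    obtain ⟨s₁, hs₁, c₁, hc₁, rfl⟩ := ih₁
    obtain ⟨s₂, hs₂, c₂, hc₂, rfl⟩ := ih₂
    exact ⟨s₁ + s₂, S.add_mem hs₁ hs₂, c₁ + c₂, (adjoinPi S π).add_mem hc₁ hc₂, by
      rw [map_add]; ring⟩
  | neg z hz ih =>
    obtain ⟨s₁, hs₁, c₁, hc₁, rfl⟩ := ih
    exact ⟨-s₁, S.neg_mem hs₁, -c₁, (adjoinPi S π).neg_mem hc₁, by rw [map_neg]; ring⟩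
  | mul z₁ z₂ h₁ h₂ ih₁ ih₂ =>
    obtain ⟨s₁, hs₁, c₁, hc₁, rfl⟩ := ih₁
    obtain ⟨s₂, hs₂, c₂, hc₂, rfl⟩ := ih₂
    refine ⟨s₁ * s₂, S.mul_mem hs₁ hs₂,
      algebraMap Fk F s₁ * c₂ + c₁ * algebraMap Fk F s₂ + π * c₁ * c₂, ?_, by rw [map_mul]; ring⟩
    exact (adjoinPi S π).add_mem ((adjoinPi S π).add_mem
      ((adjoinPi S π).mul_mem (map_mem_adjoinPi S π hs₁) hc₂)
      ((adjoinPi S π).mul_mem hc₁ (map_mem_adjoinPi S π hs₂)))
      ((adjoinPi S π).mul_mem ((adjoinPi S π).mul_mem (pi_mem_adjoinPi S π) hc₁) hc₂)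

end Adjoin

end Fermat.Agent.M1.Node.BaseNode25
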