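/-
M1 (S44), chapter NODE, brick N6 (helper25): **bridge, `L`-side**: the local ring `locSub B 𝔪` of a
chart of the model over `L` at a closed point above a regular node of the model over the inertial
field `K` is a thick node, GIVEN the base-change input of BASE/MOD (`ChartBC34`):
`locSub B 𝔪 = S + π locSub B 𝔪` with `S` the (image of the) local ring over `K`.

* `jac_locSub` : `1 + π c` is a unit of `locSub B 𝔪` when `π ∈ 𝔪` (the field `jac` of `RamBase`);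
* `ramBase_locSub`, `thickNode_locSub` : assembly.
-/
import Mathlib
import Fermat.Agent.ES.N34.NodalSmooth13
import Fermat.Agent.M1.Node.BaseNode25

set_option autoImplicit false
set_option linter.unusedSectionVars false

namespace Fermat.Agent.M1.Node.BridgeL25

open IsLocalRing Fermat.Agent.ES.N34.NodalCore13 Fermat.Agent.ES.N34.NodalSmooth13
  Fermat.Agent.M1.Node.Thick25 Fermat.Agent.M1.Node.BaseNode25

variable {R F : Type*} [CommRing R] [Field F] [Algebra R F]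

/-- Units of `locSub B 𝔪` in field form. -/
theorem inv_mem_of_isUnit (B : Subalgebra R F) (𝔪 : Ideal B) [𝔪.IsPrime] {z : ↥(locSub B 𝔪)}
    (hz : IsUnit z) : ((z : F))⁻¹ ∈ locSub B 𝔪 := by
  obtain ⟨u, rfl⟩ := hz
  have h1 : ((u : ↥(locSub B 𝔪)) : F) * ((↑u⁻¹ : ↥(locSub B 𝔪)) : F) = 1 :=
    congrArg (fun w : ↥(locSub B 𝔪) => (w : F)) u.mul_inv
  have h2 : (((u : ↥(locSub B 𝔪)) : F))⁻¹ = ((↑u⁻¹ : ↥(locSub B 𝔪)) : F) :=
    (eq_inv_of_mul_eq_one_right h1).symm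
  rw [h2]
  exact (↑u⁻¹ : ↥(locSub B 𝔪)).2

/-- `π` lies in the Jacobson radical of `locSub B 𝔪` when `π ∈ 𝔪`. -/
theorem jac_locSub (π : R) (B : Subalgebra R F) (𝔪 : Ideal B) [𝔪.IsPrime]
    (hπ : algebraMap R B π ∈ 𝔪) :
    ∀ c ∈ (locSub B 𝔪).toSubring, (1 + algebraMap R F π * c)⁻¹ ∈ (locSub B 𝔪).toSubring := by
  intro c hc
  set C := locSub B 𝔪 with hC
  set πC : ↥C := algebraMap ↥B ↥C (algebraMap R B π) with hπC
  have hπnu : πC ∈ nonunits ↥C := not_isUnit_of_mem B 𝔪 hπ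
  have hmem : -(πC * ⟨c, hc⟩) ∈ nonunits ↥C := by
    have h1 : πC ∈ maximalIdeal ↥C := hπnu
    have h2 : -(πC * ⟨c, hc⟩) ∈ maximalIdeal ↥C :=
      (maximalIdeal ↥C).neg_mem ((maximalIdeal ↥C).mul_mem_right _ h1)
    exact h2
  have hu : IsUnit (1 - -(πC * ⟨c, hc⟩)) := IsLocalRing.isUnit_one_sub_self_of_mem_nonunits _ hmem
  have := inv_mem_of_isUnit B 𝔪 hu
  have hcoe : ((1 - -(πC * ⟨c, hc⟩) : ↥C) : F) = 1 + algebraMap R F π * c := by
    push_cast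
    rw [sub_neg_eq_add]
    rfl
  rw [hcoe] at this
  exact this

section Assembly

variable {Rk Fk : Type*} [CommRing Rk] [Field Fk] [Algebra Rk Fk] [Algebra Fk F]

/-- **`RamBase` for the local ring of the `L`-chart**, from the base-change input. -/
theorem ramBase_locSub {S : Subring Fk} {O1k O2k : ValuationSubring Fk} {q : Fk}
    (π : R) (B : Subalgebra R F) (O1 O2 : ValuationSubring F) (𝔪 : Ideal B) [𝔪.IsPrime]
    (hπ : algebraMap R B π ∈ 𝔪) {e : ℕ} (he : 0 < e)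
    (map_mem : ∀ s ∈ S, algebraMap Fk F s ∈ locSub B 𝔪)
    (decomp : ∀ c ∈ locSub B 𝔪, ∃ s ∈ S, ∃ c' ∈ locSub B 𝔪,
      c = algebraMap Fk F s + algebraMap R F π * c')
    (le1 : ∀ c ∈ locSub B 𝔪, c ∈ O1) (le2 : ∀ c ∈ locSub B 𝔪, c ∈ O2)
    (pi_nonunit1 : (algebraMap R F π)⁻¹ ∉ O1) (pi_nonunit2 : (algebraMap R F π)⁻¹ ∉ O2)
    (unif1 : ∀ x ∈ O1, x⁻¹ ∉ O1 → ∃ c ∈ O1, x = algebraMap R F π * c)
    (unif2 : ∀ x ∈ O2, x⁻¹ ∉ O2 → ∃ c ∈ O2, x = algebraMap R F π * c)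
    (compat1 : ∀ z : Fk, algebraMap Fk F z ∈ O1 ↔ z ∈ O1k)
    (compat2 : ∀ z : Fk, algebraMap Fk F z ∈ O2 ↔ z ∈ O2k)
    (eis : ∃ w ∈ locSub B 𝔪, ∃ w' ∈ locSub B 𝔪, w * w' = 1 ∧
      algebraMap R F π ^ e = algebraMap Fk F q * w) :
    RamBase S O1k O2k q (locSub B 𝔪).toSubring O1 O2 (algebraMap R F π) e :=
  { e_pos := he
    pi_mem := (locSub B 𝔪).algebraMap_mem π
    map_mem := map_mem
    decomp := decomp
    le1 := le1
    le2 := le2
    unif1 := ⟨pi_nonunit1, unif1⟩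
    unif2 := ⟨pi_nonunit2, unif2⟩
    compat1 := compat1
    compat2 := compat2
    eis := eis
    jac := jac_locSub π B 𝔪 hπ }

/-- **The thick node over `L`** at a closed point above a regular node over `K`:
same coordinates `x₀, y₀ ∈ F_K`, thickness `e`. -/
theorem thickNode_locSub {S : Subring Fk} {O1k O2k : ValuationSubring Fk} {q x₀ y₀ : Fk}
    (hS : RegNode S O1k O2k q x₀ y₀)
    (π : R) (B : Subalgebra R F) (O1 O2 : ValuationSubring F) (𝔪 : Ideal B) [𝔪.IsPrime]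
    (hπ : algebraMap R B π ∈ 𝔪) {e : ℕ} (he : 0 < e)
    (map_mem : ∀ s ∈ S, algebraMap Fk F s ∈ locSub B 𝔪)
    (decomp : ∀ c ∈ locSub B 𝔪, ∃ s ∈ S, ∃ c' ∈ locSub B 𝔪,
      c = algebraMap Fk F s + algebraMap R F π * c')
    (le1 : ∀ c ∈ locSub B 𝔪, c ∈ O1) (le2 : ∀ c ∈ locSub B 𝔪, c ∈ O2)
    (pi_nonunit1 : (algebraMap R F π)⁻¹ ∉ O1) (pi_nonunit2 : (algebraMap R F π)⁻¹ ∉ O2)
    (unif1 : ∀ x ∈ O1, x⁻¹ ∉ O1 → ∃ c ∈ O1, x = algebraMap R F π * c)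
    (unif2 : ∀ x ∈ O2, x⁻¹ ∉ O2 → ∃ c ∈ O2, x = algebraMap R F π * c)
    (compat1 : ∀ z : Fk, algebraMap Fk F z ∈ O1 ↔ z ∈ O1k)
    (compat2 : ∀ z : Fk, algebraMap Fk F z ∈ O2 ↔ z ∈ O2k)
    (eis : ∃ w ∈ locSub B 𝔪, ∃ w' ∈ locSub B 𝔪, w * w' = 1 ∧
      algebraMap R F π ^ e = algebraMap Fk F q * w) :
    ThickNode (locSub B 𝔪).toSubring O1 O2 (algebraMap R F π) (algebraMap Fk F x₀)
      (algebraMap Fk F y₀) e :=
  thickNode_of_base hS (ramBase_locSub π B O1 O2 𝔪 hπ he map_mem decomp le1 le2 pi_nonunit1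
    pi_nonunit2 unif1 unif2 compat1 compat2 eis)

end Assembly

end Fermat.Agent.M1.Node.BridgeL25
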