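/-
M1 / chapter NODE, NCG (#523 B), part 1 (helper58): coordinates modulo `𝔮 + ϖ^N O`.

`O` an `R`-algebra, `π = algebraMap R O ϖ`, `𝔮` an ideal of `O` with `O/𝔮` `π`-torsion-free,
`e : ι → O` a family lifting a basis of `O/(𝔮 + πO)` over `R/ϖ` (in elementwise form).  Then `e` is
a "basis modulo `ϖ^N`" of `O/(𝔮 + π^N O)` for every `N`, multiplication by `a ∈ O` has a matrix
`M` over `R` (unique modulo `ϖ^N`), this is multiplicative, and Cayley--Hamilton gives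
`χ_X(x) ∈ 𝔮 + π^N O`.  Mathlib only.
-/
import Mathlib

set_option autoImplicit false

namespace Fermat.Agent.M1.Node.NCGCoord58

open Polynomial Matrix

variable {R O : Type*} [CommRing R] [CommRing O] [Algebra R O]

/-- the ideal `𝔮 + π^N O`. -/
def lev (ϖ : R) (𝔮 : Ideal O) (N : ℕ) : Ideal O := 𝔮 ⊔ Ideal.span {algebraMap R O ϖ ^ N}

theorem mem_lev {ϖ : R} {𝔮 : Ideal O} {N : ℕ} {a : O} :
    a ∈ lev ϖ 𝔮 N ↔ ∃ q ∈ 𝔮, ∃ b : O, a = q + algebraMap R O ϖ ^ N * b := by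
  unfold lev
  rw [Submodule.mem_sup]
  constructor
  · rintro ⟨q, hq, z, hz, rfl⟩
    obtain ⟨b, rfl⟩ := Ideal.mem_span_singleton'.mp hz
    exact ⟨q, hq, b, by ring⟩
  · rintro ⟨q, hq, b, rfl⟩
    exact ⟨q, hq, _, Ideal.mem_span_singleton'.mpr ⟨b, rfl⟩, by ring⟩

theorem le_lev (ϖ : R) (𝔮 : Ideal O) (N : ℕ) : 𝔮 ≤ lev ϖ 𝔮 N := le_sup_left

theorem pow_mem_lev (ϖ : R) (𝔮 : Ideal O) (N : ℕ) : algebraMap R O ϖ ^ N ∈ lev ϖ 𝔮 N :=
  Ideal.mem_sup_right (Ideal.subset_span rfl)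

theorem lev_anti (ϖ : R) (𝔮 : Ideal O) {N M : ℕ} (h : N ≤ M) : lev ϖ 𝔮 M ≤ lev ϖ 𝔮 N := by
  unfold lev
  refine sup_le le_sup_left ?_
  rw [Ideal.span_le, Set.singleton_subset_iff]
  obtain ⟨k, rfl⟩ := Nat.exists_eq_add_of_le h
  rw [pow_add]
  exact Ideal.mul_mem_right _ _ (pow_mem_lev ϖ 𝔮 N)

theorem lev_zero (ϖ : R) (𝔮 : Ideal O) : lev ϖ 𝔮 0 = ⊤ := by
  unfold lev
  rw [pow_zero, Ideal.span_singleton_one, sup_top_eq]

variable {ι : Type*} [Fintype ι]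

/-- `e` is a basis of `O/(𝔮 + πO)` over `R/ϖ`, in elementwise form. -/
structure IsBasisMod (ϖ : R) (𝔮 : Ideal O) (e : ι → O) : Prop where
  span : ∀ a : O, ∃ r : ι → R, a - ∑ i, r i • e i ∈ lev ϖ 𝔮 1
  indep : ∀ r : ι → R, ∑ i, r i • e i ∈ lev ϖ 𝔮 1 → ∀ i, ϖ ∣ r i
  tf : ∀ a : O, algebraMap R O ϖ * a ∈ 𝔮 → a ∈ 𝔮

variable {ϖ : R} {𝔮 : Ideal O} {e : ι → O}

namespace IsBasisMod

variable (hB : IsBasisMod ϖ 𝔮 e)
include hB

/-- spanning modulo `ϖ^N`. -/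
theorem span_pow : ∀ (N : ℕ) (a : O), ∃ r : ι → R, a - ∑ i, r i • e i ∈ lev ϖ 𝔮 N := by
  intro N
  induction N with
  | zero => intro a; exact ⟨fun _ => 0, by rw [lev_zero]; trivial⟩
  | succ N ih =>
    intro a
    obtain ⟨r, hr⟩ := ih a
    obtain ⟨q, hq, b, hb⟩ := mem_lev.mp hr
    obtain ⟨s, hs⟩ := hB.span b
    obtain ⟨q', hq', b', hb'⟩ := mem_lev.mp hs
    refine ⟨fun i => r i + ϖ ^ N * s i, mem_lev.mpr
      ⟨q + algebraMap R O ϖ ^ N * q', 𝔮.add_mem hq (𝔮.mul_mem_left _ hq'), b', ?_⟩⟩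
    have h1 : ∑ i, (r i + ϖ ^ N * s i) • e i =
        ∑ i, r i • e i + algebraMap R O ϖ ^ N * ∑ i, s i • e i := by
      rw [Finset.mul_sum, ← Finset.sum_add_distrib]
      refine Finset.sum_congr rfl fun i _ => ?_
      rw [add_smul, mul_smul, Algebra.smul_def (ϖ ^ N), map_pow]
    rw [h1]
    rw [pow_one] at hb'
    have h2 : a = ∑ i, r i • e i + (q + algebraMap R O ϖ ^ N * b) := by rw [← hb]; ring
    have h3 : b = ∑ i, s i • e i + (q' + algebraMap R O ϖ * b') := by rw [← hb']; ring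
    rw [h2]
    nth_rewrite 1 [h3]
    ring

/-- independence modulo `ϖ^N`. -/
theorem indep_pow : ∀ (N : ℕ) (r : ι → R), ∑ i, r i • e i ∈ lev ϖ 𝔮 N → ∀ i, ϖ ^ N ∣ r i := by
  intro N
  induction N with
  | zero => intro r _ i; simp
  | succ N ih =>
    intro r hr i
    have h1 : ∀ i, ϖ ∣ r i := hB.indep r (lev_anti ϖ 𝔮 (Nat.le_add_left 1 N) hr)
    choose r' hr' using h1
    obtain ⟨q, hq, b, hb⟩ := mem_lev.mp hr
    have h2 : ∑ i, r i • e i = algebraMap R O ϖ * ∑ i, r' i • e i := by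
      rw [Finset.mul_sum]
      refine Finset.sum_congr rfl fun i _ => ?_
      rw [hr' i, mul_smul, Algebra.smul_def ϖ]
    have h3 : ∑ i, r' i • e i - algebraMap R O ϖ ^ N * b ∈ 𝔮 := by
      apply hB.tf
      have : algebraMap R O ϖ * (∑ i, r' i • e i - algebraMap R O ϖ ^ N * b) = q := by
        rw [mul_sub, ← h2, hb, pow_succ]; ring
      rw [this]; exact hq
    have h4 : ∑ i, r' i • e i ∈ lev ϖ 𝔮 N :=
      mem_lev.mpr ⟨_, h3, b, by ring⟩
    obtain ⟨d, hd⟩ := ih r' h4 i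
    exact ⟨d, by rw [hr' i, hd, pow_succ]; ring⟩

end IsBasisMod

/-! ### Matrices of multiplication -/

/-- `M` is a matrix of multiplication by `a` modulo `𝔮 + π^N O`. -/
def IsMat (ϖ : R) (𝔮 : Ideal O) (e : ι → O) (N : ℕ) (a : O) (M : Matrix ι ι R) : Prop :=
  ∀ i, a * e i - ∑ j, M j i • e j ∈ lev ϖ 𝔮 N

theorem IsBasisMod.exists_isMat (hB : IsBasisMod ϖ 𝔮 e) (N : ℕ) (a : O) :
    ∃ M : Matrix ι ι R, IsMat ϖ 𝔮 e N a M := by
  choose r hr using fun i => hB.span_pow N (a * e i)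
  exact ⟨Matrix.of fun j i => r i j, fun i => by simpa using hr i⟩

namespace IsMat

variable {N : ℕ} {a b : O} {M M' : Matrix ι ι R}

theorem mono {N' : ℕ} (h : IsMat ϖ 𝔮 e N a M) (hN : N' ≤ N) : IsMat ϖ 𝔮 e N' a M :=
  fun i => lev_anti ϖ 𝔮 hN (h i)

theorem unique (hB : IsBasisMod ϖ 𝔮 e) (h : IsMat ϖ 𝔮 e N a M) (h' : IsMat ϖ 𝔮 e N a M')
    (i j : ι) : ϖ ^ N ∣ (M - M') i j := by
  have h1 : ∑ k, (M - M') k j • e k ∈ lev ϖ 𝔮 N := by
    have : ∑ k, (M - M') k j • e k =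
        (a * e j - ∑ k, M' k j • e k) - (a * e j - ∑ k, M k j • e k) := by
      simp only [Matrix.sub_apply, sub_smul, Finset.sum_sub_distrib]
      ring
    rw [this]
    exact (lev ϖ 𝔮 N).sub_mem (h' j) (h j)
  exact hB.indep_pow N _ h1 i

theorem of_mem (ha : a ∈ lev ϖ 𝔮 N) : IsMat ϖ 𝔮 e N a (0 : Matrix ι ι R) := by
  intro i
  simp only [Matrix.zero_apply, zero_smul, Finset.sum_const_zero, sub_zero]
  exact Ideal.mul_mem_right _ _ ha

theorem ofAlgebraMap (r : R) [DecidableEq ι] :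
    IsMat ϖ 𝔮 e N (algebraMap R O r) (r • (1 : Matrix ι ι R)) := by
  intro i
  have : ∑ j, (r • (1 : Matrix ι ι R)) j i • e j = algebraMap R O r * e i := by
    rw [Finset.sum_eq_single i]
    · simp [Algebra.smul_def]
    · intro j _ hji
      simp [Matrix.one_apply_ne hji]
    · intro h; exact absurd (Finset.mem_univ i) h
  rw [this, sub_self]
  exact Ideal.zero_mem _

theorem one [DecidableEq ι] : IsMat ϖ 𝔮 e N (1 : O) (1 : Matrix ι ι R) := by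
  have := IsMat.ofAlgebraMap (ϖ := ϖ) (𝔮 := 𝔮) (e := e) (N := N) (1 : R)
  simpa using this

theorem add (h : IsMat ϖ 𝔮 e N a M) (h' : IsMat ϖ 𝔮 e N b M') :
    IsMat ϖ 𝔮 e N (a + b) (M + M') := by
  intro i
  have : (a + b) * e i - ∑ j, (M + M') j i • e j =
      (a * e i - ∑ j, M j i • e j) + (b * e i - ∑ j, M' j i • e j) := by
    simp only [Matrix.add_apply, add_smul, Finset.sum_add_distrib]
    ring
  rw [this]
  exact (lev ϖ 𝔮 N).add_mem (h i) (h' i)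

theorem mul (h : IsMat ϖ 𝔮 e N a M) (h' : IsMat ϖ 𝔮 e N b M') :
    IsMat ϖ 𝔮 e N (a * b) (M * M') := by
  intro i
  -- `(ab) e_i = a (b e_i) ≡ a Σ_k M'_{ki} e_k = Σ_k M'_{ki} (a e_k) ≡ Σ_k M'_{ki} Σ_j M_{jk} e_j`
  have h1 : a * (b * e i - ∑ k, M' k i • e k) ∈ lev ϖ 𝔮 N := Ideal.mul_mem_left _ _ (h' i)
  have h2 : ∑ k, M' k i • (a * e k - ∑ j, M j k • e j) ∈ lev ϖ 𝔮 N :=
    Ideal.sum_mem _ fun k _ => Submodule.smul_of_tower_mem _ _ (h k)
  have h3 : (a * b) * e i - ∑ j, (M * M') j i • e j =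
      a * (b * e i - ∑ k, M' k i • e k) + ∑ k, M' k i • (a * e k - ∑ j, M j k • e j) := by
    have e1 : ∑ j, (M * M') j i • e j = ∑ k, M' k i • ∑ j, M j k • e j := by
      simp only [Matrix.mul_apply, Finset.sum_smul, Finset.smul_sum]
      rw [Finset.sum_comm]
      refine Finset.sum_congr rfl fun k _ => Finset.sum_congr rfl fun j _ => ?_
      rw [smul_smul, mul_comm]
    have e2 : ∑ k, M' k i • (a * e k - ∑ j, M j k • e j) =
        a * ∑ k, M' k i • e k - ∑ k, M' k i • ∑ j, M j k • e j := by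
      simp only [smul_sub, Finset.sum_sub_distrib, Finset.mul_sum]
      congr 1
      refine Finset.sum_congr rfl fun k _ => ?_
      rw [mul_smul_comm]
    rw [e1, e2]
    ring
  rw [h3]
  exact (lev ϖ 𝔮 N).add_mem h1 h2

theorem pow [DecidableEq ι] (h : IsMat ϖ 𝔮 e N a M) (m : ℕ) : IsMat ϖ 𝔮 e N (a ^ m) (M ^ m) := by
  induction m with
  | zero => simpa using IsMat.one
  | succ m ih => rw [pow_succ, pow_succ]; exact ih.mul h

theorem smul (h : IsMat ϖ 𝔮 e N a M) (r : R) :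
    IsMat ϖ 𝔮 e N (r • a) (r • M) := by
  intro i
  have : r • a * e i - ∑ j, (r • M) j i • e j = r • (a * e i - ∑ j, M j i • e j) := by
    simp only [Matrix.smul_apply, smul_eq_mul, mul_smul, smul_sub, Finset.smul_sum, smul_mul_assoc]
  rw [this]
  exact Submodule.smul_of_tower_mem _ _ (h i)

theorem aeval [DecidableEq ι] (h : IsMat ϖ 𝔮 e N a M) (P : R[X]) :
    IsMat ϖ 𝔮 e N (Polynomial.aeval a P) (Polynomial.aeval M P) := by
  induction P using Polynomial.induction_on' with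
  | add p q hp hq => rw [map_add, map_add]; exact hp.add hq
  | monomial n r =>
    rw [Polynomial.aeval_monomial, Polynomial.aeval_monomial, ← Algebra.smul_def,
      ← Algebra.smul_def]
    exact (h.pow n).smul r

/-- an element whose matrix is zero lies in `𝔮 + π^N O`. -/
theorem mem_of_zero (hB : IsBasisMod ϖ 𝔮 e) (h : IsMat ϖ 𝔮 e N a (0 : Matrix ι ι R)) :
    a ∈ lev ϖ 𝔮 N := by
  obtain ⟨r, hr⟩ := hB.span_pow N (1 : O)
  have h1 : ∀ i, a * e i ∈ lev ϖ 𝔮 N := by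
    intro i
    have := h i
    simpa using this
  have h2 : a = a * (1 - ∑ i, r i • e i) + ∑ i, r i • (a * e i) := by
    have : ∑ i, r i • (a * e i) = a * ∑ i, r i • e i := by
      rw [Finset.mul_sum]
      refine Finset.sum_congr rfl fun i _ => ?_
      rw [mul_smul_comm]
    rw [this]; ring
  rw [h2]
  exact (lev ϖ 𝔮 N).add_mem (Ideal.mul_mem_left _ _ hr)
    (Ideal.sum_mem _ fun i _ => Submodule.smul_of_tower_mem _ _ (h1 i))

/-- **Cayley--Hamilton modulo `𝔮 + π^N O`**. -/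
theorem aeval_charpoly_mem [DecidableEq ι] (hB : IsBasisMod ϖ 𝔮 e) (h : IsMat ϖ 𝔮 e N a M) :
    Polynomial.aeval a M.charpoly ∈ lev ϖ 𝔮 N := by
  have h1 := h.aeval M.charpoly
  rw [Matrix.aeval_self_charpoly] at h1
  exact h1.mem_of_zero hB

/-- entries of the matrix of an element of `𝔮 + πO` are divisible by `ϖ`. -/
theorem dvd_of_mem (hB : IsBasisMod ϖ 𝔮 e) (hN : 1 ≤ N) (h : IsMat ϖ 𝔮 e N a M)
    (ha : a ∈ lev ϖ 𝔮 1) (i j : ι) : ϖ ∣ M i j := by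
  have h1 := (h.mono hN).unique hB (IsMat.of_mem ha) i j
  simpa using h1

/-- the matrices of `a`, `b` with `a b = π^t` multiply to `ϖ^t` modulo `ϖ^N`. -/
theorem mul_eq_pow [DecidableEq ι] (hB : IsBasisMod ϖ 𝔮 e) (h : IsMat ϖ 𝔮 e N a M)
    (h' : IsMat ϖ 𝔮 e N b M') (t : ℕ) (hab : a * b = algebraMap R O ϖ ^ t) (i j : ι) :
    ϖ ^ N ∣ (M * M' - (ϖ ^ t) • (1 : Matrix ι ι R)) i j := by
  have h1 := h.mul h'
  rw [hab, ← map_pow] at h1
  exact h1.unique hB (IsMat.ofAlgebraMap (ϖ ^ t)) i j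

end IsMat

end Fermat.Agent.M1.Node.NCGCoord58
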