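/-
M1 / chapter NODE: the determinant identity behind the coefficient bound of NCG (#523 B, step 2).
Mathlib only.
-/
import Mathlib

set_option autoImplicit false

namespace Fermat.Agent.M1.Node.DetBound58

open Polynomial Matrix

section Identity

variable {A : Type*} [CommRing A] {n : Type*} [Fintype n] [DecidableEq n]

/-- the characteristic matrix after the substitution `Z ↦ q`. -/
theorem charmatrix_map_comp (X : Matrix n n A) (q : A[X]) :
    (charmatrix X).map (Polynomial.compRingHom q) =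
      Matrix.scalar n q - X.map (C : A → A[X]) := by
  ext i j
  by_cases hij : i = j
  · subst hij
    simp [charmatrix_apply_eq, Matrix.scalar_apply]
  · simp [Matrix.scalar_apply, hij]

/-- `χ_X(q) = det(q - X)`. -/
theorem charpoly_comp (X : Matrix n n A) (q : A[X]) :
    X.charpoly.comp q = (Matrix.scalar n q - X.map (C : A → A[X])).det := by
  rw [← charmatrix_map_comp, Matrix.charpoly]
  exact RingHom.map_det (Polynomial.compRingHom q) (charmatrix X)

/-- **Determinant identity**: if `X W = c`, then `det(X) det(1 - Z W) = det(X - cZ)`. -/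
theorem det_mul_charpolyRev (X W : Matrix n n A) (c : A)
    (h : X * W = c • (1 : Matrix n n A)) :
    C (det X) * W.charpolyRev =
      (-1) ^ Fintype.card n * X.charpoly.comp (C c * Polynomial.X) := by
  rw [charpoly_comp, Matrix.charpolyRev]
  have h1 : C (det X) = (X.map (C : A → A[X])).det := by
    have := RingHom.map_det (C : A →+* A[X]) X
    simpa [RingHom.mapMatrix_apply] using this
  rw [h1, ← Matrix.det_mul]
  have h2 : X.map (C : A → A[X]) * (1 - (Polynomial.X : A[X]) • W.map (C : A → A[X])) =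
      -(Matrix.scalar n (C c * Polynomial.X) - X.map (C : A → A[X])) := by
    have h3 : X.map (C : A → A[X]) * W.map (C : A → A[X]) =
        (c • (1 : Matrix n n A)).map (C : A → A[X]) := by
      rw [← h, Matrix.map_mul]
    rw [mul_sub, mul_one, Matrix.mul_smul, h3]
    refine Matrix.ext fun i j => ?_
    by_cases hij : i = j
    · subst hij
      simp only [Matrix.sub_apply, Matrix.smul_apply, Matrix.map_apply, Matrix.neg_apply,
        Matrix.scalar_apply, Matrix.diagonal_apply_eq, Matrix.one_apply_eq, smul_eq_mul,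
        mul_one]
      ring
    · simp only [Matrix.sub_apply, Matrix.smul_apply, Matrix.map_apply, Matrix.neg_apply,
        Matrix.scalar_apply, Matrix.diagonal_apply_ne _ hij, Matrix.one_apply_ne hij,
        smul_eq_mul, mul_zero, map_zero]
      ring
  rw [h2, Matrix.det_neg]

/-- coefficientwise: `det(X) e_j(W) = ± c^j [Z^j] χ_X`. -/
theorem det_mul_coeff (X W : Matrix n n A) (c : A)
    (h : X * W = c • (1 : Matrix n n A)) (j : ℕ) :
    det X * W.charpolyRev.coeff j = (-1) ^ Fintype.card n * (c ^ j * X.charpoly.coeff j) := by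
  have h1 := congrArg (fun p : A[X] => p.coeff j) (det_mul_charpolyRev X W c h)
  simp only [coeff_C_mul] at h1
  rw [h1]
  have h2 : ((-1 : A[X]) ^ Fintype.card n * X.charpoly.comp (C c * Polynomial.X)).coeff j =
      (-1) ^ Fintype.card n * (X.charpoly.comp (C c * Polynomial.X)).coeff j := by
    have : ((-1 : A[X]) ^ Fintype.card n) = C ((-1 : A) ^ Fintype.card n) := by
      simp
    rw [this, coeff_C_mul]
  rw [h2]
  congr 1
  rw [Polynomial.comp_C_mul_X_coeff]
  ring

/-- `charpolyRev` commutes with ring homomorphisms. -/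
theorem charpolyRev_map {B : Type*} [CommRing B] (M : Matrix n n A) (f : A →+* B) :
    (M.map f).charpolyRev = M.charpolyRev.map f := by
  rw [Matrix.charpolyRev, Matrix.charpolyRev, ← Polynomial.coe_mapRingHom, RingHom.map_det]
  congr 1
  refine Matrix.ext fun i j => ?_
  by_cases hij : i = j
  · subst hij
    simp
  · simp [hij]

/-- the higher coefficients of `det(1 - Z W)` are nilpotent for nilpotent `W`. -/
theorem isNilpotent_coeff_charpolyRev {W : Matrix n n A} (hW : IsNilpotent W) {j : ℕ}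
    (hj : j ≠ 0) : IsNilpotent (W.charpolyRev.coeff j) :=
  (Polynomial.isUnit_iff_coeff_isUnit_isNilpotent.mp
    (Matrix.isUnit_charpolyRev_of_isNilpotent hW)).2 j hj

end Identity

section Bound

variable {R : Type*} [CommRing R] {n : Type*} [Fintype n] [DecidableEq n]

/-- reduction of a matrix modulo `ϖ`. -/
theorem dvd_coeff_charpolyRev_of_nilpotent (ϖ : R) (hϖ : Prime ϖ) (W : Matrix n n R)
    (hW : ∃ k : ℕ, ∀ i j, ϖ ∣ (W ^ k) i j) {j : ℕ} (hj : j ≠ 0) :
    ϖ ∣ W.charpolyRev.coeff j := by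
  set φ : R →+* R ⧸ Ideal.span {ϖ} := Ideal.Quotient.mk _ with hφ
  have hdom : IsDomain (R ⧸ Ideal.span {ϖ}) := by
    rw [Ideal.Quotient.isDomain_iff_prime]
    exact (Ideal.span_singleton_prime hϖ.ne_zero).mpr hϖ
  have hnil : IsNilpotent (W.map φ) := by
    obtain ⟨k, hk⟩ := hW
    refine ⟨k, ?_⟩
    rw [← Matrix.map_pow]
    refine Matrix.ext fun i j => ?_
    rw [Matrix.map_apply, Matrix.zero_apply, hφ, Ideal.Quotient.eq_zero_iff_mem,
      Ideal.mem_span_singleton]
    exact hk i j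
  have h1 := isNilpotent_coeff_charpolyRev hnil hj
  rw [charpolyRev_map, Polynomial.coeff_map] at h1
  have h2 : φ (W.charpolyRev.coeff j) = 0 := h1.eq_zero
  rwa [hφ, Ideal.Quotient.eq_zero_iff_mem, Ideal.mem_span_singleton] at h2

/-- **Coefficient bound** (NCG, step 2), lifted form: `X W ≡ ϖ^t` modulo `ϖ^N`, the higher
coefficients of `det(1 - Z W)` divisible by `ϖ`, `det X = u ϖ^ρ`; then
`ϖ^(ρ + 1 - t j) ∣ [Z^j] χ_X` for `1 ≤ j`. -/
theorem pow_dvd_coeff_charpoly [IsDomain R] (ϖ : R) (hϖ : ϖ ≠ 0) (X W : Matrix n n R) (t N ρ : ℕ)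
    (hXW : ∀ i j, ϖ ^ N ∣ (X * W - (ϖ ^ t) • (1 : Matrix n n R)) i j)
    (u : R) (hdet : det X = u * ϖ ^ ρ) (hρ : ρ + 1 ≤ N) {j : ℕ}
    (hWj : ϖ ∣ W.charpolyRev.coeff j) (m : ℕ) (hm : m + t * j = ρ + 1) :
    ϖ ^ m ∣ X.charpoly.coeff j := by
  set φ : R →+* R ⧸ Ideal.span {ϖ ^ N} := Ideal.Quotient.mk _ with hφ
  have hmul : X.map φ * W.map φ = (φ ϖ ^ t) • (1 : Matrix n n (R ⧸ Ideal.span {ϖ ^ N})) := by
    rw [← Matrix.map_mul]
    refine Matrix.ext fun i j => ?_
    have h1 := hXW i j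
    rw [← Ideal.mem_span_singleton, ← Ideal.Quotient.eq_zero_iff_mem, ← hφ] at h1
    rw [Matrix.sub_apply, map_sub, sub_eq_zero] at h1
    rw [Matrix.map_apply, h1, Matrix.smul_apply, Matrix.smul_apply, smul_eq_mul, smul_eq_mul,
      map_mul, map_pow]
    congr 1
    by_cases hij : i = j
    · subst hij; simp
    · simp [hij]
  have key := det_mul_coeff (X.map φ) (W.map φ) (φ ϖ ^ t) hmul j
  rw [charpolyRev_map, Matrix.charpoly_map, Polynomial.coeff_map, Polynomial.coeff_map,
    ← RingHom.mapMatrix_apply, ← RingHom.map_det, ← map_pow, ← map_pow, ← map_mul, ← map_mul] at key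
  have key2 : φ (det X * W.charpolyRev.coeff j -
      (-1) ^ Fintype.card n * ((ϖ ^ t) ^ j * X.charpoly.coeff j)) = 0 := by
    rw [map_sub, key]
    simp only [map_mul, map_pow, map_neg, map_one, sub_self]
  rw [hφ, Ideal.Quotient.eq_zero_iff_mem, Ideal.mem_span_singleton] at key2
  obtain ⟨d, hd⟩ := key2
  obtain ⟨w', hw'⟩ := hWj
  -- `ϖ^(t j) c = ± (u ϖ^ρ ϖ w' - ϖ^N d)`
  set c := X.charpoly.coeff j with hc
  have hN : N = (m + t * j) + (N - (ρ + 1)) := by omega
  have e1 : ϖ ^ (t * j) * ((-1) ^ Fintype.card n * c) =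
      ϖ ^ (t * j) * (ϖ ^ m * (u * w' - ϖ ^ (N - (ρ + 1)) * d)) := by
    have e2 : ϖ ^ (t * j) * ((-1) ^ Fintype.card n * c) =
        det X * W.charpolyRev.coeff j - ϖ ^ N * d := by
      rw [← hd, pow_mul]; ring
    rw [e2, hdet, hw']
    have e3 : ϖ ^ ρ * ϖ = ϖ ^ (m + t * j) := by rw [hm, pow_succ]
    have e4 : ϖ ^ N = ϖ ^ (m + t * j) * ϖ ^ (N - (ρ + 1)) := by rw [← pow_add, ← hN]
    calc u * ϖ ^ ρ * (ϖ * w') - ϖ ^ N * d
        = (ϖ ^ ρ * ϖ) * (u * w') - ϖ ^ N * d := by ring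
      _ = ϖ ^ (m + t * j) * (u * w') - ϖ ^ (m + t * j) * ϖ ^ (N - (ρ + 1)) * d := by
          rw [e3, e4]
      _ = ϖ ^ (t * j) * (ϖ ^ m * (u * w' - ϖ ^ (N - (ρ + 1)) * d)) := by
          rw [pow_add]; ring
  have e5 := mul_left_cancel₀ (pow_ne_zero (t * j) hϖ) e1
  have hsign : ((-1 : R) ^ Fintype.card n) * ((-1) ^ Fintype.card n) = 1 := by
    rw [← mul_pow]; simp
  refine ⟨(-1) ^ Fintype.card n * (u * w' - ϖ ^ (N - (ρ + 1)) * d), ?_⟩
  calc c = ((-1 : R) ^ Fintype.card n * (-1) ^ Fintype.card n) * c := by rw [hsign, one_mul]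
    _ = (-1) ^ Fintype.card n * ((-1) ^ Fintype.card n * c) := by ring
    _ = (-1) ^ Fintype.card n * (ϖ ^ m * (u * w' - ϖ ^ (N - (ρ + 1)) * d)) := by rw [e5]
    _ = ϖ ^ m * ((-1) ^ Fintype.card n * (u * w' - ϖ ^ (N - (ρ + 1)) * d)) := by ring

end Bound

end Fermat.Agent.M1.Node.DetBound58
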