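/-
M1 / chapter NODE, NCG (#523 B), part 2 (helper58): the element `h` and its relations.

Setting of `NCGCoord58` with `x y : O`, `x y = π^t`, `x`, `y` nilpotent modulo `𝔮 + πO`, `R` a
discrete valuation ring with uniformiser `ϖ` (elementwise form).  `X`, `W` matrices of `x`, `y`
modulo `ϖ^N` (`N = t l + 2`), `χ = χ_X`, `det X = u₀ ϖ^ρ`, `h = χ(x) - π^N b₀ ∈ 𝔮`.  Main result:
the uniform relation
`y^i h = π^(min (t i) ρ) ([t i ≤ ρ] x^(l-i) + [ρ ≤ t i, 0 < i] v₀ y^i + π γ)` for `i ≤ l`.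
Mathlib + `DetBound58` + `NCGCoord58`.
-/
import Mathlib
import Fermat.Agent.M1.Node.DetBound58
import Fermat.Agent.M1.Node.NCGCoord58

set_option autoImplicit false

namespace Fermat.Agent.M1.Node.NCGRel58

open Polynomial Matrix
open Fermat.Agent.M1.Node.DetBound58 Fermat.Agent.M1.Node.NCGCoord58

/-! ### Discrete valuation rings in elementwise form -/

section DVR

variable {R : Type*} [CommRing R] [IsDomain R] {ϖ : R}

/-- the uniformiser of a discrete valuation ring (elementwise form) is prime. -/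
theorem prime_of_dvr (hdvr : ∀ r : R, r ≠ 0 → ∃ n : ℕ, ∃ u : Rˣ, r = ϖ ^ n * u)
    (hϖ : ¬ IsUnit ϖ) (hϖ0 : ϖ ≠ 0) : Prime ϖ := by
  refine ⟨hϖ0, hϖ, fun a b hab => ?_⟩
  by_cases ha : a = 0
  · exact Or.inl (ha ▸ dvd_zero _)
  by_cases hb : b = 0
  · exact Or.inr (hb ▸ dvd_zero _)
  obtain ⟨n, u, rfl⟩ := hdvr a ha
  obtain ⟨m, v, rfl⟩ := hdvr b hb
  rcases Nat.eq_zero_or_pos n with hn | hn
  · rcases Nat.eq_zero_or_pos m with hm | hm
    · exfalso
      subst hn hm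
      rw [pow_zero, one_mul, one_mul] at hab
      exact hϖ (isUnit_of_dvd_unit hab (u * v).isUnit)
    · exact Or.inr (Dvd.dvd.mul_right (dvd_pow_self ϖ hm.ne') _)
  · exact Or.inl (Dvd.dvd.mul_right (dvd_pow_self ϖ hn.ne') _)

/-- comparison of `ϖ`-adic valuations. -/
theorem pow_eq_of_eq {n m : ℕ} {u v : R} (hu : ¬ ϖ ∣ u) (hv : ¬ ϖ ∣ v) (hϖ0 : ϖ ≠ 0)
    (h : ϖ ^ n * u = ϖ ^ m * v) : n = m := by
  rcases lt_trichotomy n m with hlt | heq | hgt
  · exfalso
    obtain ⟨k, rfl⟩ := Nat.exists_eq_add_of_lt hlt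
    apply hu
    have : ϖ ^ n * u = ϖ ^ n * (ϖ ^ (k + 1) * v) := by rw [h]; ring
    have h2 := mul_left_cancel₀ (pow_ne_zero n hϖ0) this
    rw [h2]
    exact Dvd.dvd.mul_right (dvd_pow_self ϖ (Nat.succ_ne_zero k)) _
  · exact heq
  · exfalso
    obtain ⟨k, rfl⟩ := Nat.exists_eq_add_of_lt hgt
    apply hv
    have : ϖ ^ m * v = ϖ ^ m * (ϖ ^ (k + 1) * u) := by rw [← h]; ring
    have h2 := mul_left_cancel₀ (pow_ne_zero m hϖ0) this
    rw [h2]
    exact Dvd.dvd.mul_right (dvd_pow_self ϖ (Nat.succ_ne_zero k)) _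

end DVR

/-! ### Matrices nilpotent modulo `ϖ` -/

section Nilp

variable {R : Type*} [CommRing R] {n : Type*} [Fintype n] [DecidableEq n]

/-- the lower coefficients of the characteristic polynomial of a matrix which is nilpotent
modulo a prime `ϖ` are divisible by `ϖ`. -/
theorem dvd_coeff_charpoly_of_nilpotent (ϖ : R) (hϖ : Prime ϖ) (X : Matrix n n R)
    (hX : ∃ k : ℕ, ∀ i j, ϖ ∣ (X ^ k) i j) {j : ℕ} (hj : j < Fintype.card n) :
    ϖ ∣ X.charpoly.coeff j := by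
  set φ : R →+* R ⧸ Ideal.span {ϖ} := Ideal.Quotient.mk _ with hφ
  have hdom : IsDomain (R ⧸ Ideal.span {ϖ}) := by
    rw [Ideal.Quotient.isDomain_iff_prime]
    exact (Ideal.span_singleton_prime hϖ.ne_zero).mpr hϖ
  have hnil : IsNilpotent (X.map φ) := by
    obtain ⟨k, hk⟩ := hX
    refine ⟨k, ?_⟩
    rw [← Matrix.map_pow]
    refine Matrix.ext fun i j => ?_
    rw [Matrix.map_apply, Matrix.zero_apply, hφ, Ideal.Quotient.eq_zero_iff_mem,
      Ideal.mem_span_singleton]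
    exact hk i j
  have h1 := Matrix.isNilpotent_charpoly_sub_pow_of_isNilpotent hnil
  have h2 : (X.map φ).charpoly = Polynomial.X ^ Fintype.card n := sub_eq_zero.mp h1.eq_zero
  rw [Matrix.charpoly_map] at h2
  have h3 := congrArg (fun p : (R ⧸ Ideal.span {ϖ})[X] => p.coeff j) h2
  simp only [Polynomial.coeff_map, Polynomial.coeff_X_pow] at h3
  rw [if_neg hj.ne] at h3
  rwa [hφ, Ideal.Quotient.eq_zero_iff_mem, Ideal.mem_span_singleton] at h3

/-- determinants of matrices congruent modulo `ϖ^N`. -/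
theorem det_congr (ϖ : R) (N : ℕ) (M M' : Matrix n n R)
    (h : ∀ i j, ϖ ^ N ∣ (M - M') i j) : ϖ ^ N ∣ M.det - M'.det := by
  set φ : R →+* R ⧸ Ideal.span {ϖ ^ N} := Ideal.Quotient.mk _ with hφ
  have h1 : M.map φ = M'.map φ := by
    refine Matrix.ext fun i j => ?_
    have := h i j
    rw [← Ideal.mem_span_singleton, ← Ideal.Quotient.eq_zero_iff_mem, ← hφ, Matrix.sub_apply,
      map_sub, sub_eq_zero] at this
    exact this
  have h2 : φ M.det = φ M'.det := by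
    rw [RingHom.map_det, RingHom.map_det, RingHom.mapMatrix_apply, RingHom.mapMatrix_apply, h1]
  rw [← Ideal.mem_span_singleton, ← Ideal.Quotient.eq_zero_iff_mem, ← hφ, map_sub, h2, sub_self]

end Nilp

/-! ### The relations `y^i h = π^k (…)` -/

section Rel

variable {R O : Type*} [CommRing R] [CommRing O] [Algebra R O]

/-- `y^i x^j` when `x y = p`. -/
theorem pow_mul_pow_of_le {x y p : O} (hxy : x * y = p) {i j : ℕ} (hij : i ≤ j) :
    y ^ i * x ^ j = p ^ i * x ^ (j - i) := by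
  obtain ⟨k, rfl⟩ := Nat.exists_eq_add_of_le hij
  rw [Nat.add_sub_cancel_left, pow_add, ← hxy, mul_pow]
  ring

theorem pow_mul_pow_of_ge {x y p : O} (hxy : x * y = p) {i j : ℕ} (hij : j ≤ i) :
    y ^ i * x ^ j = p ^ j * y ^ (i - j) := by
  obtain ⟨k, rfl⟩ := Nat.exists_eq_add_of_le hij
  rw [Nat.add_sub_cancel_left, pow_add, ← hxy, mul_pow]
  ring

theorem pow_mul_mem_span (p z : O) {a k : ℕ} (h : k ≤ a) : p ^ a * z ∈ Ideal.span {p ^ k} := by
  obtain ⟨m, rfl⟩ := Nat.exists_eq_add_of_le h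
  rw [pow_add, mul_assoc]
  exact Ideal.mul_mem_right _ _ (Ideal.subset_span rfl)

/-- **The uniform relation.**  `χ` monic of degree `l` with lower coefficients divisible by `ϖ`,
constant coefficient `ϖ^ρ w₀`, and `ϖ^(ρ+1-tj) ∣ [Z^j]χ` for `1 ≤ j < l`; `x y = π^t`;
`χ(x) = h + π^N b₀`.  Then for `i ≤ l`:
`y^i h = π^(min (t i) ρ) ([t i ≤ ρ] x^(l-i) + [ρ ≤ t i ∧ 0 < i] w₀ y^i + π γ)`. -/
theorem relation (ϖ : R) (x y : O) (t : ℕ) (hxy : x * y = algebraMap R O ϖ ^ t)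
    (χ : R[X]) (l : ℕ) (hl : 0 < l) (hdeg : χ.natDegree = l) (hmonic : χ.coeff l = 1)
    (hlow : ∀ j, j < l → ϖ ∣ χ.coeff j) (ρ : ℕ) (hρ : 1 ≤ ρ) (w₀ : R)
    (hc0 : χ.coeff 0 = ϖ ^ ρ * w₀)
    (hbound : ∀ j m, 1 ≤ j → j < l → m + t * j = ρ + 1 → ϖ ^ m ∣ χ.coeff j)
    (N : ℕ) (hN : ρ + 1 ≤ N) (h b₀ : O)
    (hh : Polynomial.aeval x χ = h + algebraMap R O ϖ ^ N * b₀) (i : ℕ) (hi : i ≤ l) :
    ∃ γ : O, y ^ i * h = algebraMap R O ϖ ^ (min (t * i) ρ) *
      ((if t * i ≤ ρ then x ^ (l - i) else 0) +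
        (if ρ ≤ t * i ∧ 0 < i then algebraMap R O w₀ * y ^ i else 0) +
          algebraMap R O ϖ * γ) := by
  set π : O := algebraMap R O ϖ with hπ
  set k : ℕ := min (t * i) ρ with hk
  set A : O := if t * i ≤ ρ then x ^ (l - i) else 0 with hA
  set B : O := if ρ ≤ t * i ∧ 0 < i then algebraMap R O w₀ * y ^ i else 0 with hB
  have hkρ : k ≤ ρ := min_le_right _ _
  have hkt : k ≤ t * i := min_le_left _ _
  -- it suffices to prove a congruence modulo `π^(k+1)`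
  suffices hmem : y ^ i * h - π ^ k * (A + B) ∈ Ideal.span {π ^ (k + 1)} by
    obtain ⟨γ, hγ⟩ := Ideal.mem_span_singleton'.mp hmem
    refine ⟨γ, ?_⟩
    have : y ^ i * h = π ^ k * (A + B) + γ * π ^ (k + 1) := by rw [hγ]; ring
    rw [this, pow_succ]; ring
  -- expand `h`
  have hsum : Polynomial.aeval x χ = ∑ j ∈ Finset.range (l + 1), χ.coeff j • x ^ j := by
    rw [Polynomial.aeval_eq_sum_range, hdeg]
  have hexp : y ^ i * h = ∑ j ∈ Finset.range (l + 1), χ.coeff j • (y ^ i * x ^ j) -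
      π ^ N * (b₀ * y ^ i) := by
    have : h = Polynomial.aeval x χ - π ^ N * b₀ := by rw [hh]; ring
    rw [this, hsum, mul_sub, Finset.mul_sum]
    congr 1
    · refine Finset.sum_congr rfl fun j _ => ?_
      rw [mul_smul_comm]
    · ring
  -- the main terms
  set main : ℕ → O := fun j => (if j = l then π ^ k * A else 0) + (if j = 0 then π ^ k * B else 0)
    with hmain
  have hmainsum : ∑ j ∈ Finset.range (l + 1), main j = π ^ k * (A + B) := by
    rw [hmain, Finset.sum_add_distrib, Finset.sum_ite_eq', Finset.sum_ite_eq']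
    rw [if_pos (Finset.mem_range.mpr (Nat.lt_succ_self l)),
      if_pos (Finset.mem_range.mpr (Nat.succ_pos l))]
    ring
  have hdiff : y ^ i * h - π ^ k * (A + B) =
      ∑ j ∈ Finset.range (l + 1), (χ.coeff j • (y ^ i * x ^ j) - main j) -
        π ^ N * (b₀ * y ^ i) := by
    rw [Finset.sum_sub_distrib, hmainsum, hexp]; ring
  rw [hdiff]
  refine Ideal.sub_mem _ (Ideal.sum_mem _ fun j hj => ?_)
    (pow_mul_mem_span π _ (by omega))
  have hjl : j ≤ l := Nat.lt_succ_iff.mp (Finset.mem_range.mp hj)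
  -- case distinction on `j`
  rcases Nat.eq_zero_or_pos j with hj0 | hj0
  · -- `j = 0`
    subst hj0
    have hl0 : (0 : ℕ) ≠ l := hl.ne
    simp only [hmain, if_neg hl0, if_true, zero_add, pow_zero, mul_one]
    rw [hc0, Algebra.smul_def, map_mul, map_pow, ← hπ]
    by_cases hcase : ρ ≤ t * i ∧ 0 < i
    · have hkeq : k = ρ := min_eq_right hcase.1
      rw [hB, if_pos hcase, hkeq]
      have : π ^ ρ * algebraMap R O w₀ * y ^ i - π ^ ρ * (algebraMap R O w₀ * y ^ i) = 0 := by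
        ring
      rw [this]
      exact Ideal.zero_mem _
    · rw [hB, if_neg hcase, mul_zero, sub_zero, mul_assoc]
      refine pow_mul_mem_span π _ ?_
      rw [not_and_or, not_le, not_lt, Nat.le_zero] at hcase
      rcases hcase with hc | hc
      · have : k = t * i := min_eq_left hc.le
        omega
      · subst hc
        have : k = 0 := by rw [hk]; simp
        omega
  · rcases Nat.lt_or_ge j l with hjl' | hjl'
    · -- `0 < j < l`
      have hjl0 : j ≠ l := hjl'.ne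
      have hj00 : j ≠ 0 := hj0.ne'
      simp only [hmain, if_neg hjl0, if_neg hj00, add_zero, sub_zero]
      rcases Nat.lt_or_ge j i with hji | hji
      · -- `j < i`
        rw [pow_mul_pow_of_ge hxy hji.le, ← pow_mul, Algebra.smul_def]
        rcases Nat.lt_or_ge (ρ + 1) (t * j) with htj | htj
        · have : algebraMap R O (χ.coeff j) * (π ^ (t * j) * y ^ (i - j)) =
              π ^ (t * j) * (algebraMap R O (χ.coeff j) * y ^ (i - j)) := by ring
          rw [this]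
          exact pow_mul_mem_span π _ (by omega)
        · obtain ⟨m, hm⟩ : ∃ m, m + t * j = ρ + 1 := ⟨ρ + 1 - t * j, by omega⟩
          obtain ⟨d, hd⟩ := hbound j m hj0 hjl' hm
          have : algebraMap R O (χ.coeff j) * (π ^ (t * j) * y ^ (i - j)) =
              π ^ (ρ + 1) * (algebraMap R O d * y ^ (i - j)) := by
            rw [hd, map_mul, map_pow, ← hπ, ← hm, pow_add]; ring
          rw [this]
          exact pow_mul_mem_span π _ (by omega)
      · -- `i ≤ j`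
        rw [pow_mul_pow_of_le hxy hji, ← pow_mul, Algebra.smul_def]
        obtain ⟨d, hd⟩ := hlow j hjl'
        have : algebraMap R O (χ.coeff j) * (π ^ (t * i) * x ^ (j - i)) =
            π ^ (t * i + 1) * (algebraMap R O d * x ^ (j - i)) := by
          rw [hd, map_mul, ← hπ, pow_succ]; ring
        rw [this]
        exact pow_mul_mem_span π _ (by omega)
    · -- `j = l`
      have hjl0 : j = l := le_antisymm hjl hjl'
      subst hjl0
      have hj00 : j ≠ 0 := hj0.ne'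
      simp only [hmain, if_true, if_neg hj00, add_zero]
      rw [hmonic, one_smul, pow_mul_pow_of_le hxy hi, ← pow_mul]
      by_cases hcase : t * i ≤ ρ
      · have hkeq : k = t * i := min_eq_left hcase
        rw [hA, if_pos hcase, hkeq, sub_self]
        exact Ideal.zero_mem _
      · rw [hA, if_neg hcase, mul_zero, sub_zero]
        refine pow_mul_mem_span π _ ?_
        have : k = ρ := min_eq_right (not_le.mp hcase).le
        omega

end Rel

/-! ### The characteristic polynomial of `x` on `O/𝔮` modulo `ϖ^N` -/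

section Data

variable {R O : Type*} [CommRing R] [IsDomain R] [CommRing O] [Algebra R O]
variable {ι : Type*} [Fintype ι] [DecidableEq ι] [Nonempty ι]
variable {ϖ : R} {𝔮 : Ideal O} {e : ι → O}

/-- **The polynomial `χ`**: monic of degree `l = #ι`, `≡ Z^l` modulo `ϖ`, constant coefficient
`ϖ^ρ · unit` with `0 < ρ < t l`, coefficient bound `ϖ^(ρ+1-tj) ∣ [Z^j]χ`, and
`χ(x) ∈ 𝔮 + π^N O` for `N = t l + 2`. -/
theorem exists_charpoly_data (hdvr : ∀ r : R, r ≠ 0 → ∃ n : ℕ, ∃ u : Rˣ, r = ϖ ^ n * u)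
    (hϖ : ¬ IsUnit ϖ) (hϖ0 : ϖ ≠ 0) (hB : IsBasisMod ϖ 𝔮 e) (x y : O) (t : ℕ)
    (hxy : x * y = algebraMap R O ϖ ^ t)
    (hnil : ∃ m, x ^ m ∈ lev ϖ 𝔮 1 ∧ y ^ m ∈ lev ϖ 𝔮 1) :
    ∃ (χ : R[X]) (ρ : ℕ) (w₀ : R), χ.natDegree = Fintype.card ι ∧
      χ.coeff (Fintype.card ι) = 1 ∧ (∀ j, j < Fintype.card ι → ϖ ∣ χ.coeff j) ∧
      1 ≤ ρ ∧ ρ + 1 ≤ t * Fintype.card ι ∧ IsUnit w₀ ∧ χ.coeff 0 = ϖ ^ ρ * w₀ ∧
      (∀ j m, 1 ≤ j → j < Fintype.card ι → m + t * j = ρ + 1 → ϖ ^ m ∣ χ.coeff j) ∧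
      Polynomial.aeval x χ ∈ lev ϖ 𝔮 (t * Fintype.card ι + 2) := by
  classical
  set l := Fintype.card ι with hl
  have hl0 : 0 < l := Fintype.card_pos
  set N := t * l + 2 with hN
  have hP : Prime ϖ := prime_of_dvr hdvr hϖ hϖ0
  obtain ⟨X, hX⟩ := hB.exists_isMat N x
  obtain ⟨W, hW⟩ := hB.exists_isMat N y
  obtain ⟨m, hmx, hmy⟩ := hnil
  have hN1 : 1 ≤ N := by omega
  have hXnil : ∃ k : ℕ, ∀ i j, ϖ ∣ (X ^ k) i j :=
    ⟨m, fun i j => (hX.pow m).dvd_of_mem hB hN1 hmx i j⟩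
  have hWnil : ∃ k : ℕ, ∀ i j, ϖ ∣ (W ^ k) i j :=
    ⟨m, fun i j => (hW.pow m).dvd_of_mem hB hN1 hmy i j⟩
  have hXW := fun i j => IsMat.mul_eq_pow hB hX hW t hxy i j
  -- determinants
  have hdetmul : ϖ ^ N ∣ X.det * W.det - ϖ ^ (t * l) := by
    have h1 := det_congr ϖ N (X * W) ((ϖ ^ t) • (1 : Matrix ι ι R)) hXW
    rw [Matrix.det_mul, Matrix.det_smul, Matrix.det_one, mul_one, ← pow_mul, ← hl] at h1
    exact h1
  obtain ⟨d, hd⟩ := hdetmul
  have hunit : ¬ ϖ ∣ 1 + ϖ ^ 2 * d := by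
    intro hdvd
    have h1 : ϖ ∣ ϖ ^ 2 * d := Dvd.dvd.mul_right (dvd_pow_self ϖ two_ne_zero) _
    exact hϖ (isUnit_of_dvd_one ((dvd_add_left h1).mp hdvd))
  have hprod : X.det * W.det = ϖ ^ (t * l) * (1 + ϖ ^ 2 * d) := by
    have : X.det * W.det = ϖ ^ (t * l) + ϖ ^ N * d := by rw [← hd]; ring
    rw [this, hN, pow_add]; ring
  have hprod0 : X.det * W.det ≠ 0 := by
    rw [hprod]
    refine mul_ne_zero (pow_ne_zero _ hϖ0) ?_
    intro h0
    exact hunit (h0 ▸ dvd_zero _)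
  obtain ⟨ρ, u₀, hρ⟩ := hdvr X.det (left_ne_zero_of_mul hprod0)
  obtain ⟨σ, u₁, hσ⟩ := hdvr W.det (right_ne_zero_of_mul hprod0)
  have hnotdvd : ∀ u : Rˣ, ¬ ϖ ∣ (u : R) := fun u hdvd => hϖ (isUnit_of_dvd_unit hdvd u.isUnit)
  have hsum : ρ + σ = t * l := by
    refine pow_eq_of_eq (u := ((u₀ * u₁ : Rˣ) : R)) (v := 1 + ϖ ^ 2 * d) (hnotdvd _) hunit hϖ0 ?_
    rw [← hprod, hρ, hσ, pow_add, Units.val_mul]; ring
  -- the constant coefficients
  have hsign : ((-1 : R) ^ l) * ((-1) ^ l) = 1 := by rw [← mul_pow]; simp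
  have hc0X : X.charpoly.coeff 0 = (-1) ^ l * X.det := by
    rw [Matrix.det_eq_sign_charpoly_coeff, ← hl, ← mul_assoc, hsign, one_mul]
  have hc0W : W.charpoly.coeff 0 = (-1) ^ l * W.det := by
    rw [Matrix.det_eq_sign_charpoly_coeff, ← hl, ← mul_assoc, hsign, one_mul]
  have hlowX : ∀ j, j < l → ϖ ∣ X.charpoly.coeff j := fun j hj =>
    dvd_coeff_charpoly_of_nilpotent ϖ hP X hXnil (hl ▸ hj)
  have hlowW : ∀ j, j < l → ϖ ∣ W.charpoly.coeff j := fun j hj =>
    dvd_coeff_charpoly_of_nilpotent ϖ hP W hWnil (hl ▸ hj)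
  have hdvddet : ∀ (M : Matrix ι ι R), M.charpoly.coeff 0 = (-1) ^ l * M.det →
      ϖ ∣ M.charpoly.coeff 0 → ϖ ∣ M.det := by
    intro M hM hdvd
    have : M.det = (-1) ^ l * M.charpoly.coeff 0 := by
      rw [hM, ← mul_assoc, hsign, one_mul]
    rw [this]
    exact Dvd.dvd.mul_left hdvd _
  have hρ1 : 1 ≤ ρ := by
    by_contra hcon
    have h0 : ρ = 0 := by omega
    have h1 := hdvddet X hc0X (hlowX 0 hl0)
    rw [hρ, h0, pow_zero, one_mul] at h1
    exact hnotdvd u₀ h1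
  have hσ1 : 1 ≤ σ := by
    by_contra hcon
    have h0 : σ = 0 := by omega
    have h1 := hdvddet W hc0W (hlowW 0 hl0)
    rw [hσ, h0, pow_zero, one_mul] at h1
    exact hnotdvd u₁ h1
  refine ⟨X.charpoly, ρ, (-1) ^ l * u₀, Matrix.charpoly_natDegree_eq_dim X, ?_, hlowX, hρ1,
    by omega, ?_, ?_, ?_, hX.aeval_charpoly_mem hB⟩
  · have := (Matrix.charpoly_monic X).coeff_natDegree
    rwa [Matrix.charpoly_natDegree_eq_dim] at this
  · exact IsUnit.mul (IsUnit.pow _ (isUnit_one.neg)) u₀.isUnit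
  · rw [hc0X, hρ]; ring
  · intro j m hj1 _ hm
    refine pow_dvd_coeff_charpoly ϖ hϖ0 X W t N ρ hXW (u₀ : R) (by rw [hρ]; ring) (by omega)
      ?_ m hm
    exact dvd_coeff_charpolyRev_of_nilpotent ϖ hP W hWnil (by omega)

end Data

end Fermat.Agent.M1.Node.NCGRel58
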