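/-
M1 / chapter NODE: **NCG** (#523 B, helper60's theorem), ring form (helper58).

`R` a discrete valuation ring (uniformiser `ϖ`, elementwise form), `O` an `R`-algebra with
`π = algebraMap R O ϖ` in its Jacobson radical, `x y : O` with `x y = π^t` and
`O = R + (π, x, y) O` (a thick node `A_{t-1}`), `𝔮` a finitely generated ideal with `O/𝔮`
`π`-torsion-free and `O/(𝔮 + πO)` of finite dimension `l` over `R/ϖ` with `x, y` nilpotent on it
(a horizontal divisor through the node).  Then there is `h ∈ 𝔮` generating `𝔮` up to `π`-torsion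
(`(h : π^∞) = 𝔮`: a local equation up to vertical components), together with the two relations

  `y^i₀ h = π^(t i₀) (x^(l-i₀) + π γ)`,
  `y^(i₀+1) h = π^ρ ([ρ = t(i₀+1)] x^(l-i₀-1) + w₀ y^(i₀+1) + π γ')`  (`w₀` a unit of `R`)

which give `v₁(h) = 0`, `v₂(h) = ρ` on the two branches (`ρ = length (O/(𝔮 + xO))`, `0 < ρ < t l`).
-/
import Mathlib
import Fermat.Agent.M1.Node.NCGCoord58
import Fermat.Agent.M1.Node.NCGRel58
import Fermat.Agent.M1.Node.NCGMono58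

set_option autoImplicit false

namespace Fermat.Agent.M1.Node.NCG58

open Polynomial Matrix
open Fermat.Agent.M1.Node.NCGCoord58 Fermat.Agent.M1.Node.NCGRel58 Fermat.Agent.M1.Node.NCGMono58

variable {R O : Type*} [CommRing R] [CommRing O] [Algebra R O]

/-! ### A spanning family with as many elements as a basis is independent -/

section Indep

variable {ι : Type*} [Fintype ι] [DecidableEq ι] {ϖ : R} {𝔮 : Ideal O} {e : ι → O}

theorem indep_of_span (hP : Prime ϖ) (hB : IsBasisMod ϖ 𝔮 e) (f : ι → O)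
    (hf : ∀ a : O, ∃ c : ι → R, a - ∑ i, c i • f i ∈ lev ϖ 𝔮 1)
    (c : ι → R) (hc : ∑ i, c i • f i ∈ lev ϖ 𝔮 1) : ∀ i, ϖ ∣ c i := by
  choose P hP' using fun i => hf (e i)
  choose Q hQ using fun j => hB.span (f j)
  set Qm : Matrix ι ι R := Matrix.of fun k j => Q j k with hQm
  set Pm : Matrix ι ι R := Matrix.of fun j i => P i j with hPm
  -- `Qm * Pm ≡ 1`
  have h1 : ∀ k i, ϖ ∣ (Qm * Pm - 1) k i := by
    intro k i
    refine hB.indep (fun k => (Qm * Pm - 1) k i) ?_ k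
    have e1 : ∑ k, (Qm * Pm - 1) k i • e k =
        -((e i - ∑ j, P i j • f j) + ∑ j, P i j • (f j - ∑ k, Q j k • e k)) := by
      have e2 : ∑ k, (Qm * Pm - 1) k i • e k = ∑ k, (Qm * Pm) k i • e k - e i := by
        simp only [Matrix.sub_apply, sub_smul, Finset.sum_sub_distrib]
        congr 1
        rw [Finset.sum_eq_single i]
        · simp
        · intro k _ hki
          simp [Matrix.one_apply_ne hki]
        · intro h; exact absurd (Finset.mem_univ i) h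
      have e3 : ∑ k, (Qm * Pm) k i • e k = ∑ j, P i j • ∑ k, Q j k • e k := by
        simp only [Matrix.mul_apply, Finset.sum_smul, Finset.smul_sum, hQm, hPm, Matrix.of_apply]
        rw [Finset.sum_comm]
        refine Finset.sum_congr rfl fun j _ => Finset.sum_congr rfl fun k _ => ?_
        rw [smul_smul, mul_comm]
      rw [e2, e3]
      simp only [smul_sub, Finset.sum_sub_distrib]
      ring
    rw [e1]
    exact (lev ϖ 𝔮 1).neg_mem ((lev ϖ 𝔮 1).add_mem (hP' i)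
      (Ideal.sum_mem _ fun j _ => Submodule.smul_of_tower_mem _ _ (hQ j)))
  have h2 : ¬ ϖ ∣ Qm.det := by
    intro hdvd
    have h3 := det_congr ϖ 1 (Qm * Pm) 1 (fun k i => by simpa using h1 k i)
    rw [pow_one, Matrix.det_mul, Matrix.det_one] at h3
    have h4 : ϖ ∣ Qm.det * Pm.det := Dvd.dvd.mul_right hdvd _
    have h5 : ϖ ∣ (1 : R) := by
      have := dvd_sub h4 h3
      simpa using this
    exact hP.not_isUnit (isUnit_of_dvd_one h5)
  -- `Qm c ≡ 0`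
  have h6 : ∀ k, ϖ ∣ Qm.mulVec c k := by
    intro k
    refine hB.indep (fun k => Qm.mulVec c k) ?_ k
    have e1 : ∑ k, Qm.mulVec c k • e k =
        ∑ j, c j • f j - ∑ j, c j • (f j - ∑ k, Q j k • e k) := by
      have e2 : ∑ k, Qm.mulVec c k • e k = ∑ j, c j • ∑ k, Q j k • e k := by
        simp only [Matrix.mulVec, dotProduct, Finset.sum_smul, Finset.smul_sum, hQm,
          Matrix.of_apply]
        rw [Finset.sum_comm]
        refine Finset.sum_congr rfl fun j _ => Finset.sum_congr rfl fun k _ => ?_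
        rw [smul_smul, mul_comm]
      rw [e2]
      simp only [smul_sub, Finset.sum_sub_distrib]
      ring
    rw [e1]
    exact (lev ϖ 𝔮 1).sub_mem hc
      (Ideal.sum_mem _ fun j _ => Submodule.smul_of_tower_mem _ _ (hQ j))
  intro i
  have h7 : Qm.det * c i = (Qm.adjugate.mulVec (Qm.mulVec c)) i := by
    rw [Matrix.mulVec_mulVec, Matrix.adjugate_mul, Matrix.smul_mulVec, Matrix.one_mulVec,
      Pi.smul_apply, smul_eq_mul]
  have h8 : ϖ ∣ Qm.det * c i := by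
    rw [h7, Matrix.mulVec, dotProduct]
    exact Finset.dvd_sum fun k _ => Dvd.dvd.mul_left (h6 k) _
  exact (hP.dvd_or_dvd h8).resolve_left h2

end Indep

/-! ### The saturation `(h : p^∞)` -/

/-- the ideal `(h : p^∞) = {z | ∃ n, p^n z ∈ (h)}`. -/
def sat (p h : O) : Ideal O where
  carrier := {z | ∃ n : ℕ, p ^ n * z ∈ Ideal.span {h}}
  zero_mem' := ⟨0, by simp⟩
  add_mem' := by
    rintro a b ⟨n, hn⟩ ⟨m, hm⟩
    refine ⟨n + m, ?_⟩
    have : p ^ (n + m) * (a + b) = p ^ m * (p ^ n * a) + p ^ n * (p ^ m * b) := by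
      rw [pow_add]; ring
    rw [this]
    exact Ideal.add_mem _ (Ideal.mul_mem_left _ _ hn) (Ideal.mul_mem_left _ _ hm)
  smul_mem' := by
    rintro c a ⟨n, hn⟩
    refine ⟨n, ?_⟩
    rw [smul_eq_mul, mul_left_comm]
    exact Ideal.mul_mem_left _ _ hn

theorem mem_sat {p h z : O} : z ∈ sat p h ↔ ∃ n : ℕ, p ^ n * z ∈ Ideal.span {h} := Iff.rfl

theorem mem_sat_of_mul_eq {p h z w : O} (n : ℕ) (hz : w * h = p ^ n * z) : z ∈ sat p h :=
  ⟨n, by rw [← hz]; exact Ideal.mul_mem_left _ _ (Ideal.subset_span rfl)⟩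

theorem sat_le {p h : O} {𝔮 : Ideal O} (hh : h ∈ 𝔮) (htf : ∀ a : O, p * a ∈ 𝔮 → a ∈ 𝔮) :
    sat p h ≤ 𝔮 := by
  rintro z ⟨n, hn⟩
  have h1 : p ^ n * z ∈ 𝔮 := (Ideal.span_le.mpr (Set.singleton_subset_iff.mpr hh)) hn
  clear hn
  induction n with
  | zero => simpa using h1
  | succ n ih =>
    apply ih
    apply htf
    rw [← mul_assoc, ← pow_succ']
    exact h1

/-! ### The main theorem -/

section Main

variable [IsDomain R] {ι : Type*} [Fintype ι] [DecidableEq ι] [Nonempty ι]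
  {ϖ : R} {𝔮 : Ideal O} {e : ι → O}

/-- **NCG**, with a basis of `O/(𝔮 + πO)` given. -/
theorem exists_local_equation_of_basis
    (hdvr : ∀ r : R, r ≠ 0 → ∃ n : ℕ, ∃ u : Rˣ, r = ϖ ^ n * u)
    (hϖ : ¬ IsUnit ϖ) (hϖ0 : ϖ ≠ 0) (hB : IsBasisMod ϖ 𝔮 e) (x y : O) (t : ℕ)
    (hxy : x * y = algebraMap R O ϖ ^ t)
    (hnil : ∃ m, x ^ m ∈ lev ϖ 𝔮 1 ∧ y ^ m ∈ lev ϖ 𝔮 1)
    (hres : ∀ a : O, ∃ r : R, ∃ a₀ a₁ a₂ : O,
      a = algebraMap R O r + a₀ * algebraMap R O ϖ + a₁ * x + a₂ * y)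
    (hjac : algebraMap R O ϖ ∈ Ideal.jacobson (⊥ : Ideal O)) (hfg : 𝔮.FG) :
    ∃ (h : O) (ρ i₀ : ℕ) (w₀ : R) (γ γ' : O), h ∈ 𝔮 ∧
      (∀ z ∈ 𝔮, ∃ n : ℕ, algebraMap R O ϖ ^ n * z ∈ Ideal.span {h}) ∧
      1 ≤ ρ ∧ ρ + 1 ≤ t * Fintype.card ι ∧ IsUnit w₀ ∧
      t * i₀ + 1 ≤ ρ ∧ ρ ≤ t * (i₀ + 1) ∧ i₀ + 1 ≤ Fintype.card ι ∧
      y ^ i₀ * h = algebraMap R O ϖ ^ (t * i₀) *
        (x ^ (Fintype.card ι - i₀) + algebraMap R O ϖ * γ) ∧
      y ^ (i₀ + 1) * h = algebraMap R O ϖ ^ ρ *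
        ((if t * (i₀ + 1) ≤ ρ then x ^ (Fintype.card ι - (i₀ + 1)) else 0) +
          algebraMap R O w₀ * y ^ (i₀ + 1) + algebraMap R O ϖ * γ') := by
  classical
  set π : O := algebraMap R O ϖ with hπ
  have hl0' : 0 < Fintype.card ι := Fintype.card_pos
  have hP : Prime ϖ := prime_of_dvr hdvr hϖ hϖ0
  obtain ⟨χ, ρ, w₀, hdeg, hmonic, hlow, hρ1, hρl, hw₀, hc0, hbound, hCH⟩ :=
    exists_charpoly_data hdvr hϖ hϖ0 hB x y t hxy hnil
  obtain ⟨eq₀⟩ : Nonempty (ι ≃ Fin (Fintype.card ι)) := ⟨Fintype.equivFin ι⟩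
  generalize hl : Fintype.card ι = l at *
  have hl0 : 0 < l := hl0'
  obtain ⟨h, hh𝔮, b₀, hhb⟩ := mem_lev.mp hCH
  have ht : 0 < t := by
    rcases Nat.eq_zero_or_pos t with h0 | h0
    · subst h0; omega
    · exact h0
  -- the index `i₀`
  obtain ⟨i₀, hi₀⟩ : ∃ i₀ : ℕ, i₀ = (ρ - 1) / t := ⟨_, rfl⟩
  have hi1 : t * i₀ + 1 ≤ ρ := by
    have := Nat.mul_div_le (ρ - 1) t
    rw [← hi₀] at this
    omega
  have hi2 : ρ ≤ t * (i₀ + 1) := by
    have := Nat.lt_mul_div_succ (ρ - 1) ht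
    rw [← hi₀] at this
    omega
  have hi3 : i₀ + 1 ≤ l := by
    have h1 : t * i₀ < t * l := by omega
    have := Nat.lt_of_mul_lt_mul_left h1
    omega
  -- the two relations
  obtain ⟨γ, hγ⟩ := relation ϖ x y t hxy χ l hl0 hdeg hmonic hlow ρ hρ1 w₀ hc0 hbound
    (t * l + 2) (by omega) h b₀ hhb i₀ (by omega)
  obtain ⟨γ', hγ'⟩ := relation ϖ x y t hxy χ l hl0 hdeg hmonic hlow ρ hρ1 w₀ hc0 hbound
    (t * l + 2) (by omega) h b₀ hhb (i₀ + 1) hi3
  have hmin1 : min (t * i₀) ρ = t * i₀ := min_eq_left (by omega)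
  have hmin2 : min (t * (i₀ + 1)) ρ = ρ := min_eq_right hi2
  rw [hmin1, if_pos (by omega : t * i₀ ≤ ρ), if_neg (by omega : ¬ (ρ ≤ t * i₀ ∧ 0 < i₀)),
    add_zero] at hγ
  rw [hmin2, if_pos (⟨hi2, Nat.succ_pos _⟩ : ρ ≤ t * (i₀ + 1) ∧ 0 < i₀ + 1)] at hγ'
  refine ⟨h, ρ, i₀, w₀, γ, γ', hh𝔮, ?_, hρ1, hρl, hw₀, hi1, hi2, hi3, hγ, hγ'⟩
  -- saturation
  have hJ𝔮 : sat π h ≤ 𝔮 := sat_le hh𝔮 hB.tf
  suffices hle : 𝔮 ≤ sat π h from fun z hz => hle hz
  set K : Ideal O := sat π h ⊔ Ideal.span {π} with hK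
  have hπK : π ∈ K := Ideal.mem_sup_right (Ideal.subset_span rfl)
  have hKlev : K ≤ lev ϖ 𝔮 1 := by
    refine sup_le (hJ𝔮.trans (le_lev ϖ 𝔮 1)) ?_
    rw [Ideal.span_le, Set.singleton_subset_iff]
    have := pow_mem_lev ϖ 𝔮 1
    rwa [pow_one] at this
  set A := l - i₀ with hA
  have hA1 : 1 ≤ A := by omega
  -- `x^A ∈ K`
  have hxA : x ^ A ∈ K := by
    have h1 : x ^ A + π * γ ∈ sat π h := mem_sat_of_mul_eq (t * i₀) hγ
    have h2 : x ^ A = (x ^ A + π * γ) - γ * π := by ring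
    rw [h2]
    exact K.sub_mem (Ideal.mem_sup_left h1) (K.mul_mem_left _ hπK)
  -- `y^(i₀+1) ≡ σ x^(A-1)`
  obtain ⟨w₁, hw₁⟩ := hw₀.exists_right_inv
  set σ : R := if t * (i₀ + 1) ≤ ρ then -w₁ else 0 with hσ
  have hlA : l - (i₀ + 1) = A - 1 := by omega
  have hyB : y ^ (i₀ + 1) - algebraMap R O σ * x ^ (A - 1) ∈ K := by
    have h1 : (if t * (i₀ + 1) ≤ ρ then x ^ (l - (i₀ + 1)) else 0) +
        algebraMap R O w₀ * y ^ (i₀ + 1) + π * γ' ∈ sat π h := mem_sat_of_mul_eq ρ hγ'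
    have hw : algebraMap R O w₁ * algebraMap R O w₀ = 1 := by
      rw [← map_mul, mul_comm, hw₁, map_one]
    have h2 : y ^ (i₀ + 1) - algebraMap R O σ * x ^ (A - 1) =
        algebraMap R O w₁ * ((if t * (i₀ + 1) ≤ ρ then x ^ (l - (i₀ + 1)) else 0) +
          algebraMap R O w₀ * y ^ (i₀ + 1) + π * γ') - (algebraMap R O w₁ * γ') * π := by
      have h3 : y ^ (i₀ + 1) = (algebraMap R O w₁ * algebraMap R O w₀) * y ^ (i₀ + 1) := by
        rw [hw, one_mul]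
      by_cases hcase : t * (i₀ + 1) ≤ ρ
      · rw [hσ, if_pos hcase, if_pos hcase, hlA, map_neg]
        nth_rewrite 1 [h3]
        ring
      · rw [hσ, if_neg hcase, if_neg hcase, map_zero]
        nth_rewrite 1 [h3]
        ring
    rw [h2]
    exact K.sub_mem (K.mul_mem_left _ (Ideal.mem_sup_left h1)) (K.mul_mem_left _ hπK)
  have hσ2 : σ = 0 ∨ 2 ≤ A := by
    by_cases hcase : t * (i₀ + 1) ≤ ρ
    · right
      have h1 : t * (i₀ + 1) < t * l := by omega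
      have := Nat.lt_of_mul_lt_mul_left h1
      omega
    · left; rw [hσ, if_neg hcase]
  have hxyK : x * y ∈ K := by
    rw [hxy]
    obtain ⟨t', rfl⟩ := Nat.exists_eq_succ_of_ne_zero ht.ne'
    rw [pow_succ]
    exact K.mul_mem_left _ hπK
  -- monomials span modulo `K`
  have hAl : A + i₀ = l := by omega
  have hspanK : ∀ a : O, ∃ c : ℕ → R, a - ∑ j ∈ Finset.range l, c j • mono x y A j ∈ K := by
    intro a
    have := span_mono π x y K hres hπK hxyK A i₀ hA1 hxA σ hyB hσ2 a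
    rwa [hAl] at this
  -- transfer to the index type `ι`
  set eq : ι ≃ Fin l := eq₀ with heq
  set f : ι → O := fun i => mono x y A (eq i) with hf
  have hsum : ∀ c : ℕ → R, ∑ i, c (eq i) • f i = ∑ j ∈ Finset.range l, c j • mono x y A j := by
    intro c
    rw [← Fin.sum_univ_eq_sum_range (fun j => c j • mono x y A j) l]
    exact Equiv.sum_comp eq (fun j : Fin l => c j • mono x y A j)
  have hspanι : ∀ a : O, ∃ c : ι → R, a - ∑ i, c i • f i ∈ K := by
    intro a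
    obtain ⟨c, hc⟩ := hspanK a
    exact ⟨fun i => c (eq i), by rw [hsum c]; exact hc⟩
  have hindep : ∀ c : ι → R, ∑ i, c i • f i ∈ lev ϖ 𝔮 1 → ∀ i, ϖ ∣ c i :=
    indep_of_span hP hB f (fun a => by
      obtain ⟨c, hc⟩ := hspanι a
      exact ⟨c, hKlev hc⟩)
  -- Nakayama
  refine Submodule.le_of_le_smul_of_le_jacobson_bot (I := Ideal.span {π}) hfg ?_ ?_
  · rw [Ideal.span_le, Set.singleton_subset_iff]
    exact hjac
  · intro z hz
    obtain ⟨c, hc⟩ := hspanι z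
    rw [hK, Submodule.mem_sup] at hc
    obtain ⟨w, hw, v, hv, hwv⟩ := hc
    obtain ⟨z', rfl⟩ := Ideal.mem_span_singleton'.mp hv
    have h1 : ∑ i, c i • f i ∈ lev ϖ 𝔮 1 := by
      have : ∑ i, c i • f i = z - w - z' * π := by linear_combination hwv
      rw [this]
      refine (lev ϖ 𝔮 1).sub_mem ((lev ϖ 𝔮 1).sub_mem (le_lev ϖ 𝔮 1 hz)
        (le_lev ϖ 𝔮 1 (hJ𝔮 hw))) ((lev ϖ 𝔮 1).mul_mem_left _ ?_)
      have := pow_mem_lev ϖ 𝔮 1
      rwa [pow_one] at this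
    have h2 := hindep c h1
    choose c' hc' using h2
    set z'' : O := z' + ∑ i, c' i • f i with hz''
    have h3 : z = w + π * z'' := by
      have e1 : ∑ i, c i • f i = π * ∑ i, c' i • f i := by
        rw [Finset.mul_sum]
        refine Finset.sum_congr rfl fun i _ => ?_
        rw [hc' i, mul_smul, Algebra.smul_def ϖ]
      have : z = w + z' * π + ∑ i, c i • f i := by linear_combination -hwv
      rw [this, e1, hz'']; ring
    have h4 : z'' ∈ 𝔮 := by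
      apply hB.tf
      have : π * z'' = z - w := by rw [h3]; ring
      rw [this]
      exact 𝔮.sub_mem hz (hJ𝔮 hw)
    rw [h3]
    refine Submodule.add_mem_sup hw ?_
    exact Submodule.smul_mem_smul (Ideal.subset_span rfl) h4

end Main

end Fermat.Agent.M1.Node.NCG58
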