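/-
M1 / chapter NODE, NCG (#523 B), part 5 (helper58): existence of a basis of `O/(𝔮 + πO)` over the
residue field `R/ϖ`, in the elementwise form `IsBasisMod`, when `O = R + (π, x, y) O`,
`x y ∈ πO` and `x`, `y` are nilpotent modulo `𝔮 + πO`.  Hence **NCG** without a basis hypothesis.
-/
import Mathlib
import Fermat.Agent.M1.Node.NCG58

set_option autoImplicit false

namespace Fermat.Agent.M1.Node.NCGFree58

open Fermat.Agent.M1.Node.NCGCoord58 Fermat.Agent.M1.Node.NCGMono58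

variable {R O : Type*} [CommRing R] [CommRing O] [Algebra R O]

section Basis

variable (ϖ : R) (K : Ideal O)

theorem isTorsionBySet_quotient (hK : algebraMap R O ϖ ∈ K) :
    Module.IsTorsionBySet R (O ⧸ K) (Ideal.span {ϖ} : Ideal R) := by
  intro v a
  obtain ⟨a, ha⟩ := a
  obtain ⟨c, rfl⟩ := Ideal.mem_span_singleton'.mp ha
  obtain ⟨b, rfl⟩ := Ideal.Quotient.mk_surjective v
  change Ideal.Quotient.mk K ((c * ϖ) • b) = 0
  rw [Ideal.Quotient.eq_zero_iff_mem, Algebra.smul_def, map_mul]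
  exact K.mul_mem_right _ (K.mul_mem_left _ hK)

/-- a finite `R`-spanning family of `O/K` gives a basis over the field `R/ϖ`, in elementwise
form. -/
theorem exists_basis_of_span [hmax : (Ideal.span {ϖ} : Ideal R).IsMaximal]
    (hK : algebraMap R O ϖ ∈ K) (n : ℕ) (g : ℕ → O)
    (hspan : ∀ a : O, ∃ c : ℕ → R, a - ∑ j ∈ Finset.range n, c j • g j ∈ K) :
    ∃ (l : ℕ) (e : Fin l → O), (∀ a : O, ∃ r : Fin l → R, a - ∑ i, r i • e i ∈ K) ∧
      ∀ r : Fin l → R, ∑ i, r i • e i ∈ K → ∀ i, ϖ ∣ r i := by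
  classical
  let _ : Field (R ⧸ (Ideal.span {ϖ} : Ideal R)) := Ideal.Quotient.field _
  have hT := isTorsionBySet_quotient ϖ K hK
  let _ : Module (R ⧸ (Ideal.span {ϖ} : Ideal R)) (O ⧸ K) := hT.module
  have hsm : ∀ (c : R) (v : O ⧸ K),
      (Ideal.Quotient.mk (Ideal.span {ϖ} : Ideal R) c) • v = c • v := fun c v => rfl
  -- finite dimensionality
  have hfin : Module.Finite (R ⧸ (Ideal.span {ϖ} : Ideal R)) (O ⧸ K) := by
    rw [Module.finite_def]
    refine ⟨(Finset.range n).image fun j => Ideal.Quotient.mk K (g j), ?_⟩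
    rw [eq_top_iff]
    rintro v -
    obtain ⟨a, rfl⟩ := Ideal.Quotient.mk_surjective v
    obtain ⟨c, hc⟩ := hspan a
    have h1 : Ideal.Quotient.mk K a =
        ∑ j ∈ Finset.range n, (Ideal.Quotient.mk (Ideal.span {ϖ} : Ideal R) (c j)) •
          Ideal.Quotient.mk K (g j) := by
      have h2 := (Ideal.Quotient.eq_zero_iff_mem).mpr hc
      rw [map_sub, sub_eq_zero] at h2
      rw [h2, map_sum]
      refine Finset.sum_congr rfl fun j _ => ?_
      rw [hsm]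
      rfl
    rw [h1]
    refine Submodule.sum_mem _ fun j hj => Submodule.smul_mem _ _ (Submodule.subset_span ?_)
    exact Finset.mem_coe.mpr (Finset.mem_image_of_mem _ hj)
  set b := Module.finBasis (R ⧸ (Ideal.span {ϖ} : Ideal R)) (O ⧸ K) with hb
  choose e he using fun i => Ideal.Quotient.mk_surjective (b i)
  refine ⟨_, e, fun a => ?_, fun r hr i => ?_⟩
  · choose r hr using fun i => Ideal.Quotient.mk_surjective (b.repr (Ideal.Quotient.mk K a) i)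
    refine ⟨r, ?_⟩
    rw [← Ideal.Quotient.eq_zero_iff_mem, map_sub, sub_eq_zero, map_sum]
    conv_lhs => rw [← b.sum_repr (Ideal.Quotient.mk K a)]
    refine Finset.sum_congr rfl fun i _ => ?_
    rw [← hr i, hsm, ← he i]
    rfl
  · have h1 : ∑ i, (Ideal.Quotient.mk (Ideal.span {ϖ} : Ideal R) (r i)) • b i = 0 := by
      have h2 := (Ideal.Quotient.eq_zero_iff_mem).mpr hr
      rw [map_sum] at h2
      rw [← h2]
      refine Finset.sum_congr rfl fun i _ => ?_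
      rw [hsm, ← he i]
      rfl
    have h3 := (Fintype.linearIndependent_iff.mp b.linearIndependent) _ h1 i
    rw [Ideal.Quotient.eq_zero_iff_mem, Ideal.mem_span_singleton] at h3
    exact h3

end Basis

/-! ### NCG without a basis hypothesis -/

section Main

open Fermat.Agent.M1.Node.NCG58

variable [IsDomain R]

/-- the maximal ideal of a discrete valuation ring in elementwise form. -/
theorem isMaximal_span_of_dvr {ϖ : R}
    (hdvr : ∀ r : R, r ≠ 0 → ∃ n : ℕ, ∃ u : Rˣ, r = ϖ ^ n * u) (hϖ : ¬ IsUnit ϖ) :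
    (Ideal.span {ϖ} : Ideal R).IsMaximal := by
  rw [Ideal.isMaximal_iff]
  refine ⟨fun h1 => hϖ (isUnit_of_dvd_one (Ideal.mem_span_singleton.mp h1)), ?_⟩
  intro J r hIJ hr hrJ
  have hr0 : r ≠ 0 := fun h0 => hr (h0 ▸ Ideal.zero_mem _)
  obtain ⟨n, u, rfl⟩ := hdvr r hr0
  rcases Nat.eq_zero_or_pos n with hn | hn
  · subst hn
    rw [pow_zero, one_mul] at hrJ
    exact (Ideal.eq_top_of_isUnit_mem _ hrJ u.isUnit) ▸ Submodule.mem_top
  · exfalso
    apply hr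
    rw [Ideal.mem_span_singleton]
    exact Dvd.dvd.mul_right (dvd_pow_self ϖ hn.ne') _

/-- **NCG** (helper60, #523 B).  See the header of `NCG58`. -/
theorem exists_local_equation {ϖ : R}
    (hdvr : ∀ r : R, r ≠ 0 → ∃ n : ℕ, ∃ u : Rˣ, r = ϖ ^ n * u)
    (hϖ : ¬ IsUnit ϖ) (hϖ0 : ϖ ≠ 0) (x y : O) (t : ℕ) (ht : 0 < t)
    (hxy : x * y = algebraMap R O ϖ ^ t)
    (hres : ∀ a : O, ∃ r : R, ∃ a₀ a₁ a₂ : O,
      a = algebraMap R O r + a₀ * algebraMap R O ϖ + a₁ * x + a₂ * y)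
    (hjac : algebraMap R O ϖ ∈ Ideal.jacobson (⊥ : Ideal O))
    (𝔮 : Ideal O) (hfg : 𝔮.FG) (htf : ∀ a : O, algebraMap R O ϖ * a ∈ 𝔮 → a ∈ 𝔮)
    (hnil : ∃ m, x ^ m ∈ lev ϖ 𝔮 1 ∧ y ^ m ∈ lev ϖ 𝔮 1) (hne : (1 : O) ∉ lev ϖ 𝔮 1) :
    ∃ (l : ℕ) (h : O) (ρ i₀ : ℕ) (w₀ : R) (γ γ' : O), h ∈ 𝔮 ∧
      (∀ z ∈ 𝔮, ∃ n : ℕ, algebraMap R O ϖ ^ n * z ∈ Ideal.span {h}) ∧
      1 ≤ ρ ∧ ρ + 1 ≤ t * l ∧ IsUnit w₀ ∧
      t * i₀ + 1 ≤ ρ ∧ ρ ≤ t * (i₀ + 1) ∧ i₀ + 1 ≤ l ∧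
      y ^ i₀ * h = algebraMap R O ϖ ^ (t * i₀) * (x ^ (l - i₀) + algebraMap R O ϖ * γ) ∧
      y ^ (i₀ + 1) * h = algebraMap R O ϖ ^ ρ *
        ((if t * (i₀ + 1) ≤ ρ then x ^ (l - (i₀ + 1)) else 0) +
          algebraMap R O w₀ * y ^ (i₀ + 1) + algebraMap R O ϖ * γ') := by
  have := isMaximal_span_of_dvr hdvr hϖ
  set K := lev ϖ 𝔮 1 with hK
  have hπK : algebraMap R O ϖ ∈ K := by
    have := pow_mem_lev ϖ 𝔮 1
    rwa [pow_one] at this
  have hxyK : x * y ∈ K := by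
    rw [hxy]
    obtain ⟨t', rfl⟩ := Nat.exists_eq_succ_of_ne_zero ht.ne'
    rw [pow_succ]
    exact K.mul_mem_left _ hπK
  obtain ⟨m, hmx, hmy⟩ := hnil
  have hspan : ∀ a : O, ∃ c : ℕ → R,
      a - ∑ j ∈ Finset.range (m + 1 + m), c j • mono x y (m + 1) j ∈ K := by
    intro a
    refine span_mono (algebraMap R O ϖ) x y K hres hπK hxyK (m + 1) m (by omega) ?_ 0 ?_
      (Or.inl rfl) a
    · rw [pow_succ]; exact K.mul_mem_right _ hmx
    · rw [map_zero, zero_mul, sub_zero, pow_succ]; exact K.mul_mem_right _ hmy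
  obtain ⟨l, e, he1, he2⟩ := exists_basis_of_span ϖ K hπK _ _ hspan
  have hB : IsBasisMod ϖ 𝔮 e := ⟨he1, he2, htf⟩
  have : Nonempty (Fin l) := by
    rcases Nat.eq_zero_or_pos l with h0 | h0
    · exfalso
      subst h0
      obtain ⟨r, hr⟩ := he1 1
      simp only [Finset.univ_eq_empty, Finset.sum_empty, sub_zero] at hr
      exact hne hr
    · exact ⟨⟨0, h0⟩⟩
  obtain ⟨h, ρ, i₀, w₀, γ, γ', h1⟩ := exists_local_equation_of_basis hdvr hϖ hϖ0 hB x y t hxy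
    ⟨m, hmx, hmy⟩ hres hjac hfg
  rw [Fintype.card_fin] at h1
  exact ⟨l, h, ρ, i₀, w₀, γ, γ', h1⟩

end Main

end Fermat.Agent.M1.Node.NCGFree58
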