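/-
M1 (S44), chapter NODE, brick N3 (helper25): **rational points through a thick node** (the explicit
case of NCG: local equations up to the vertical prime).  Mathlib + `Thick25` only.

`h : ThickNode C O1 O2 π x y e` the local ring of the model over `L` at a node, `R ⊂ C` the discrete
valuation ring of constants (uniformiser `π`), `ev : C → R` a retraction = an `L`-rational point `P`
of the generic fibre specialising to the node.  `a = x(P)`, `b = y(P)`.  Then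

* `a = π ^ r ρ`, `b = π ^ r' ρ'` with `ρ, ρ' ∈ R^×`, `1 ≤ r`, `1 ≤ r'`, `r + r' = e` (`exists_position`);
* `ker ev = (x - a, y - b)` (`ker_ev_eq`, Nakayama);
* `π ^ r (y - b) ∈ (x - a) C`, hence `ker ev · C[1/π] = (x - a) C[1/π]` (`pow_mul_mem_span`):
  `x - a` is a local equation of `P` at the node up to the vertical primes;
* `v₁(x - a) = 0`, `v₂(x - a) = r` (`val_sub`): the slope of `P` at the node is `-r mod e`;
* `ker ev` is the only prime of `C` not containing `π` which contains `x - a` (`prime_eq_ker`).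
-/
import Mathlib
import Fermat.Agent.M1.Node.Thick25

set_option autoImplicit false

namespace Fermat.Agent.M1.Node.RatPt25

open Fermat.Agent.M1.Node.Thick25

variable {F : Type*} [Field F]

/-- **A rational point through the node**: a retraction `ev` of the local ring `C` onto the discrete
valuation ring `R ⊂ C` of constants (uniformiser `π`). -/
structure RatPoint (C : Subring F) (π : F) (R : Subring F) (ev : ↥C →+* F) : Prop where
  le : ∀ r ∈ R, r ∈ C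
  pi_mem : π ∈ R
  dvr : ∀ r ∈ R, r ≠ 0 → ∃ n : ℕ, ∃ ρ ∈ R, ρ⁻¹ ∈ R ∧ r = π ^ n * ρ
  ev_mem : ∀ c : ↥C, ev c ∈ R
  ev_retr : ∀ c : ↥C, (c : F) ∈ R → ev c = c

variable {C : Subring F} {O1 O2 : ValuationSubring F} {π x y : F} {e : ℕ}
  {R : Subring F} {ev : ↥C →+* F}

section Basic

variable (h : ThickNode C O1 O2 π x y e)
include h

/-- Elements of `C` outside `(π, x, y)` are units of `C`. -/
theorem unit_of_not_mem {c : F} (hc : c ∈ C)
    (hnot : ¬ ∃ a ∈ C, ∃ b ∈ C, ∃ d ∈ C, c = a * π + b * x + d * y) : c⁻¹ ∈ C ∧ c ≠ 0 := by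
  constructor
  · by_contra hcon
    exact hnot (h.nonunit c hc hcon)
  · rintro rfl
    exact hnot ⟨0, C.zero_mem, 0, C.zero_mem, 0, C.zero_mem, by ring⟩

/-- `1 + π c` is a unit of `C`. -/
theorem one_add_pi_mul_unit {c : F} (hc : c ∈ C) : (1 + π * c)⁻¹ ∈ C ∧ 1 + π * c ≠ 0 := by
  refine unit_of_not_mem h (C.add_mem C.one_mem (C.mul_mem h.pi_mem hc)) ?_
  rintro ⟨a, ha, b, hb, d, hd, habd⟩
  refine h.proper (a - c) (C.sub_mem ha hc) b hb d hd ?_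
  linear_combination -habd

/-- `π` lies in the Jacobson radical of `C`. -/
theorem pi_mem_jacobson : (⟨π, h.pi_mem⟩ : ↥C) ∈ Ideal.jacobson (⊥ : Ideal ↥C) := by
  rw [Ideal.mem_jacobson_bot]
  intro c
  obtain ⟨hinv, hne⟩ := one_add_pi_mul_unit h c.2
  rw [isUnit_iff_exists_inv]
  refine ⟨⟨(1 + π * (c : F))⁻¹, hinv⟩, Subtype.ext ?_⟩
  show (π * (c : F) + 1) * (1 + π * (c : F))⁻¹ = 1
  rw [add_comm, mul_inv_cancel₀ hne]

end Basic

section Point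

variable (h : ThickNode C O1 O2 π x y e) (P : RatPoint C π R ev)
include h P

omit h P in
/-- `ev` is nonzero on units of `C`. -/
theorem ev_ne_zero_of_unit {c : F} (hc : c ∈ C) (hc' : c⁻¹ ∈ C) (hc0 : c ≠ 0) :
    ev ⟨c, hc⟩ ≠ 0 := by
  intro h0
  have h1 : ev (⟨c, hc⟩ * ⟨c⁻¹, hc'⟩) = 1 := by
    have : (⟨c, hc⟩ * ⟨c⁻¹, hc'⟩ : ↥C) = 1 := Subtype.ext (mul_inv_cancel₀ hc0)
    rw [this, map_one]
  rw [map_mul, h0, zero_mul] at h1
  exact zero_ne_one h1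

omit h in
theorem ev_pi : ev ⟨π, P.le π P.pi_mem⟩ = π := P.ev_retr _ P.pi_mem

omit h P in
/-- Elements of the kernel of `ev` are not units of `C`. -/
theorem not_unit_of_ev_eq_zero {c : F} (hc : c ∈ C) (h0 : ev ⟨c, hc⟩ = 0) (hne : c ≠ 0) :
    c⁻¹ ∉ C := fun hc' => ev_ne_zero_of_unit hc hc' hne h0

/-- Units of `R` are units of `C`, hence not in `(π, x, y)`. -/
theorem unit_R_not_mem {ρ : F} (hρ' : ρ⁻¹ ∈ R) (hρ0 : ρ ≠ 0) {a b d : F}
    (ha : a ∈ C) (hb : b ∈ C) (hd : d ∈ C) (hdec : ρ = a * π + b * x + d * y) : False :=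
  h.not_unit_of_mem (P.le _ hρ') (mul_inv_cancel₀ hρ0) ha hb hd hdec

/-- A coordinate `t ∈ (π, x, y)` has value `ev t` divisible by `π` in `R`. -/
theorem ev_mem_pi {t : F} (ht : t ∈ C)
    (htm : ∃ a ∈ C, ∃ b ∈ C, ∃ d ∈ C, t = a * π + b * x + d * y) (hne : ev ⟨t, ht⟩ ≠ 0) :
    ∃ n : ℕ, ∃ ρ ∈ R, ρ⁻¹ ∈ R ∧ ρ ≠ 0 ∧ ev ⟨t, ht⟩ = π ^ (n + 1) * ρ := by
  obtain ⟨n, ρ, hρ, hρ', hev⟩ := P.dvr _ (P.ev_mem ⟨t, ht⟩) hne
  have hρ0 : ρ ≠ 0 := by
    rintro rfl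
    rw [mul_zero] at hev
    exact hne hev
  rcases Nat.eq_zero_or_pos n with hn0 | hnpos
  · exfalso
    rw [hn0, pow_zero, one_mul] at hev
    -- `t - ρ` is a unit of `C` killed by `ev`
    obtain ⟨a, ha, b, hb, d, hd, hdec⟩ := htm
    have hsubC : t - ρ ∈ C := C.sub_mem ht (P.le _ hρ)
    have hunit : (t - ρ)⁻¹ ∈ C ∧ t - ρ ≠ 0 := by
      refine unit_of_not_mem h hsubC ?_
      rintro ⟨a', ha', b', hb', d', hd', hdec'⟩
      refine unit_R_not_mem h P hρ' hρ0 (C.sub_mem ha ha') (C.sub_mem hb hb')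
        (C.sub_mem hd hd') ?_
      linear_combination hdec - hdec'
    refine not_unit_of_ev_eq_zero (ev := ev) hsubC ?_ hunit.2 hunit.1
    have : (⟨t - ρ, hsubC⟩ : ↥C) = ⟨t, ht⟩ - ⟨ρ, P.le _ hρ⟩ := rfl
    rw [this, map_sub, P.ev_retr ⟨ρ, P.le _ hρ⟩ hρ, hev]
    exact sub_self _
  · refine ⟨n - 1, ρ, hρ, hρ', hρ0, ?_⟩
    rw [Nat.sub_add_cancel hnpos]
    exact hev

/-- **Position of the point in the annulus**: `x(P) = π ^ r ρ`, `y(P) = π ^ r' ρ'`,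
`1 ≤ r`, `1 ≤ r'`, `r + r' = e`. -/
theorem exists_position :
    ∃ (r r' : ℕ) (ρ ρ' : F), 0 < r ∧ 0 < r' ∧ r + r' = e ∧ ρ ∈ R ∧ ρ⁻¹ ∈ R ∧ ρ ≠ 0 ∧
      ρ' ∈ R ∧ ρ'⁻¹ ∈ R ∧ ρ' ≠ 0 ∧ ev ⟨x, h.x_mem⟩ = π ^ r * ρ ∧ ev ⟨y, h.y_mem⟩ = π ^ r' * ρ' := by
  obtain ⟨u, hu, u', hu', huu, hxy⟩ := h.xy
  have hu0 : u ≠ 0 := left_ne_zero_of_mul_eq_one huu
  have hu'eq : u' = u⁻¹ := eq_inv_of_mul_eq_one_right huu
  have hevu : ev ⟨u, hu⟩ ≠ 0 := ev_ne_zero_of_unit hu (hu'eq ▸ hu') hu0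
  -- `a b = π ^ e ev u`
  have hab : ev ⟨x, h.x_mem⟩ * ev ⟨y, h.y_mem⟩ = π ^ e * ev ⟨u, hu⟩ := by
    have : (⟨x, h.x_mem⟩ * ⟨y, h.y_mem⟩ : ↥C) = ⟨π, h.pi_mem⟩ ^ e * ⟨u, hu⟩ := Subtype.ext hxy
    rw [← map_mul, this, map_mul, map_pow, ev_pi P]
  have hπ0 := h.pi_ne_zero
  have habne : ev ⟨x, h.x_mem⟩ * ev ⟨y, h.y_mem⟩ ≠ 0 := by
    rw [hab]; exact mul_ne_zero (pow_ne_zero _ hπ0) hevu
  have hane : ev ⟨x, h.x_mem⟩ ≠ 0 := left_ne_zero_of_mul habne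
  have hbne : ev ⟨y, h.y_mem⟩ ≠ 0 := right_ne_zero_of_mul habne
  obtain ⟨n, ρ, hρ, hρ', hρ0, ha⟩ := ev_mem_pi h P h.x_mem
    ⟨0, C.zero_mem, 1, C.one_mem, 0, C.zero_mem, by ring⟩ hane
  obtain ⟨n', ρ', hρ1, hρ1', hρ10, hb⟩ := ev_mem_pi h P h.y_mem
    ⟨0, C.zero_mem, 0, C.zero_mem, 1, C.one_mem, by ring⟩ hbne
  refine ⟨n + 1, n' + 1, ρ, ρ', Nat.succ_pos _, Nat.succ_pos _, ?_, hρ, hρ', hρ0, hρ1, hρ1', hρ10,
    ha, hb⟩
  -- compare valuations on the component `1`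
  have hval := congrArg O1.valuation hab
  have hvρ : O1.valuation ρ = 1 := h.val1_unit (P.le _ hρ) (P.le _ hρ') (mul_inv_cancel₀ hρ0)
  have hvρ' : O1.valuation ρ' = 1 := h.val1_unit (P.le _ hρ1) (P.le _ hρ1') (mul_inv_cancel₀ hρ10)
  have hevuR := P.ev_mem ⟨u, hu⟩
  have hevu'R := P.ev_mem ⟨u', hu'⟩
  have hevuu : ev ⟨u, hu⟩ * ev ⟨u', hu'⟩ = 1 := by
    have : (⟨u, hu⟩ * ⟨u', hu'⟩ : ↥C) = 1 := Subtype.ext huu
    rw [← map_mul, this, map_one]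
  have hvu : O1.valuation (ev ⟨u, hu⟩) = 1 := h.val1_unit (P.le _ hevuR) (P.le _ hevu'R) hevuu
  rw [ha, hb, map_mul, map_mul, map_mul, map_mul, map_pow, map_pow, map_pow, hvρ, hvρ', hvu, mul_one,
    mul_one, mul_one, ← pow_add] at hval
  have := h.unif1.zpow_injective (a := ((n + 1 + (n' + 1) : ℕ) : ℤ)) (b := (e : ℤ))
    (by rw [zpow_natCast, zpow_natCast]; exact hval)
  exact_mod_cast this

end Point

section Kernel

/-- The value `ev c ∈ R ⊆ C` as an element of `C`. -/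
def valC (P : RatPoint C π R ev) (c : ↥C) : ↥C := ⟨ev c, P.le _ (P.ev_mem c)⟩

theorem coe_valC (P : RatPoint C π R ev) (c : ↥C) : ((valC P c : ↥C) : F) = ev c := rfl

theorem ev_valC (P : RatPoint C π R ev) (c : ↥C) : ev (valC P c) = ev c :=
  P.ev_retr _ (P.ev_mem c)

theorem sub_valC_mem_ker (P : RatPoint C π R ev) (c : ↥C) : c - valC P c ∈ RingHom.ker ev := by
  rw [RingHom.mem_ker, map_sub, ev_valC, sub_self]

variable (h : ThickNode C O1 O2 π x y e) (P : RatPoint C π R ev)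
include h P

/-- **The horizontal prime of a rational point**: `ker ev = (x - a, y - b)` (Nakayama). -/
theorem ker_ev_eq [IsNoetherianRing ↥C] :
    RingHom.ker ev = Ideal.span {(⟨x, h.x_mem⟩ : ↥C) - valC P ⟨x, h.x_mem⟩,
      (⟨y, h.y_mem⟩ : ↥C) - valC P ⟨y, h.y_mem⟩} := by
  set xC : ↥C := ⟨x, h.x_mem⟩ with hxC
  set yC : ↥C := ⟨y, h.y_mem⟩ with hyC
  set πC : ↥C := ⟨π, h.pi_mem⟩ with hπC
  set J : Ideal ↥C := Ideal.span {xC - valC P xC, yC - valC P yC} with hJ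
  have hxJ : xC - valC P xC ∈ J := Ideal.subset_span (by simp)
  have hyJ : yC - valC P yC ∈ J := Ideal.subset_span (by simp)
  refine le_antisymm ?_ ?_
  · refine Submodule.le_of_le_smul_of_le_jacobson_bot (I := Ideal.span {πC})
      (IsNoetherian.noetherian _) ?_ ?_
    · rw [Ideal.span_singleton_le_iff_mem]
      exact pi_mem_jacobson h
    · intro i hi
      rw [RingHom.mem_ker] at hi
      by_cases hi0 : i = 0
      · rw [hi0]; exact Submodule.zero_mem _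
      have hiF0 : (i : F) ≠ 0 := fun h0 => hi0 (Subtype.ext h0)
      have hnon : (i : F)⁻¹ ∉ C := not_unit_of_ev_eq_zero (ev := ev) i.2 hi hiF0
      obtain ⟨α, hα, β, hβ, δ, hδ, hdec⟩ := h.nonunit _ i.2 hnon
      obtain ⟨r, r', ρ, ρ', hr, hr', -, hρ, -, -, hρ1, -, -, ha, hb⟩ := exists_position h P
      -- `a = π a'`, `b = π b'`
      set a' : ↥C := ⟨π ^ (r - 1) * ρ, C.mul_mem (C.pow_mem h.pi_mem _) (P.le _ hρ)⟩ with ha'
      set b' : ↥C := ⟨π ^ (r' - 1) * ρ', C.mul_mem (C.pow_mem h.pi_mem _) (P.le _ hρ1)⟩ with hb'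
      have haa' : valC P xC = πC * a' := by
        apply Subtype.ext
        show ev xC = π * (π ^ (r - 1) * ρ)
        rw [ha, ← mul_assoc, ← pow_succ', Nat.sub_add_cancel hr]
      have hbb' : valC P yC = πC * b' := by
        apply Subtype.ext
        show ev yC = π * (π ^ (r' - 1) * ρ')
        rw [hb, ← mul_assoc, ← pow_succ', Nat.sub_add_cancel hr']
      set αC : ↥C := ⟨α, hα⟩
      set βC : ↥C := ⟨β, hβ⟩
      set δC : ↥C := ⟨δ, hδ⟩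
      set α' : ↥C := αC + βC * a' + δC * b' with hα'
      have hidec : i = (βC * (xC - valC P xC) + δC * (yC - valC P yC)) + πC * α' := by
        rw [haa', hbb', hα']
        have : i = αC * πC + βC * xC + δC * yC := Subtype.ext hdec
        rw [this]; ring
      have hα'ker : α' ∈ RingHom.ker ev := by
        rw [RingHom.mem_ker]
        have h1 := hi
        rw [hidec, map_add, map_add, map_mul, map_mul, map_sub, map_sub, ev_valC, ev_valC, sub_self,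
          sub_self, mul_zero, mul_zero, add_zero, zero_add, map_mul] at h1
        have hπ : ev πC = π := ev_pi P
        rw [hπ] at h1
        exact (mul_eq_zero.mp h1).resolve_left h.pi_ne_zero
      rw [hidec]
      refine Submodule.add_mem_sup ?_ ?_
      · exact J.add_mem (J.mul_mem_left _ hxJ) (J.mul_mem_left _ hyJ)
      · exact Submodule.smul_mem_smul (Ideal.mem_span_singleton_self _) hα'ker
  · rw [hJ, Ideal.span_le]
    intro z hz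
    rcases hz with rfl | rfl
    · exact sub_valC_mem_ker P _
    · exact sub_valC_mem_ker P _

/-- **`x - a` is a local equation of `P` up to the vertical primes**:
`π ^ r (y - b) ∈ (x - a) C` where `a = x(P) = π ^ r ρ`, `r < e`. -/
theorem local_eq [IsNoetherianRing ↥C] {r : ℕ} {ρ : F} (hr : r < e) (_hρ : ρ ∈ R) (hρ' : ρ⁻¹ ∈ R)
    (hρ0 : ρ ≠ 0) (ha : ev ⟨x, h.x_mem⟩ = π ^ r * ρ) :
    ∃ γ ∈ C, π ^ r * (y - ev ⟨y, h.y_mem⟩) = γ * (x - ev ⟨x, h.x_mem⟩) := by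
  obtain ⟨u, hu, u', hu', huu, hxy⟩ := h.xy
  set xC : ↥C := ⟨x, h.x_mem⟩ with hxC
  set yC : ↥C := ⟨y, h.y_mem⟩ with hyC
  set uC : ↥C := ⟨u, hu⟩ with huC
  -- `u - u(P) ∈ ker ev = (x - a, y - b)`
  have hmem := sub_valC_mem_ker P uC
  rw [ker_ev_eq h P, Ideal.mem_span_pair] at hmem
  obtain ⟨α, β, hαβ⟩ := hmem
  have hαβF : (α : F) * (x - ev xC) + (β : F) * (y - ev yC) = u - ev uC :=
    congrArg (fun z : ↥C => (z : F)) hαβ
  -- `a b = π ^ e u(P)`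
  have hab : ev xC * ev yC = π ^ e * ev uC := by
    have : (xC * yC : ↥C) = ⟨π, h.pi_mem⟩ ^ e * uC := Subtype.ext hxy
    rw [← map_mul, this, map_mul, map_pow, ev_pi P]
  -- the unit `1 + π c₀`
  have hρC : ρ⁻¹ ∈ C := P.le _ hρ'
  set c₀ : F := -(π ^ (e - r - 1) * ρ⁻¹ * (β : F)) with hc₀
  have hc₀C : c₀ ∈ C :=
    C.neg_mem (C.mul_mem (C.mul_mem (C.pow_mem h.pi_mem _) hρC) β.2)
  obtain ⟨hκ, hκ0⟩ := one_add_pi_mul_unit h hc₀C
  have hpe : π ^ e = π ^ r * (π * π ^ (e - r - 1)) := by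
    rw [← pow_succ', ← pow_add]
    congr 1
    omega
  refine ⟨ρ⁻¹ * (1 + π * c₀)⁻¹ * (π ^ e * (α : F) - y),
    C.mul_mem (C.mul_mem hρC hκ) (C.sub_mem (C.mul_mem (C.pow_mem h.pi_mem _) α.2) h.y_mem), ?_⟩
  -- `(a - π ^ e β) (y - b) = (π ^ e α - y) (x - a)`
  have hkey : (ev xC - π ^ e * (β : F)) * (y - ev yC) = (π ^ e * (α : F) - y) * (x - ev xC) := by
    linear_combination (-(π ^ e)) * hαβF - hab + hxy
  have hfac : ev xC - π ^ e * (β : F) = π ^ r * ρ * (1 + π * c₀) := by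
    rw [ha, hc₀, hpe]
    field_simp
    ring
  rw [mul_assoc, ← hkey, hfac]
  field_simp

/-- **`ker ev · C[1/π] = (x - a) C[1/π]`.** -/
theorem ker_loc [IsNoetherianRing ↥C] {r : ℕ} {ρ : F} (hr : r < e) (hρ : ρ ∈ R) (hρ' : ρ⁻¹ ∈ R)
    (hρ0 : ρ ≠ 0) (ha : ev ⟨x, h.x_mem⟩ = π ^ r * ρ) (c : ↥C) (hc : ev c = 0) :
    ∃ γ ∈ C, π ^ r * (c : F) = γ * (x - ev ⟨x, h.x_mem⟩) := by
  obtain ⟨γ, hγ, hγeq⟩ := local_eq h P hr hρ hρ' hρ0 ha
  have hmem : c ∈ RingHom.ker ev := hc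
  rw [ker_ev_eq h P, Ideal.mem_span_pair] at hmem
  obtain ⟨α, β, hαβ⟩ := hmem
  have hαβF : (α : F) * (x - ev ⟨x, h.x_mem⟩) + (β : F) * (y - ev ⟨y, h.y_mem⟩) = (c : F) :=
    congrArg (fun z : ↥C => (z : F)) hαβ
  refine ⟨π ^ r * (α : F) + (β : F) * γ,
    C.add_mem (C.mul_mem (C.pow_mem h.pi_mem _) α.2) (C.mul_mem β.2 hγ), ?_⟩
  rw [← hαβF]
  linear_combination (β : F) * hγeq

/-- **Valuations of the local equation**: `v₁(x - a) = 0`, `v₂(x - a) = r`. -/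
theorem val_sub {r : ℕ} {ρ : F} (hr0 : 0 < r) (hr : r < e) (hρ : ρ ∈ R) (hρ' : ρ⁻¹ ∈ R)
    (hρ0 : ρ ≠ 0) (ha : ev ⟨x, h.x_mem⟩ = π ^ r * ρ) :
    O1.valuation (x - ev ⟨x, h.x_mem⟩) = 1 ∧
      O2.valuation (x - ev ⟨x, h.x_mem⟩) = O2.valuation π ^ r := by
  have hv1 : O1.valuation (ev ⟨x, h.x_mem⟩) = O1.valuation π ^ r := by
    rw [ha, map_mul, map_pow, h.val1_unit (P.le _ hρ) (P.le _ hρ') (mul_inv_cancel₀ hρ0), mul_one]
  have hv2 : O2.valuation (ev ⟨x, h.x_mem⟩) = O2.valuation π ^ r := by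
    rw [ha, map_mul, map_pow, h.val2_unit (P.le _ hρ) (P.le _ hρ') (mul_inv_cancel₀ hρ0), mul_one]
  constructor
  · rw [Valuation.map_sub_eq_of_lt_left, h.val1_x]
    rw [hv1, h.val1_x]
    exact pow_lt_one₀ zero_le h.unif1.val_lt_one (Nat.pos_iff_ne_zero.mp hr0)
  · rw [Valuation.map_sub_eq_of_lt_right, hv2]
    rw [hv2, h.val2_x]
    exact pow_lt_pow_right_of_lt_one₀ h.unif2.val_pos h.unif2.val_lt_one hr

/-- **`ker ev` is the only horizontal prime through `x - a`.** -/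
theorem prime_eq_ker [IsNoetherianRing ↥C] (𝔭 : Ideal ↥C) [h𝔭 : 𝔭.IsPrime]
    (hπ : (⟨π, h.pi_mem⟩ : ↥C) ∉ 𝔭)
    (hx : (⟨x, h.x_mem⟩ : ↥C) - valC P ⟨x, h.x_mem⟩ ∈ 𝔭) : 𝔭 = RingHom.ker ev := by
  obtain ⟨r, r', ρ, ρ', hr, hr', hrr, hρ, hρ', hρ0, -, -, -, ha, -⟩ := exists_position h P
  have hre : r < e := by omega
  set πC : ↥C := ⟨π, h.pi_mem⟩ with hπC
  have hπpow : ∀ n : ℕ, πC ^ n ∉ 𝔭 := fun n hn => hπ (h𝔭.mem_of_pow_mem n hn)
  refine le_antisymm ?_ ?_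
  · intro c hc
    rw [RingHom.mem_ker]
    by_contra hne
    -- `ev c = π ^ n σ` with `σ` a unit: then `σ ∈ 𝔭`
    obtain ⟨n, σ, hσ, hσ', hσeq⟩ := P.dvr _ (P.ev_mem c) hne
    have hσ0 : σ ≠ 0 := by
      rintro rfl
      rw [mul_zero] at hσeq
      exact hne hσeq
    have h1 : valC P c ∈ 𝔭 := by
      have h2 : c - valC P c ∈ 𝔭 := by
        obtain ⟨γ, hγ, hγeq⟩ := ker_loc h P hre hρ hρ' hρ0 ha (c - valC P c)
          (sub_valC_mem_ker P c)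
        have h3 : πC ^ r * (c - valC P c) ∈ 𝔭 := by
          have : πC ^ r * (c - valC P c) =
              ⟨γ, hγ⟩ * ((⟨x, h.x_mem⟩ : ↥C) - valC P ⟨x, h.x_mem⟩) := Subtype.ext hγeq
          rw [this]
          exact 𝔭.mul_mem_left _ hx
        exact (h𝔭.mem_or_mem h3).resolve_left (hπpow r)
      have : valC P c = c - (c - valC P c) := by ring
      rw [this]
      exact 𝔭.sub_mem hc h2
    set σC : ↥C := ⟨σ, P.le _ hσ⟩ with hσC
    have h4 : valC P c = πC ^ n * σC := Subtype.ext hσeq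
    rw [h4] at h1
    have h5 : σC ∈ 𝔭 := (h𝔭.mem_or_mem h1).resolve_left (hπpow n)
    have h6 : (1 : ↥C) ∈ 𝔭 := by
      have : (1 : ↥C) = ⟨σ⁻¹, P.le _ hσ'⟩ * σC := Subtype.ext (inv_mul_cancel₀ hσ0).symm
      rw [this]
      exact 𝔭.mul_mem_left _ h5
    exact h𝔭.ne_top ((Ideal.eq_top_iff_one 𝔭).mpr h6)
  · intro c hc
    obtain ⟨γ, hγ, hγeq⟩ := ker_loc h P hre hρ hρ' hρ0 ha c hc
    have h3 : πC ^ r * c ∈ 𝔭 := by
      have : πC ^ r * c = ⟨γ, hγ⟩ * ((⟨x, h.x_mem⟩ : ↥C) - valC P ⟨x, h.x_mem⟩) :=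
        Subtype.ext hγeq
      rw [this]
      exact 𝔭.mul_mem_left _ hx
    exact (h𝔭.mem_or_mem h3).resolve_left (hπpow r)

end Kernel

end Fermat.Agent.M1.Node.RatPt25
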