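/-
M1 / chapter NODE: **NCG at a thick node in field form** (helper58): the adapter of
`NCGFree58.exists_local_equation` to helper25's `ThickNode C O1 O2 π x y e`.

For an ideal `𝔮` of the local ring `C` of the model at a node with `C/𝔮` `π`-torsion-free and
`x, y` nilpotent modulo `𝔮 + πC` (a horizontal divisor through the node) there is `h ∈ 𝔮` with
`(h : π^∞) = 𝔮`, `v₁(h) = 0` and `v₂(h) = ρ`, `0 < ρ < e l` (`l = dim C/(𝔮 + πC)`): `h` is a local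
equation of `𝔮` up to vertical components, of slope `ρ`.
-/
import Mathlib
import Fermat.Agent.M1.Node.NCGFree58
import Fermat.Agent.M1.Node.RatPt25

set_option autoImplicit false

namespace Fermat.Agent.M1.Node.NCGThick58

open Fermat.Agent.M1.Node.Thick25 Fermat.Agent.M1.Node.NCGCoord58

variable {F : Type*} [Field F]

/-- **The discrete valuation ring of constants** `R ⊂ C` (uniformiser `π`), with residue field
equal to that of the node: `C = R + (π, x, y)`. -/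
structure Consts (C : Subring F) (π x y : F) (R : Subring F) : Prop where
  le : R ≤ C
  pi_mem : π ∈ R
  dvr : ∀ r ∈ R, r ≠ 0 → ∃ n : ℕ, ∃ ρ ∈ R, ρ⁻¹ ∈ R ∧ r = π ^ n * ρ
  res : ∀ c ∈ C, ∃ r ∈ R, ∃ a ∈ C, ∃ b ∈ C, ∃ d ∈ C, c = r + a * π + b * x + d * y

variable {C : Subring F} {O1 O2 : ValuationSubring F} {π x y : F} {e : ℕ} {R : Subring F}

/-- **NCG at a thick node.** -/
theorem exists_local_equation_thick (h : ThickNode C O1 O2 π x y e) (hR : Consts C π x y R)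
    [IsNoetherianRing ↥C] (𝔮 : Ideal ↥C)
    (htf : ∀ a : ↥C, (⟨π, h.pi_mem⟩ : ↥C) * a ∈ 𝔮 → a ∈ 𝔮)
    (hnilx : ∃ m : ℕ, ∃ q ∈ 𝔮, ∃ c : ↥C, x ^ m = (q : F) + π * (c : F))
    (hnily : ∃ m : ℕ, ∃ q ∈ 𝔮, ∃ c : ↥C, y ^ m = (q : F) + π * (c : F))
    (hne : ¬ ∃ q ∈ 𝔮, ∃ c : ↥C, (1 : F) = (q : F) + π * (c : F)) :
    ∃ (hh : ↥C) (ρ l : ℕ), hh ∈ 𝔮 ∧
      (∀ z ∈ 𝔮, ∃ n : ℕ, (⟨π, h.pi_mem⟩ : ↥C) ^ n * z ∈ Ideal.span {hh}) ∧
      1 ≤ ρ ∧ ρ + 1 ≤ e * l ∧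
      O1.valuation (hh : F) = 1 ∧ O2.valuation (hh : F) = O2.valuation π ^ ρ := by
  classical
  let _ : Algebra ↥R ↥C := (Subring.inclusion hR.le).toAlgebra
  have halg : ∀ r : ↥R, ((algebraMap ↥R ↥C r : ↥C) : F) = (r : F) := fun r => rfl
  set ϖ : ↥R := ⟨π, hR.pi_mem⟩ with hϖdef
  have hϖπ : algebraMap ↥R ↥C ϖ = (⟨π, h.pi_mem⟩ : ↥C) := Subtype.ext rfl
  have hπ0 : π ≠ 0 := h.pi_ne_zero
  obtain ⟨u, hu, u', hu', huu, hxy⟩ := h.xy
  -- hypotheses of the ring form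
  have hdvr : ∀ r : ↥R, r ≠ 0 → ∃ n : ℕ, ∃ v : (↥R)ˣ, r = ϖ ^ n * v := by
    intro r hr
    have hr0 : (r : F) ≠ 0 := fun h0 => hr (Subtype.ext h0)
    obtain ⟨n, ρ, hρ, hρ', hrρ⟩ := hR.dvr r r.2 hr0
    have hρ0 : ρ ≠ 0 := by
      rintro rfl
      exact hr0 (by rw [hrρ, mul_zero])
    refine ⟨n, ⟨⟨ρ, hρ⟩, ⟨ρ⁻¹, hρ'⟩, Subtype.ext (mul_inv_cancel₀ hρ0),
      Subtype.ext (inv_mul_cancel₀ hρ0)⟩, Subtype.ext ?_⟩
    simp only [Subring.coe_mul, SubmonoidClass.coe_pow, hϖdef]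
    exact hrρ
  have hϖu : ¬ IsUnit ϖ := by
    intro hunit
    obtain ⟨v, hv⟩ := hunit.exists_right_inv
    have h1 : π * (v : F) = 1 := congrArg Subtype.val hv
    have h2 : π⁻¹ = (v : F) := by
      rw [eq_comm, ← mul_right_inj' hπ0, h1, mul_inv_cancel₀ hπ0]
    exact h.unif1.nonunit (h2 ▸ h.le1 _ (hR.le v.2))
  have hϖ0 : ϖ ≠ 0 := fun h0 => hπ0 (congrArg Subtype.val h0)
  set x' : ↥C := ⟨x, h.x_mem⟩ with hx'
  set y' : ↥C := ⟨y * u', C.mul_mem h.y_mem hu'⟩ with hy'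
  have hxy' : x' * y' = algebraMap ↥R ↥C ϖ ^ e := by
    rw [hϖπ]
    refine Subtype.ext ?_
    simp only [Subring.coe_mul, SubmonoidClass.coe_pow, hx', hy']
    calc x * (y * u') = (x * y) * u' := by ring
      _ = π ^ e * (u * u') := by rw [hxy]; ring
      _ = π ^ e := by rw [huu, mul_one]
  have hres : ∀ a : ↥C, ∃ r : ↥R, ∃ a₀ a₁ a₂ : ↥C,
      a = algebraMap ↥R ↥C r + a₀ * algebraMap ↥R ↥C ϖ + a₁ * x' + a₂ * y' := by
    intro a
    obtain ⟨r, hr, a₀, ha₀, b, hb, d, hd, hc⟩ := hR.res a a.2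
    refine ⟨⟨r, hr⟩, ⟨a₀, ha₀⟩, ⟨b, hb⟩, ⟨d * u, C.mul_mem hd hu⟩, Subtype.ext ?_⟩
    rw [hϖπ]
    simp only [Subring.coe_add, Subring.coe_mul, halg, hx', hy']
    rw [hc]
    have : d * u * (y * u') = d * y * (u * u') := by ring
    rw [this, huu, mul_one]
  have hjac : algebraMap ↥R ↥C ϖ ∈ Ideal.jacobson (⊥ : Ideal ↥C) := by
    rw [hϖπ]
    exact Fermat.Agent.M1.Node.RatPt25.pi_mem_jacobson h
  have hfg : 𝔮.FG := IsNoetherian.noetherian 𝔮
  have htf' : ∀ a : ↥C, algebraMap ↥R ↥C ϖ * a ∈ 𝔮 → a ∈ 𝔮 := by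
    rw [hϖπ]; exact htf
  have hmemlev : ∀ (a : ↥C), (∃ q ∈ 𝔮, ∃ c : ↥C, (a : F) = (q : F) + π * (c : F)) →
      a ∈ lev ϖ 𝔮 1 := by
    rintro a ⟨q, hq, c, hc⟩
    refine mem_lev.mpr ⟨q, hq, c, Subtype.ext ?_⟩
    rw [hϖπ, pow_one]
    simp only [Subring.coe_add, Subring.coe_mul]
    exact hc
  have hnil : ∃ m, x' ^ m ∈ lev ϖ 𝔮 1 ∧ y' ^ m ∈ lev ϖ 𝔮 1 := by
    obtain ⟨m₁, q₁, hq₁, c₁, h₁⟩ := hnilx
    obtain ⟨m₂, q₂, hq₂, c₂, h₂⟩ := hnily
    refine ⟨m₁ + m₂, ?_, ?_⟩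
    · rw [pow_add]
      refine Ideal.mul_mem_right _ _ (hmemlev _ ⟨q₁, hq₁, c₁, ?_⟩)
      simp only [SubmonoidClass.coe_pow, hx']
      exact h₁
    · rw [pow_add]
      refine Ideal.mul_mem_left _ _ (hmemlev _ ⟨q₂ * ⟨u' ^ m₂, C.pow_mem hu' m₂⟩,
        𝔮.mul_mem_right _ hq₂, c₂ * ⟨u' ^ m₂, C.pow_mem hu' m₂⟩, ?_⟩)
      simp only [SubmonoidClass.coe_pow, Subring.coe_mul, hy']
      rw [mul_pow, h₂]
      ring
  have hne' : (1 : ↥C) ∉ lev ϖ 𝔮 1 := by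
    intro h1
    obtain ⟨q, hq, b, hb⟩ := mem_lev.mp h1
    refine hne ⟨q, hq, b, ?_⟩
    have := congrArg Subtype.val hb
    rw [hϖπ, pow_one] at this
    simpa using this
  obtain ⟨l, hh, ρ, i₀, w₀, γ, γ', hh𝔮, hsat, hρ1, hρl, hw₀, hi1, hi2, hi3, hrel1, hrel2⟩ :=
    Fermat.Agent.M1.Node.NCGFree58.exists_local_equation hdvr hϖu hϖ0 x' y' e h.e_pos hxy' hres
      hjac 𝔮 hfg htf' hnil hne'
  refine ⟨hh, ρ, l, hh𝔮, ?_, hρ1, hρl, ?_, ?_⟩
  · intro z hz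
    obtain ⟨n, hn⟩ := hsat z hz
    rw [hϖπ] at hn
    exact ⟨n, hn⟩
  · -- `v₁(h) = 0`
    have e1 := congrArg Subtype.val hrel1
    rw [hϖπ] at e1
    simp only [Subring.coe_mul, SubmonoidClass.coe_pow, Subring.coe_add, hx', hy'] at e1
    have hv1y : O1.valuation (y * u') = O1.valuation π ^ e := by
      rw [map_mul, h.val1_y, h.val1_unit hu' hu (by rw [mul_comm]; exact huu), mul_one]
    have hv1br : O1.valuation (x ^ (l - i₀) + π * (γ : F)) = 1 := by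
      have h1 : O1.valuation (x ^ (l - i₀)) = 1 := by rw [map_pow, h.val1_x, one_pow]
      have h2 : O1.valuation (π * (γ : F)) < 1 := by
        rw [map_mul]
        exact mul_lt_one_of_lt_of_le h.unif1.val_lt_one (h.val1_le_one γ.2)
      rw [Valuation.map_add_eq_of_lt_left _ (by rw [h1]; exact h2), h1]
    have e2 := congrArg O1.valuation e1
    rw [map_mul, map_mul, map_pow, map_pow, hv1y, hv1br, mul_one, ← pow_mul] at e2
    have hne0 : (O1.valuation π ^ (e * i₀)) ≠ 0 := pow_ne_zero _ h.unif1.val_ne_zero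
    have e3 : O1.valuation π ^ (e * i₀) * O1.valuation (hh : F) = O1.valuation π ^ (e * i₀) * 1 := by
      rw [mul_one]; exact e2
    exact mul_left_cancel₀ hne0 e3
  · -- `v₂(h) = ρ`
    have e1 := congrArg Subtype.val hrel2
    rw [hϖπ] at e1
    simp only [Subring.coe_mul, SubmonoidClass.coe_pow, Subring.coe_add, halg, hx', hy'] at e1
    have hv2y : O2.valuation (y * u') = 1 := by
      rw [map_mul, h.val2_y, h.val2_unit hu' hu (by rw [mul_comm]; exact huu), mul_one]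
    obtain ⟨w₁, hw₁⟩ := hw₀.exists_right_inv
    have hv2w : O2.valuation (w₀ : F) = 1 := by
      refine h.val2_unit (hR.le w₀.2) (hR.le w₁.2) ?_
      exact congrArg Subtype.val hw₁
    have hmain : O2.valuation ((w₀ : F) * (y * u') ^ (i₀ + 1)) = 1 := by
      rw [map_mul, map_pow, hv2y, one_pow, hv2w, one_mul]
    have hπγ : O2.valuation (π * (γ' : F)) < 1 := by
      rw [map_mul]
      exact mul_lt_one_of_lt_of_le h.unif2.val_lt_one (h.val2_le_one γ'.2)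
    have hv2br : O2.valuation ((((if e * (i₀ + 1) ≤ ρ then x' ^ (l - (i₀ + 1)) else 0 : ↥C) : F)) +
        (w₀ : F) * (y * u') ^ (i₀ + 1) + π * (γ' : F)) = 1 := by
      have hε : O2.valuation (((if e * (i₀ + 1) ≤ ρ then x' ^ (l - (i₀ + 1)) else 0 : ↥C) : F))
          < 1 := by
        by_cases hcase : e * (i₀ + 1) ≤ ρ
        · rw [if_pos hcase]
          have hpos : 1 ≤ l - (i₀ + 1) := by
            have h1 : e * (i₀ + 1) < e * l := by omega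
            have := Nat.lt_of_mul_lt_mul_left h1
            omega
          obtain ⟨k, hk⟩ := Nat.exists_eq_add_of_le hpos
          simp only [SubmonoidClass.coe_pow, hx']
          rw [hk, map_pow, pow_add, pow_one]
          have hx2 : O2.valuation x < 1 := by
            rw [h.val2_x]
            exact pow_lt_one₀ zero_le h.unif2.val_lt_one h.e_pos.ne'
          exact mul_lt_one_of_lt_of_le hx2 (pow_le_one₀ zero_le (h.val2_le_one h.x_mem))
        · rw [if_neg hcase]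
          simp
      have h1 : O2.valuation ((((if e * (i₀ + 1) ≤ ρ then x' ^ (l - (i₀ + 1)) else 0 : ↥C) : F)) +
          (w₀ : F) * (y * u') ^ (i₀ + 1)) = 1 := by
        rw [Valuation.map_add_eq_of_lt_right _ (by rw [hmain]; exact hε), hmain]
      rw [Valuation.map_add_eq_of_lt_left _ (by rw [h1]; exact hπγ), h1]
    have e2 := congrArg O2.valuation e1
    rw [map_mul, map_mul, map_pow, map_pow, hv2y, one_pow, one_mul, hv2br, mul_one] at e2
    exact e2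

end Fermat.Agent.M1.Node.NCGThick58
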