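/-
M1 (S44), chapter NODE, brick N5 (helper25): **bridge, `K`-side**: P36's `NodeRegAt` (regular nodes of
the model over an inertial field `K`) gives the abstract `BaseNode25.RegNode` at the local ring
`S = locSub B 𝔪 ⊂ F_K` of every two-branch closed point.

To keep the import closure small (`NodeRegAt10` pulls in ~350 modules through `N35/NodeStrong4`) the
conclusion of `NodeRegAt10.NodeRegAt π B O1 O2` at `𝔪` is taken LITERALLY as the hypothesis `hreg`: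
feed `hreg := hR 𝔪 h𝔪 hπ h1 h2` for `hR : NodeRegAt π B O1 O2`.
-/
import Mathlib
import Fermat.Agent.ES.N34.NodalSmooth13
import Fermat.Agent.M1.Node.BaseNode25

set_option autoImplicit false
set_option linter.unusedSectionVars false
set_option linter.style.haveILetI false

namespace Fermat.Agent.M1.Node.BridgeK25

open IsLocalRing Fermat.Agent.ES.N34.NodalCore13 Fermat.Agent.ES.N34.NodalSmooth13
  Fermat.Agent.M1.Node.Thick25 Fermat.Agent.M1.Node.BaseNode25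

variable {R F : Type*} [CommRing R] [Field F] [Algebra R F]

/-- Local `π`-saturation of `B_𝔪` in `O1 ⊓ O2` from the global saturation of the chart. -/
theorem locSub_sat (π : R) (B : Subalgebra R F) (O1 O2 : ValuationSubring F)
    (leO1 : ∀ x ∈ B, x ∈ O1) (leO2 : ∀ x ∈ B, x ∈ O2)
    (pi_ne : algebraMap R F π ≠ 0)
    (sat : ∀ b ∈ B, ∀ c : F, c ∈ O1 → c ∈ O2 → b = algebraMap R F π * c → c ∈ B)
    (𝔪 : Ideal B) [h𝔪 : 𝔪.IsPrime] (c : F) (hc : c ∈ locSub B 𝔪)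
    (h1 : ∃ o ∈ O1, c = algebraMap R F π * o) (h2 : ∃ o ∈ O2, c = algebraMap R F π * o) :
    ∃ c' ∈ locSub B 𝔪, c = algebraMap R F π * c' := by
  obtain ⟨o, ho1, hco⟩ := h1
  obtain ⟨o', ho2, hco'⟩ := h2
  have hoo : o = o' := mul_left_cancel₀ pi_ne (hco.symm.trans hco')
  subst hoo
  obtain ⟨a, d, hd, had⟩ := hc
  have hod : o * (d : F) ∈ B := by
    refine sat (a : F) a.2 (o * (d : F)) (O1.mul_mem _ _ ho1 (leO1 _ d.2))
      (O2.mul_mem _ _ ho2 (leO2 _ d.2)) ?_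
    rw [← had, hco]; ring
  exact ⟨o, ⟨⟨o * (d : F), hod⟩, d, hd, rfl⟩, hco⟩

/-- **`RegNode` from `NodeRegAt`** at a two-branch closed point of a chart of the nodal model.
`hreg` is literally the conclusion of `NodeRegAt10.NodeRegAt π B O1 O2` at `𝔪`. -/
theorem regNode_of_nodeRegAt (π : R) (B : Subalgebra R F) (O1 O2 : ValuationSubring F)
    (leO1 : ∀ x ∈ B, x ∈ O1) (leO2 : ∀ x ∈ B, x ∈ O2)
    (pi_nonunit1 : (algebraMap R F π)⁻¹ ∉ O1) (pi_nonunit2 : (algebraMap R F π)⁻¹ ∉ O2)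
    (unif1 : ∀ x ∈ O1, x⁻¹ ∉ O1 → ∃ c ∈ O1, x = algebraMap R F π * c)
    (unif2 : ∀ x ∈ O2, x⁻¹ ∉ O2 → ∃ c ∈ O2, x = algebraMap R F π * c)
    (sat : ∀ b ∈ B, ∀ c : F, c ∈ O1 → c ∈ O2 → b = algebraMap R F π * c → c ∈ B)
    (𝔪 : Ideal B) (h𝔪 : 𝔪.IsMaximal)
    (hreg : (haveI := h𝔪.isPrime
     ∃ x y e : B, x * y = algebraMap R B π * e ∧
      (∀ c ∈ locSub B 𝔪, c ∈ O1) ∧ (∀ c ∈ locSub B 𝔪, c ∈ O2) ∧
      maximalIdeal ↥(locSub B 𝔪) = Ideal.span {algebraMap ↥B ↥(locSub B 𝔪) x,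
        algebraMap ↥B ↥(locSub B 𝔪) y} ∧
      Prime (algebraMap ↥B ↥(locSub B 𝔪) x) ∧ Prime (algebraMap ↥B ↥(locSub B 𝔪) y) ∧
      ¬ algebraMap ↥B ↥(locSub B 𝔪) x ∣ algebraMap ↥B ↥(locSub B 𝔪) y ∧
      ¬ algebraMap ↥B ↥(locSub B 𝔪) y ∣ algebraMap ↥B ↥(locSub B 𝔪) x ∧
      (∀ c : ↥(locSub B 𝔪), (∃ o ∈ O2, (c : F) = algebraMap R F π * o) ↔
        algebraMap ↥B ↥(locSub B 𝔪) x ∣ c) ∧
      (∀ c : ↥(locSub B 𝔪), (∃ o ∈ O1, (c : F) = algebraMap R F π * o) ↔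
        algebraMap ↥B ↥(locSub B 𝔪) y ∣ c) ∧
      e ∉ 𝔪)) :
    (haveI := h𝔪.isPrime
     ∃ x y : B, x ∈ 𝔪 ∧ y ∈ 𝔪 ∧
      RegNode (locSub B 𝔪).toSubring O1 O2 (algebraMap R F π) (x : F) (y : F)) := by
  haveI := h𝔪.isPrime
  obtain ⟨x, y, e, hxy, hle1, hle2, hmax, -, -, hnxy, hnyx, hx2, hy1, he⟩ := hreg
  have pi_ne : algebraMap R F π ≠ 0 := by
    intro h0
    apply pi_nonunit1
    rw [h0, inv_zero]
    exact O1.zero_mem
  set C : Subalgebra R F := locSub B 𝔪 with hC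
  set x' : ↥C := algebraMap ↥B ↥C x with hx'
  set y' : ↥C := algebraMap ↥B ↥C y with hy'
  have hx'm : x' ∈ maximalIdeal ↥C := by rw [hmax]; exact Ideal.subset_span (by simp)
  have hy'm : y' ∈ maximalIdeal ↥C := by rw [hmax]; exact Ideal.subset_span (by simp)
  have hxm : x ∈ 𝔪 := by
    by_contra hx
    have hu : IsUnit x' :=
      IsLocalization.map_units (M := 𝔪.primeCompl) ↥C ⟨x, hx⟩
    exact (IsLocalRing.mem_maximalIdeal _).mp hx'm hu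
  have hym : y ∈ 𝔪 := by
    by_contra hy
    have hu : IsUnit y' :=
      IsLocalization.map_units (M := 𝔪.primeCompl) ↥C ⟨y, hy⟩
    exact (IsLocalRing.mem_maximalIdeal _).mp hy'm hu
  refine ⟨x, y, hxm, hym, ?_⟩
  refine
    { q_mem := C.algebraMap_mem π
      x_mem := le_locSub B 𝔪 x.2
      y_mem := le_locSub B 𝔪 y.2
      le1 := hle1
      le2 := hle2
      unif1 := ⟨pi_nonunit1, unif1⟩
      unif2 := ⟨pi_nonunit2, unif2⟩
      sat := fun c hc => locSub_sat π B O1 O2 leO1 leO2 pi_ne sat 𝔪 c hc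
      xy := ?_
      x_unit1 := ?_
      y_unit2 := ?_
      nonunit := ?_
      proper := ?_
      vert1 := ?_
      vert2 := ?_ }
  · -- `x y = π e`, `e` a unit of `B_𝔪`
    have he0 : (e : F) ≠ 0 := coe_ne_zero_of_notMem B 𝔪 he
    refine ⟨(e : F), le_locSub B 𝔪 e.2, (e : F)⁻¹, inv_mem_locSub B 𝔪 he,
      mul_inv_cancel₀ he0, ?_⟩
    have := congrArg (fun z : ↥B => (z : F)) hxy
    simpa using this
  · -- `x ∉ π O1`
    intro hx
    exact hnyx ((hy1 x').mp hx)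
  · intro hy
    exact hnxy ((hx2 y').mp hy)
  · -- non-units lie in `(x, y)`
    intro c hc hcinv
    have hnu : ¬ IsUnit (⟨c, hc⟩ : ↥C) := by
      intro hu
      apply hcinv
      obtain ⟨u, hu⟩ := hu
      have h1 : (⟨c, hc⟩ : ↥C) * (↑u⁻¹ : ↥C) = 1 := by rw [← hu]; exact u.mul_inv
      have h2 : c * ((↑u⁻¹ : ↥C) : F) = 1 := congrArg (fun z : ↥C => (z : F)) h1
      have : c⁻¹ = ((↑u⁻¹ : ↥C) : F) := (eq_inv_of_mul_eq_one_right h2).symm ▸ rfl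
      rw [this]
      exact (↑u⁻¹ : ↥C).2
    have hmem : (⟨c, hc⟩ : ↥C) ∈ maximalIdeal ↥C := (IsLocalRing.mem_maximalIdeal _).mpr hnu
    rw [hmax, Ideal.mem_span_pair] at hmem
    obtain ⟨a, b, hab⟩ := hmem
    refine ⟨(a : F), a.2, (b : F), b.2, ?_⟩
    have := congrArg (fun z : ↥C => (z : F)) hab
    exact this.symm
  · -- `(x, y)` is proper
    intro a ha b hb hab
    have hmem : (⟨a, ha⟩ : ↥C) * x' + ⟨b, hb⟩ * y' ∈ maximalIdeal ↥C :=
      Ideal.add_mem _ (Ideal.mul_mem_left _ _ hx'm) (Ideal.mul_mem_left _ _ hy'm)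
    have h1 : (⟨a, ha⟩ : ↥C) * x' + ⟨b, hb⟩ * y' = 1 := Subtype.ext hab
    rw [h1] at hmem
    exact (IsLocalRing.mem_maximalIdeal _).mp hmem isUnit_one
  · -- `C ∩ π O1 = y C`
    intro c hc hc1
    obtain ⟨b, hb⟩ := (hy1 ⟨c, hc⟩).mp hc1
    refine ⟨(b : F), b.2, ?_⟩
    have := congrArg (fun z : ↥C => (z : F)) hb
    rw [mul_comm]
    exact this
  · intro c hc hc2
    obtain ⟨b, hb⟩ := (hx2 ⟨c, hc⟩).mp hc2
    refine ⟨(b : F), b.2, ?_⟩
    have := congrArg (fun z : ↥C => (z : F)) hb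
    rw [mul_comm]
    exact this

end Fermat.Agent.M1.Node.BridgeK25
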