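/-
M1 / chapter NODE, NCG (#523 B), part 3 (helper58): monomials span `O/K` when `K ∋ π, xy, x^A` and
`y^B ≡ σ x^(A-1)`, for `O = R + (π, x, y) O`.  Mathlib only.
-/
import Mathlib

set_option autoImplicit false

namespace Fermat.Agent.M1.Node.NCGMono58

variable {R O : Type*} [CommRing R] [CommRing O] [Algebra R O]

/-- the monomial family `1, x, …, x^(A-1), y, y², …`. -/
def mono (x y : O) (A : ℕ) (j : ℕ) : O := if j < A then x ^ j else y ^ (j - A + 1)

theorem mono_of_lt (x y : O) {A j : ℕ} (h : j < A) : mono x y A j = x ^ j := if_pos h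

theorem mono_add (x y : O) (A j : ℕ) : mono x y A (A + j) = y ^ (j + 1) := by
  unfold mono
  rw [if_neg (by omega)]
  congr 1
  omega

section Span

variable (p x y : O) (K : Ideal O)
  (hres : ∀ a : O, ∃ r : R, ∃ a₀ a₁ a₂ : O, a = algebraMap R O r + a₀ * p + a₁ * x + a₂ * y)
  (hp : p ∈ K)
include hres hp

/-- peeling off powers of `x`. -/
theorem span_x : ∀ (n : ℕ) (a : O), ∃ (r : ℕ → R) (a' b' : O),
    a - (∑ i ∈ Finset.range n, r i • x ^ i + a' * x ^ n + b' * y) ∈ K := by
  intro n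
  induction n with
  | zero =>
    intro a
    exact ⟨fun _ => 0, a, 0, by simp⟩
  | succ n ih =>
    intro a
    obtain ⟨r, a', b', h⟩ := ih a
    obtain ⟨s, a₀, a₁, a₂, ha'⟩ := hres a'
    refine ⟨fun i => if i = n then s else r i, a₁, b' + a₂ * x ^ n, ?_⟩
    have h1 : ∑ i ∈ Finset.range (n + 1), (if i = n then s else r i) • x ^ i =
        ∑ i ∈ Finset.range n, r i • x ^ i + s • x ^ n := by
      rw [Finset.sum_range_succ, if_pos rfl]
      congr 1
      refine Finset.sum_congr rfl fun i hi => ?_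
      rw [if_neg (Finset.mem_range.mp hi).ne]
    rw [h1]
    have h2 : a - (∑ i ∈ Finset.range n, r i • x ^ i + s • x ^ n + a₁ * x ^ (n + 1) +
        (b' + a₂ * x ^ n) * y) =
        (a - (∑ i ∈ Finset.range n, r i • x ^ i + a' * x ^ n + b' * y)) + a₀ * x ^ n * p := by
      rw [ha', Algebra.smul_def, pow_succ]; ring
    rw [h2]
    exact K.add_mem h (K.mul_mem_left _ hp)

variable (hxy : x * y ∈ K)
include hxy

/-- peeling off powers of `y`. -/
theorem span_y : ∀ (n : ℕ) (b : O), ∃ (s : ℕ → R) (b'' : O),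
    b * y - (∑ j ∈ Finset.range n, s j • y ^ (j + 1) + b'' * y ^ (n + 1)) ∈ K := by
  intro n
  induction n with
  | zero =>
    intro b
    exact ⟨fun _ => 0, b, by simp⟩
  | succ n ih =>
    intro b
    obtain ⟨s, b'', h⟩ := ih b
    obtain ⟨s', a₀, a₁, a₂, hb''⟩ := hres b''
    refine ⟨fun j => if j = n then s' else s j, a₂, ?_⟩
    have h1 : ∑ j ∈ Finset.range (n + 1), (if j = n then s' else s j) • y ^ (j + 1) =
        ∑ j ∈ Finset.range n, s j • y ^ (j + 1) + s' • y ^ (n + 1) := by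
      rw [Finset.sum_range_succ, if_pos rfl]
      congr 1
      refine Finset.sum_congr rfl fun j hj => ?_
      rw [if_neg (Finset.mem_range.mp hj).ne]
    rw [h1]
    have h2 : b * y - (∑ j ∈ Finset.range n, s j • y ^ (j + 1) + s' • y ^ (n + 1) +
        a₂ * y ^ (n + 1 + 1)) =
        (b * y - (∑ j ∈ Finset.range n, s j • y ^ (j + 1) + b'' * y ^ (n + 1))) +
          a₀ * y ^ (n + 1) * p + a₁ * y ^ n * (x * y) := by
      rw [hb'', Algebra.smul_def, pow_succ y (n + 1), pow_succ y n]; ring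
    rw [h2]
    exact K.add_mem (K.add_mem h (K.mul_mem_left _ hp)) (K.mul_mem_left _ hxy)

/-- **Monomial span**: with `x^A ∈ K` and `y^(B'+1) - σ x^(A-1) ∈ K` (`σ = 0` or `2 ≤ A`), every
element of `O` is congruent modulo `K` to an `R`-combination of the `A + B'` monomials
`1, x, …, x^(A-1), y, …, y^B'`. -/
theorem span_mono (A B' : ℕ) (hA : 1 ≤ A) (hxA : x ^ A ∈ K) (σ : R)
    (hyB : y ^ (B' + 1) - algebraMap R O σ * x ^ (A - 1) ∈ K) (hσ : σ = 0 ∨ 2 ≤ A) (a : O) :
    ∃ c : ℕ → R, a - ∑ j ∈ Finset.range (A + B'), c j • mono x y A j ∈ K := by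
  obtain ⟨r, a', b', h1⟩ := span_x p x y K hres hp A a
  obtain ⟨s, b'', h2⟩ := span_y p x y K hres hp hxy B' b'
  obtain ⟨s'', a₀, a₁, a₂, hb''⟩ := hres b''
  -- `b'' y^(B'+1) ≡ b'' σ x^(A-1) ≡ s'' σ x^(A-1)`
  have h3 : b'' * y ^ (B' + 1) - (s'' * σ) • x ^ (A - 1) ∈ K := by
    have e1 : b'' * y ^ (B' + 1) - (s'' * σ) • x ^ (A - 1) =
        b'' * (y ^ (B' + 1) - algebraMap R O σ * x ^ (A - 1)) +
          (a₀ * algebraMap R O σ * x ^ (A - 1)) * p + (a₁ * algebraMap R O σ) * (x * x ^ (A - 1)) +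
            a₂ * (algebraMap R O σ * (y * x ^ (A - 1))) := by
      rw [Algebra.smul_def, map_mul, hb'']
      ring
    rw [e1]
    refine K.add_mem (K.add_mem (K.add_mem (K.mul_mem_left _ hyB) (K.mul_mem_left _ hp)) ?_) ?_
    · have : x * x ^ (A - 1) = x ^ A := by
        rw [← pow_succ']; congr 1; omega
      rw [this]
      exact K.mul_mem_left _ hxA
    · rcases hσ with hσ0 | hA2
      · rw [hσ0, map_zero, zero_mul, mul_zero]
        exact K.zero_mem
      · have : y * x ^ (A - 1) = (x * y) * x ^ (A - 2) := by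
          have : A - 1 = (A - 2) + 1 := by omega
          rw [this, pow_succ]; ring
        rw [this]
        exact K.mul_mem_left _ (K.mul_mem_left _ (K.mul_mem_right _ hxy))
  -- assemble the coefficients
  refine ⟨fun j => if j < A then (if j = A - 1 then r j + s'' * σ else r j) else s (j - A), ?_⟩
  rw [Finset.sum_range_add]
  have e2 : ∑ j ∈ Finset.range A,
      (if j < A then (if j = A - 1 then r j + s'' * σ else r j) else s (j - A)) • mono x y A j =
      ∑ j ∈ Finset.range A, r j • x ^ j + (s'' * σ) • x ^ (A - 1) := by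
    have e3 : ∀ j ∈ Finset.range A,
        (if j < A then (if j = A - 1 then r j + s'' * σ else r j) else s (j - A)) • mono x y A j =
          r j • x ^ j + (if j = A - 1 then (s'' * σ) • x ^ (A - 1) else 0) := by
      intro j hj
      have hjA := Finset.mem_range.mp hj
      rw [if_pos hjA, mono_of_lt x y hjA]
      by_cases hj1 : j = A - 1
      · rw [if_pos hj1, if_pos hj1, add_smul, ← hj1]
      · rw [if_neg hj1, if_neg hj1, add_zero]
    rw [Finset.sum_congr rfl e3, Finset.sum_add_distrib, Finset.sum_ite_eq',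
      if_pos (Finset.mem_range.mpr (by omega))]
  have e4 : ∑ j ∈ Finset.range B',
      (if A + j < A then (if A + j = A - 1 then r (A + j) + s'' * σ else r (A + j))
        else s (A + j - A)) • mono x y A (A + j) =
      ∑ j ∈ Finset.range B', s j • y ^ (j + 1) := by
    refine Finset.sum_congr rfl fun j _ => ?_
    rw [if_neg (by omega), mono_add, Nat.add_sub_cancel_left]
  rw [e2, e4]
  have e5 : a - (∑ j ∈ Finset.range A, r j • x ^ j + (s'' * σ) • x ^ (A - 1) +
      ∑ j ∈ Finset.range B', s j • y ^ (j + 1)) =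
      (a - (∑ i ∈ Finset.range A, r i • x ^ i + a' * x ^ A + b' * y)) + a' * x ^ A +
        (b' * y - (∑ j ∈ Finset.range B', s j • y ^ (j + 1) + b'' * y ^ (B' + 1))) +
          (b'' * y ^ (B' + 1) - (s'' * σ) • x ^ (A - 1)) := by ring
  rw [e5]
  exact K.add_mem (K.add_mem (K.add_mem h1 (K.mul_mem_left _ hxA)) h2) h3

end Span

end Fermat.Agent.M1.Node.NCGMono58
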